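import Mathlib

/-!
Cohomology in degrees at most two with cochains that are constant modulo a family of levels,
relative to a subgroup of an ambient group (so that restriction is the identity on cochains).
-/

set_option autoImplicit false

namespace FermatAgent.CFT.Coh

/-- A family of finite index subgroups, closed under intersection and normal cores. -/
structure Levels (Γ : Type*) [Group Γ] where
  /-- The levels. -/
  carrier : Set (Subgroup Γ)
  top_mem' : ⊤ ∈ carrier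
  inf_mem' : ∀ {U V}, U ∈ carrier → V ∈ carrier → U ⊓ V ∈ carrier
  normalCore_mem' : ∀ {U}, U ∈ carrier → U.normalCore ∈ carrier
  finiteIndex' : ∀ {U}, U ∈ carrier → U.FiniteIndex
  mem_of_le' : ∀ {U V}, U ∈ carrier → U ≤ V → V ∈ carrier

variable {Γ : Type*} [Group Γ]

instance : Membership (Subgroup Γ) (Levels Γ) := ⟨fun L U => U ∈ L.carrier⟩

namespace Levels

variable (L : Levels Γ)

/-- The whole group is a level. -/
lemma top_mem : (⊤ : Subgroup Γ) ∈ L := L.top_mem'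

/-- Levels are stable under intersection. -/
lemma inf_mem {U V : Subgroup Γ} (hU : U ∈ L) (hV : V ∈ L) : U ⊓ V ∈ L := L.inf_mem' hU hV

lemma normalCore_mem {U : Subgroup Γ} (hU : U ∈ L) : U.normalCore ∈ L := L.normalCore_mem' hU

/-- Levels have finite index. -/
lemma finiteIndex {U : Subgroup Γ} (hU : U ∈ L) : U.FiniteIndex := L.finiteIndex' hU

/-- Subgroups containing a level are levels. -/
lemma mem_of_le {L : Levels Γ} {U V : Subgroup Γ} (hU : U ∈ L) (h : U ≤ V) : V ∈ L :=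
  L.mem_of_le' hU h

/-- Every level contains a normal level. -/
lemma exists_normal {U : Subgroup Γ} (hU : U ∈ L) :
    ∃ V ∈ L, V.Normal ∧ V ≤ U :=
  ⟨U.normalCore, L.normalCore_mem hU, Subgroup.normalCore_normal U, Subgroup.normalCore_le U⟩

/-- Finite intersections of levels are levels. -/
lemma finset_inf_mem {ι : Type*} (s : Finset ι) (U : ι → Subgroup Γ) (h : ∀ i ∈ s, U i ∈ L) :
    s.inf U ∈ L := by
  classical
  induction s using Finset.induction with
  | empty => simpa using L.top_mem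
  | insert a s ha ih =>
    rw [Finset.inf_insert]
    exact L.inf_mem (h a (Finset.mem_insert_self a s))
      (ih fun i hi => h i (Finset.mem_insert_of_mem hi))

/-- Pullback of levels along a homomorphism. -/
def comap {Δ : Type*} [Group Δ] (r : Δ →* Γ) : Levels Δ where
  carrier := {U | ∃ V ∈ L, V.comap r ≤ U ∧ U.FiniteIndex}
  top_mem' := ⟨⊤, L.top_mem, le_top, inferInstance⟩
  inf_mem' := by
    rintro U V ⟨U', hU', hU, hUf⟩ ⟨V', hV', hV, hVf⟩
    exact ⟨U' ⊓ V', L.inf_mem hU' hV', by rw [Subgroup.comap_inf]; exact inf_le_inf hU hV,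
      inferInstance⟩
  normalCore_mem' := by
    rintro U ⟨U', hU', hU, hUf⟩
    refine ⟨U'.normalCore, L.normalCore_mem hU', ?_, Subgroup.finiteIndex_normalCore U⟩
    have := Subgroup.normalCore_normal U'
    exact Subgroup.normal_le_normalCore.mpr
      ((Subgroup.comap_mono (Subgroup.normalCore_le U')).trans hU)
  finiteIndex' := fun ⟨_, _, _, h⟩ => h
  mem_of_le' := by
    rintro U W ⟨U', hU', hU, hUf⟩ hUW
    exact ⟨U', hU', hU.trans hUW, Subgroup.finiteIndex_of_le hUW⟩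

/-- Preimages of levels are pulled-back levels. -/
lemma comap_mem {Δ : Type*} [Group Δ] (r : Δ →* Γ) {V : Subgroup Γ} (hV : V ∈ L) :
    V.comap r ∈ L.comap r :=
  ⟨V, hV, le_rfl, by
    have := L.finiteIndex hV
    exact ⟨by
      rw [Subgroup.index_comap]
      intro h
      have h' := Subgroup.relIndex_eq_zero_of_le_right le_top h
      rw [Subgroup.relIndex_top_right] at h'
      exact Subgroup.FiniteIndex.index_ne_zero h'⟩⟩

end Levels

section Cochains

variable {A : Type*} [AddCommGroup A] [DistribMulAction Γ A]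

/-- The coboundary of a `0`-cochain. -/
def d0 (a : A) (g : Γ) : A := g • a - a

/-- The coboundary of a `1`-cochain. -/
def d1 (c : Γ → A) (g h : Γ) : A := g • c h - c (g * h) + c g

/-- The coboundary of a `2`-cochain. -/
def d2 (f : Γ → Γ → A) (g h j : Γ) : A := g • f h j - f (g * h) j + f g (h * j) - f g h

/-- `d¹ ∘ d⁰ = 0`. -/
lemma d1_d0 (a : A) (g h : Γ) : d1 (d0 a) g h = 0 := by
  simp only [d1, d0, smul_sub, mul_smul]; abel

/-- `d² ∘ d¹ = 0`. -/
lemma d2_d1 (c : Γ → A) (g h j : Γ) : d2 (d1 c) g h j = 0 := by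
  simp only [d2, d1, smul_sub, smul_add, mul_smul, mul_assoc]; abel

/-- `d¹` is additive. -/
lemma d1_add (c c' : Γ → A) (g h : Γ) : d1 (c + c') g h = d1 c g h + d1 c' g h := by
  simp only [d1, Pi.add_apply, smul_add]; abel

/-- `d¹` commutes with differences. -/
lemma d1_sub (c c' : Γ → A) (g h : Γ) : d1 (c - c') g h = d1 c g h - d1 c' g h := by
  simp only [d1, Pi.sub_apply, smul_sub]; abel

lemma d1_neg (c : Γ → A) (g h : Γ) : d1 (-c) g h = -d1 c g h := by
  simp only [d1, Pi.neg_apply, smul_neg]; abel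

lemma d2_add (f f' : Γ → Γ → A) (g h j : Γ) : d2 (f + f') g h j = d2 f g h j + d2 f' g h j := by
  simp only [d2, Pi.add_apply, smul_add]; abel

lemma d2_neg (f : Γ → Γ → A) (g h j : Γ) : d2 (-f) g h j = -d2 f g h j := by
  simp only [d2, Pi.neg_apply, smul_neg]; abel

namespace Levels

variable (L : Levels Γ) (U : Subgroup Γ)

/-- Constancy of a one-variable cochain on `U` modulo a level. -/
def Const1 {X : Type*} (c : Γ → X) : Prop :=
  ∃ V ∈ L, ∀ g ∈ U, ∀ s ∈ U ⊓ V, c (g * s) = c g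

/-- Constancy of a two-variable cochain on `U` modulo a level. -/
def Const2 {X : Type*} (f : Γ → Γ → X) : Prop :=
  ∃ V ∈ L, ∀ g ∈ U, ∀ h ∈ U, ∀ s ∈ U ⊓ V, ∀ s' ∈ U ⊓ V, f (g * s) (h * s') = f g h

variable {L U}

/-- Constancy on a subgroup restricts to smaller subgroups. -/
lemma Const1.mono {X : Type*} {c : Γ → X} {U' : Subgroup Γ} (h : L.Const1 U c) (hU : U' ≤ U) :
    L.Const1 U' c := by
  obtain ⟨V, hV, h⟩ := h
  exact ⟨V, hV, fun g hg s hs => h g (hU hg) s ⟨hU hs.1, hs.2⟩⟩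

/-- Constancy of two-cochains restricts to smaller subgroups. -/
lemma Const2.mono {X : Type*} {f : Γ → Γ → X} {U' : Subgroup Γ} (h : L.Const2 U f) (hU : U' ≤ U) :
    L.Const2 U' f := by
  obtain ⟨V, hV, h⟩ := h
  exact ⟨V, hV, fun g hg k hk s hs s' hs' =>
    h g (hU hg) k (hU hk) s ⟨hU hs.1, hs.2⟩ s' ⟨hU hs'.1, hs'.2⟩⟩

/-- Composing with a map preserves constancy. -/
lemma Const1.comp {X Y : Type*} {c : Γ → X} (h : L.Const1 U c) (φ : X → Y) :
    L.Const1 U (fun g => φ (c g)) := by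
  obtain ⟨V, hV, h⟩ := h
  exact ⟨V, hV, fun g hg s hs => congrArg φ (h g hg s hs)⟩

/-- Composing with a map preserves constancy of two-cochains. -/
lemma Const2.comp {X Y : Type*} {f : Γ → Γ → X} (h : L.Const2 U f) (φ : X → Y) :
    L.Const2 U (fun g g' => φ (f g g')) := by
  obtain ⟨V, hV, h⟩ := h
  exact ⟨V, hV, fun g hg k hk s hs s' hs' => congrArg φ (h g hg k hk s hs s' hs')⟩

/-- Pointwise operations preserve constancy. -/
lemma Const1.op {X Y Z : Type*} {c : Γ → X} {c' : Γ → Y} (h : L.Const1 U c) (h' : L.Const1 U c')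
    (op : X → Y → Z) : L.Const1 U (fun g => op (c g) (c' g)) := by
  obtain ⟨V, hV, h⟩ := h
  obtain ⟨V', hV', h'⟩ := h'
  exact ⟨V ⊓ V', L.inf_mem hV hV', fun g hg s hs =>
    congrArg₂ op (h g hg s ⟨hs.1, hs.2.1⟩) (h' g hg s ⟨hs.1, hs.2.2⟩)⟩

lemma Const2.op {X Y Z : Type*} {f : Γ → Γ → X} {f' : Γ → Γ → Y} (h : L.Const2 U f)
    (h' : L.Const2 U f') (op : X → Y → Z) : L.Const2 U (fun g g' => op (f g g') (f' g g')) := by
  obtain ⟨V, hV, h⟩ := h
  obtain ⟨V', hV', h'⟩ := h'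
  exact ⟨V ⊓ V', L.inf_mem hV hV', fun g hg k hk s hs s' hs' =>
    congrArg₂ op (h g hg k hk s ⟨hs.1, hs.2.1⟩ s' ⟨hs'.1, hs'.2.1⟩)
      (h' g hg k hk s ⟨hs.1, hs.2.2⟩ s' ⟨hs'.1, hs'.2.2⟩)⟩

/-- Constant functions are constant along every level. -/
lemma const1_const {X : Type*} (x : X) : L.Const1 U (fun _ => x) :=
  ⟨⊤, L.top_mem, fun _ _ _ _ => rfl⟩

lemma const2_const {X : Type*} (x : X) : L.Const2 U (fun _ _ => x) :=
  ⟨⊤, L.top_mem, fun _ _ _ _ _ _ _ _ => rfl⟩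

variable (L) in
/-- A smooth module. -/
def Smooth (A : Type*) [AddCommGroup A] [DistribMulAction Γ A] : Prop :=
  ∀ a : A, ∃ V ∈ L, ∀ s ∈ V, s • a = a

/-- Finitely many elements of a smooth module are fixed by one level. -/
lemma Smooth.exists_finset (hA : L.Smooth A) (s : Finset A) :
    ∃ V ∈ L, ∀ g ∈ V, ∀ a ∈ s, g • a = a := by
  choose V hV hfix using hA
  exact ⟨s.inf V, L.finset_inf_mem s V fun a _ => hV a,
    fun g hg a ha => hfix a g ((Finset.inf_le (f := V) ha) hg)⟩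

/-- A level constant `1`-cochain on `U` has finitely many values there. -/
lemma Const1.finite_image {X : Type*} {c : Γ → X} (h : L.Const1 U c) :
    (c '' (U : Set Γ)).Finite := by
  obtain ⟨V, hV, h⟩ := h
  have := L.finiteIndex hV
  have : Finite (U ⧸ V.subgroupOf U) := Subgroup.finite_quotient_of_finiteIndex
  refine (Set.finite_range fun q : U ⧸ V.subgroupOf U => c (q.out : U)).subset ?_
  rintro _ ⟨g, hg, rfl⟩
  refine ⟨QuotientGroup.mk ⟨g, hg⟩, ?_⟩
  obtain ⟨s, hs⟩ := QuotientGroup.mk_out_eq_mul (V.subgroupOf U) (⟨g, hg⟩ : U)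
  show c ((QuotientGroup.mk ⟨g, hg⟩ : U ⧸ V.subgroupOf U).out : U) = c g
  rw [hs]
  exact h g hg _ ⟨(s : U).2, s.2⟩

/-- The coboundary of a locally constant cochain is locally constant on a smooth module. -/
lemma Const1.d1 (hA : L.Smooth A) {c : Γ → A} (h : L.Const1 U c) : L.Const2 U (Coh.d1 c) := by
  classical
  obtain ⟨W, hW, hfix⟩ := hA.exists_finset h.finite_image.toFinset
  obtain ⟨V, hV, h⟩ := h
  obtain ⟨N, hN, hNn, hNle⟩ := L.exists_normal (L.inf_mem hV hW)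
  refine ⟨N, hN, fun g hg k hk s hs s' hs' => ?_⟩
  have hsU : s ∈ U := hs.1
  have hs'U : s' ∈ U := hs'.1
  have e1 : c (k * s') = c k := h k hk s' ⟨hs'.1, (hNle hs'.2).1⟩
  have e2 : c (g * s * (k * s')) = c (g * k) := by
    rw [show g * s * (k * s') = g * k * (k⁻¹ * s * k * s') by group]
    have hconj : k⁻¹ * s * k * s' ∈ U := mul_mem (mul_mem (mul_mem (inv_mem hk) hsU) hk) hs'U
    refine h _ (mul_mem hg hk) _ ⟨hconj,
      (hNle (mul_mem ?_ hs'.2)).1⟩
    have := hNn.conj_mem s hs.2 k⁻¹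
    rwa [inv_inv] at this
  have e3 : c (g * s) = c g := h g hg s ⟨hs.1, (hNle hs.2).1⟩
  simp only [Coh.d1]
  rw [e1, e2, e3, mul_smul, hfix s (hNle hs.2).2 (c k) (by simpa using ⟨k, hk, rfl⟩)]

variable (L U)

/-- Cocycles of degree one on `U`. -/
def Z1 (A : Type*) [AddCommGroup A] [DistribMulAction Γ A] : AddSubgroup (Γ → A) where
  carrier := {c | L.Const1 U c ∧ ∀ g ∈ U, ∀ h ∈ U, Coh.d1 c g h = 0}
  zero_mem' := ⟨const1_const 0, fun g _ h _ => by simp [Coh.d1]⟩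
  add_mem' := fun {c c'} hc hc' => ⟨hc.1.op hc'.1 (· + ·), fun g hg h hh => by
    rw [d1_add, hc.2 g hg h hh, hc'.2 g hg h hh, add_zero]⟩
  neg_mem' := fun {c} hc => ⟨hc.1.comp Neg.neg, fun g hg h hh => by
    rw [d1_neg, hc.2 g hg h hh, neg_zero]⟩

/-- Coboundaries of degree one on `U`. -/
def B1 (A : Type*) [AddCommGroup A] [DistribMulAction Γ A] : AddSubgroup (Γ → A) where
  carrier := {c | ∃ a : A, ∀ g ∈ U, c g = d0 a g}
  zero_mem' := ⟨0, fun g _ => by simp [d0]⟩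
  add_mem' := fun {c c'} ⟨a, ha⟩ ⟨a', ha'⟩ => ⟨a + a', fun g hg => by
    simp only [Pi.add_apply, ha g hg, ha' g hg, d0, smul_add]; abel⟩
  neg_mem' := fun {c} ⟨a, ha⟩ => ⟨-a, fun g hg => by
    simp only [Pi.neg_apply, ha g hg, d0, smul_neg]; abel⟩

/-- Cocycles of degree two on `U`. -/
def Z2 (A : Type*) [AddCommGroup A] [DistribMulAction Γ A] : AddSubgroup (Γ → Γ → A) where
  carrier := {f | L.Const2 U f ∧ ∀ g ∈ U, ∀ h ∈ U, ∀ j ∈ U, Coh.d2 f g h j = 0}
  zero_mem' := ⟨const2_const 0, fun g _ h _ j _ => by simp [Coh.d2]⟩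
  add_mem' := fun {c c'} hc hc' => ⟨hc.1.op hc'.1 (· + ·), fun g hg h hh j hj => by
    rw [d2_add, hc.2 g hg h hh j hj, hc'.2 g hg h hh j hj, add_zero]⟩
  neg_mem' := fun {c} hc => ⟨hc.1.comp Neg.neg, fun g hg h hh j hj => by
    rw [d2_neg, hc.2 g hg h hh j hj, neg_zero]⟩

/-- Coboundaries of degree two on `U`. -/
def B2 (A : Type*) [AddCommGroup A] [DistribMulAction Γ A] : AddSubgroup (Γ → Γ → A) where
  carrier := {f | ∃ c : Γ → A, L.Const1 U c ∧ ∀ g ∈ U, ∀ h ∈ U, f g h = Coh.d1 c g h}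
  zero_mem' := ⟨0, const1_const 0, fun g _ h _ => by simp [Coh.d1]⟩
  add_mem' := fun {f f'} ⟨c, hc, h⟩ ⟨c', hc', h'⟩ => ⟨c + c', hc.op hc' (· + ·), fun g hg k hk => by
    rw [d1_add, Pi.add_apply, Pi.add_apply, h g hg k hk, h' g hg k hk]⟩
  neg_mem' := fun {f} ⟨c, hc, h⟩ => ⟨-c, hc.comp Neg.neg, fun g hg k hk => by
    rw [d1_neg, Pi.neg_apply, Pi.neg_apply, h g hg k hk]⟩

variable {L U}

/-- The cocycle identity. -/
lemma Z1_apply_mul {c : Γ → A} (hc : c ∈ L.Z1 U A) {g h : Γ} (hg : g ∈ U) (hh : h ∈ U) :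
    c (g * h) = g • c h + c g := by
  have := hc.2 g hg h hh
  simp only [Coh.d1] at this
  rw [← sub_eq_zero, ← neg_eq_zero, ← this]
  abel

/-- A cocycle vanishes at one. -/
lemma Z1_apply_one {c : Γ → A} (hc : c ∈ L.Z1 U A) : c 1 = 0 := by
  have := Z1_apply_mul hc (one_mem U) (one_mem U)
  rwa [mul_one, one_smul, eq_comm, add_eq_left] at this

/-- Two-cocycles restrict to smaller subgroups. -/
lemma Z2_mono {U' : Subgroup Γ} (hU : U' ≤ U) {f : Γ → Γ → A} (hf : f ∈ L.Z2 U A) :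
    f ∈ L.Z2 U' A :=
  ⟨hf.1.mono hU, fun g hg h hh j hj => hf.2 g (hU hg) h (hU hh) j (hU hj)⟩

/-- Two-coboundaries restrict to smaller subgroups. -/
lemma B2_mono {U' : Subgroup Γ} (hU : U' ≤ U) {f : Γ → Γ → A} (hf : f ∈ L.B2 U A) :
    f ∈ L.B2 U' A := by
  obtain ⟨c, hc, h⟩ := hf
  exact ⟨c, hc.mono hU, fun g hg k hk => h g (hU hg) k (hU hk)⟩

/-- The differential of a locally constant cochain is a coboundary. -/
lemma d1_mem_B2 {c : Γ → A} (hc : L.Const1 U c) : Coh.d1 c ∈ L.B2 U A :=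
  ⟨c, hc, fun _ _ _ _ => rfl⟩

/-- Being a coboundary depends only on the values on the subgroup. -/
lemma B2_congr {f f' : Γ → Γ → A} (hf : f ∈ L.B2 U A) (h : ∀ g ∈ U, ∀ k ∈ U, f' g k = f g k) :
    f' ∈ L.B2 U A := by
  obtain ⟨c, hc, hfc⟩ := hf
  exact ⟨c, hc, fun g hg k hk => (h g hg k hk).trans (hfc g hg k hk)⟩

/-- Coboundaries are cocycles. -/
lemma B2_le_Z2 (hA : L.Smooth A) : L.B2 U A ≤ L.Z2 U A := by
  rintro f ⟨c, hc, h⟩
  refine ⟨?_, fun g hg k hk j hj => ?_⟩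
  · obtain ⟨V, hV, hd⟩ := hc.d1 hA
    exact ⟨V, hV, fun g hg k hk s hs s' hs' => by
      rw [h _ (mul_mem hg hs.1) _ (mul_mem hk hs'.1), hd g hg k hk s hs s' hs', h g hg k hk]⟩
  · rw [← d2_d1 c g k j]
    simp only [Coh.d2, h k hk j hj, h _ (mul_mem hg hk) j hj, h g hg _ (mul_mem hk hj), h g hg k hk]

section Map

variable {B : Type*} [AddCommGroup B] [DistribMulAction Γ B]

/-- Equivariant maps commute with `d¹`. -/
lemma map_d1 (φ : A →+ B) {g : Γ} (hφ : ∀ a, φ (g • a) = g • φ a) (c : Γ → A) (h : Γ) :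
    φ (Coh.d1 c g h) = Coh.d1 (fun x => φ (c x)) g h := by
  simp only [Coh.d1, map_add, map_sub, hφ]

/-- Equivariant maps commute with `d²`. -/
lemma map_d2 (φ : A →+ B) {g : Γ} (hφ : ∀ a, φ (g • a) = g • φ a) (f : Γ → Γ → A) (h j : Γ) :
    φ (Coh.d2 f g h j) = Coh.d2 (fun x y => φ (f x y)) g h j := by
  simp only [Coh.d2, map_add, map_sub, hφ]

/-- Equivariant maps carry one-cocycles to one-cocycles. -/
lemma map_mem_Z1 (φ : A →+ B) (hφ : ∀ g ∈ U, ∀ a, φ (g • a) = g • φ a) {c : Γ → A}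
    (hc : c ∈ L.Z1 U A) : (fun g => φ (c g)) ∈ L.Z1 U B :=
  ⟨hc.1.comp φ, fun g hg h hh => by rw [← map_d1 φ (hφ g hg), hc.2 g hg h hh, map_zero]⟩

/-- Equivariant maps carry two-cocycles to two-cocycles. -/
lemma map_mem_Z2 (φ : A →+ B) (hφ : ∀ g ∈ U, ∀ a, φ (g • a) = g • φ a) {f : Γ → Γ → A}
    (hf : f ∈ L.Z2 U A) : (fun g h => φ (f g h)) ∈ L.Z2 U B :=
  ⟨hf.1.comp φ, fun g hg h hh j hj => by
    rw [← map_d2 φ (hφ g hg), hf.2 g hg h hh j hj, map_zero]⟩

/-- Equivariant maps carry two-coboundaries to two-coboundaries. -/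
lemma map_mem_B2 (φ : A →+ B) (hφ : ∀ g ∈ U, ∀ a, φ (g • a) = g • φ a) {f : Γ → Γ → A}
    (hf : f ∈ L.B2 U A) : (fun g h => φ (f g h)) ∈ L.B2 U B := by
  obtain ⟨c, hc, h⟩ := hf
  exact ⟨fun g => φ (c g), hc.comp φ, fun g hg k hk => by
    show φ (f g k) = _
    rw [h g hg k hk, map_d1 φ (hφ g hg)]⟩

/-- Exactness in the middle: a cocycle with coboundary image comes from the kernel. -/
lemma exists_kernel_lift {C : Type*} [AddCommGroup C] [DistribMulAction Γ C] (φ : A →+ B)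
    (ψ : B →+ C) (hφ : ∀ g ∈ U, ∀ a, φ (g • a) = g • φ a)
    (hψ : ∀ g ∈ U, ∀ b, ψ (g • b) = g • ψ b) (hinj : Function.Injective φ)
    (hsurj : Function.Surjective ψ) (hex : ∀ b, ψ b = 0 → ∃ a, φ a = b) (hB : L.Smooth B)
    {f : Γ → Γ → B} (hf : f ∈ L.Z2 U B) (h : (fun g k => ψ (f g k)) ∈ L.B2 U C) :
    ∃ e ∈ L.Z2 U A, f - (fun g k => φ (e g k)) ∈ L.B2 U B := by
  obtain ⟨c, hc, hfc⟩ := h
  set c' : Γ → B := fun g => Function.surjInv hsurj (c g)
  have hc' : L.Const1 U c' := hc.comp _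
  have hd : f - Coh.d1 c' ∈ L.Z2 U B := sub_mem hf (B2_le_Z2 hB (d1_mem_B2 hc'))
  have hker : ∀ g ∈ U, ∀ k ∈ U, ∃ a, φ a = f g k - Coh.d1 c' g k := fun g hg k hk => by
    refine hex _ ?_
    have hψc : (fun x => ψ (c' x)) = c := funext fun x => Function.surjInv_eq hsurj (c x)
    rw [map_sub, map_d1 ψ (hψ g hg), hψc]
    exact sub_eq_zero.mpr (hfc g hg k hk)
  classical
  let e : Γ → Γ → A := fun g k =>
    if h : ∃ a, φ a = f g k - Coh.d1 c' g k then h.choose else 0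
  have he : ∀ g ∈ U, ∀ k ∈ U, φ (e g k) = f g k - Coh.d1 c' g k := fun g hg k hk => by
    simp only [e, dif_pos (hker g hg k hk)]
    exact (hker g hg k hk).choose_spec
  refine ⟨e, ⟨?_, fun g hg k hk j hj => hinj ?_⟩, B2_congr (d1_mem_B2 hc') fun g hg k hk => ?_⟩
  · obtain ⟨V, hV, hconst⟩ := hd.1
    refine ⟨V, hV, fun g hg k hk s hs s' hs' => hinj ?_⟩
    rw [he _ (mul_mem hg hs.1) _ (mul_mem hk hs'.1), he g hg k hk]
    exact hconst g hg k hk s hs s' hs'
  · rw [map_zero, ← hd.2 g hg k hk j hj]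
    simp only [Coh.d2, map_add, map_sub, hφ g hg, he k hk j hj, he _ (mul_mem hg hk) j hj,
      he g hg _ (mul_mem hk hj), he g hg k hk, Pi.sub_apply]
  · show f g k - φ (e g k) = _
    rw [he g hg k hk, sub_sub_cancel]

end Map

section Pullback

variable {Δ : Type*} [Group Δ] [DistribMulAction Δ A] (r : Δ →* Γ)

lemma Const1.pullback {X : Type*} {c : Γ → X} {U' : Subgroup Δ} (h : L.Const1 U c)
    (hU : U' ≤ U.comap r) : (L.comap r).Const1 U' (fun d => c (r d)) := by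
  obtain ⟨V, hV, h⟩ := h
  exact ⟨V.comap r, L.comap_mem r hV, fun g hg s hs => by
    simp only [map_mul]; exact h _ (hU hg) _ ⟨hU hs.1, hs.2⟩⟩

/-- Pullbacks of locally constant two-cochains are locally constant. -/
lemma Const2.pullback {X : Type*} {f : Γ → Γ → X} {U' : Subgroup Δ} (h : L.Const2 U f)
    (hU : U' ≤ U.comap r) : (L.comap r).Const2 U' (fun d e => f (r d) (r e)) := by
  obtain ⟨V, hV, h⟩ := h
  exact ⟨V.comap r, L.comap_mem r hV, fun g hg k hk s hs s' hs' => by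
    simp only [map_mul]
    exact h _ (hU hg) _ (hU hk) _ ⟨hU hs.1, hs.2⟩ _ ⟨hU hs'.1, hs'.2⟩⟩

variable (hr : ∀ (d : Δ) (a : A), d • a = r d • a)

include hr in
/-- One-cocycles pull back to one-cocycles. -/
lemma pullback_mem_Z1 {U' : Subgroup Δ} (hU : U' ≤ U.comap r) {c : Γ → A} (hc : c ∈ L.Z1 U A) :
    (fun d => c (r d)) ∈ (L.comap r).Z1 U' A :=
  ⟨hc.1.pullback r hU, fun g hg h hh => by
    simp only [Coh.d1, map_mul, hr]; exact hc.2 _ (hU hg) _ (hU hh)⟩

include hr in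
/-- Two-cocycles pull back to two-cocycles. -/
lemma pullback_mem_Z2 {U' : Subgroup Δ} (hU : U' ≤ U.comap r) {f : Γ → Γ → A}
    (hf : f ∈ L.Z2 U A) : (fun d e => f (r d) (r e)) ∈ (L.comap r).Z2 U' A :=
  ⟨hf.1.pullback r hU, fun g hg h hh j hj => by
    simp only [Coh.d2, map_mul, hr]; exact hf.2 _ (hU hg) _ (hU hh) _ (hU hj)⟩

include hr in
/-- Two-coboundaries pull back to two-coboundaries. -/
lemma pullback_mem_B2 {U' : Subgroup Δ} (hU : U' ≤ U.comap r) {f : Γ → Γ → A}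
    (hf : f ∈ L.B2 U A) : (fun d e => f (r d) (r e)) ∈ (L.comap r).B2 U' A := by
  obtain ⟨c, hc, h⟩ := hf
  refine ⟨fun d => c (r d), hc.pullback r hU, fun g hg k hk => ?_⟩
  simp only [Coh.d1, map_mul, hr]
  exact h _ (hU hg) _ (hU hk)

end Pullback

end Levels

end Cochains

end FermatAgent.CFT.Coh
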