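import Fermat.Agent.CFT.Coh.Basic

/-!
Conjugating a two-cocycle of the whole group changes it by a coboundary.
-/

set_option autoImplicit false

noncomputable section

namespace FermatAgent.CFT.Coh

variable {Γ : Type*} [Group Γ] {L : Levels Γ} {A : Type*} [AddCommGroup A] [DistribMulAction Γ A]

/-- A conjugate of a cochain. -/
def conjCochain (g : Γ) (f : Γ → Γ → A) : Γ → Γ → A := fun a b => g • f (g⁻¹ * a * g) (g⁻¹ * b * g)

/-- Conjugation acts trivially on two-classes. -/
theorem conj_sub_mem_B2 (g : Γ) {f : Γ → Γ → A} (hf : f ∈ L.Z2 ⊤ A) :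
    conjCochain g f - f ∈ L.B2 ⊤ A := by
  obtain ⟨⟨V, hV, hc⟩, hcoc⟩ := hf
  obtain ⟨N, hN, hNn, hNV⟩ := L.exists_normal hV
  refine ⟨fun a => f g (g⁻¹ * a * g) - f a g, ⟨N, hN, fun a _ s hs => ?_⟩, fun a _ b _ => ?_⟩
  · have hs' : g⁻¹ * s * g ∈ N := by
      have := hNn.conj_mem s hs.2 g⁻¹
      rwa [inv_inv] at this
    have e1 : g⁻¹ * (a * s) * g = g⁻¹ * a * g * (g⁻¹ * s * g) := by group
    have h1 := hc g trivial (g⁻¹ * a * g) trivial 1 ⟨trivial, one_mem V⟩ (g⁻¹ * s * g)
      ⟨trivial, hNV hs'⟩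
    have h2 := hc a trivial g trivial s ⟨trivial, hNV hs.2⟩ 1 ⟨trivial, one_mem V⟩
    rw [mul_one] at h1 h2
    show f g (g⁻¹ * (a * s) * g) - f (a * s) g = _
    rw [e1, h1, h2]
  · show g • f (g⁻¹ * a * g) (g⁻¹ * b * g) - f a b = _
    set a' := g⁻¹ * a * g
    set b' := g⁻¹ * b * g
    have ea : g * a' = a * g := by simp only [a']; group
    have eb : g * b' = b * g := by simp only [b']; group
    have eab : g⁻¹ * (a * b) * g = a' * b' := by simp only [a', b']; group
    have h1 := hcoc g trivial a' trivial b' trivial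
    have h2 := hcoc a trivial g trivial b' trivial
    have h3 := hcoc a trivial b trivial g trivial
    simp only [d2, ea] at h1
    simp only [d2, eb] at h2
    simp only [d2] at h3
    simp only [d1, smul_sub]
    rw [eab, ← sub_eq_zero]
    have hsum : (g • f a' b' - f (a * g) b' + f g (a' * b') - f g a') -
        (a • f g b' - f (a * g) b' + f a (b * g) - f a g) +
        (a • f b g - f (a * b) g + f a (b * g) - f a b) = 0 := by rw [h1, h2, h3]; abel
    rw [← hsum]
    abel

end FermatAgent.CFT.Coh
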