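import Fermat.Agent.CFT.Coh.Restrict

/-!
Corestriction on cochains: additivity and composition with restriction.
-/

set_option autoImplicit false

noncomputable section

open scoped Classical

namespace FermatAgent.CFT.Coh

variable {Γ : Type*} [Group Γ] {L : Levels Γ} {A : Type*} [AddCommGroup A] [DistribMulAction Γ A]
  (U : Subgroup Γ) [U.FiniteIndex]

/-- Corestriction of a two-cochain. -/
def cores (f : Γ → Γ → A) : Γ → Γ → A := fun g k => Ind.total (indFun2 U f g k)

lemma cores_add (f f' : Γ → Γ → A) : cores U (f + f') = cores U f + cores U f' := by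
  funext g k
  show Ind.total (indFun2 U (f + f') g k) = Ind.total (indFun2 U f g k) +
    Ind.total (indFun2 U f' g k)
  rw [← map_add]
  exact congrArg _ (Ind.ext fun c => smul_add _ _ _)

/-- Corestriction commutes with differences. -/
lemma cores_sub (f f' : Γ → Γ → A) : cores U (f - f') = cores U f - cores U f' :=
  eq_sub_of_add_eq (by rw [← cores_add, sub_add_cancel])

/-- Corestriction carries coboundaries to coboundaries. -/
lemma cores_mem_B2 (hU : U ∈ L) {f : Γ → Γ → A} (hf : f ∈ L.B2 U A) : cores U f ∈ L.B2 ⊤ A :=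
  Levels.map_mem_B2 Ind.total (fun g _ φ => Ind.total_smul g φ) (indFun2_mem_B2 hU hf)

/-- Corestriction after restriction is multiplication by the index. -/
lemma cores_sub_index_nsmul_mem_B2 (hU : U ∈ L) (hA : L.Smooth A) {f : Γ → Γ → A}
    (hf : f ∈ L.Z2 ⊤ A) : cores U f - U.index • f ∈ L.B2 ⊤ A := by
  let ι : A →+ Ind U A :=
    { toFun := fun m => Ind.mk U fun _ => m
      map_zero' := rfl
      map_add' := fun _ _ => rfl }
  have hι : ∀ g ∈ (⊤ : Subgroup Γ), ∀ m, ι (g • m) = g • ι m := fun g _ m => Ind.ext fun _ => rfl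
  have h1 := sub_indFun2_mem_B2 hU (smooth_ind hU hA) (Levels.map_mem_Z2 ι hι hf)
  refine Levels.B2_congr
    (neg_mem (Levels.map_mem_B2 Ind.total (fun g _ φ => Ind.total_smul g φ) h1))
    fun g _ k _ => ?_
  show Ind.total (indFun2 U f g k) - U.index • f g k =
    -Ind.total (ι (f g k) - indFun2 U f g k)
  rw [map_sub, neg_sub]
  congr 1
  show U.index • f g k = ∑ _c : Γ ⧸ U, f g k
  rw [Finset.sum_const, Finset.card_univ, ← Nat.card_eq_fintype_card, ← Subgroup.index_eq_card]

end FermatAgent.CFT.Coh
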