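import Fermat.Agent.CFT.Coh.Induced

/-!
Degree two classes attached to cyclic characters: the carry cocycle, triviality and norms, and
change of character.
-/

set_option autoImplicit false

noncomputable section

open scoped Classical

namespace FermatAgent.CFT.Coh

section Carry

variable {n : ℕ} [NeZero n]

/-- The carry of the addition in `ZMod n`. -/
def carry (a b : ZMod n) : ℤ := ((a.val + b.val) / n : ℕ)

/-- The addition rule of representatives, with its carry. -/
lemma val_add_val (a b : ZMod n) :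
    (a.val : ℤ) + b.val = (a + b).val + n * carry a b := by
  rw [carry, ZMod.val_add]
  exact_mod_cast (Nat.mod_add_div (a.val + b.val) n).symm

lemma carry_cocycle (a b c : ZMod n) :
    carry b c - carry (a + b) c + carry a (b + c) - carry a b = 0 := by
  have hn : (n : ℤ) ≠ 0 := by exact_mod_cast NeZero.ne n
  have h1 := val_add_val b c
  have h2 := val_add_val (a + b) c
  have h3 := val_add_val a (b + c)
  have h4 := val_add_val a b
  rw [← add_assoc] at h3
  refine mul_left_cancel₀ hn ?_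
  linarith

end Carry

variable {Γ : Type*} [Group Γ]

/-- A character of a subgroup with values in `ZMod n`, constant modulo a level. -/
structure CycChar (L : Levels Γ) (W : Subgroup Γ) (n : ℕ) where
  /-- The underlying function. -/
  toFun : Γ → ZMod n
  map_mul' : ∀ g ∈ W, ∀ h ∈ W, toFun (g * h) = toFun g + toFun h
  const' : L.Const1 W toFun

namespace CycChar

variable {L : Levels Γ} {W : Subgroup Γ} {n : ℕ}

instance : CoeFun (CycChar L W n) fun _ => Γ → ZMod n := ⟨toFun⟩

variable (χ : CycChar L W n)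

/-- A cyclic character is additive. -/
lemma map_mul {g h : Γ} (hg : g ∈ W) (hh : h ∈ W) : χ (g * h) = χ g + χ h := χ.map_mul' g hg h hh

/-- A cyclic character vanishes at one. -/
lemma map_one : χ 1 = 0 := by
  have h := χ.map_mul (one_mem W) (one_mem W)
  rwa [one_mul, eq_comm, add_eq_left] at h

/-- A cyclic character carries inverses to negatives. -/
lemma map_inv {g : Γ} (hg : g ∈ W) : χ g⁻¹ = -χ g := by
  have h := χ.map_mul (inv_mem hg) hg
  rw [inv_mul_cancel, χ.map_one] at h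
  exact eq_neg_of_add_eq_zero_left h.symm

/-- A cyclic character carries powers to multiples. -/
lemma map_pow {g : Γ} (hg : g ∈ W) (i : ℕ) : χ (g ^ i) = i * χ g := by
  induction i with
  | zero => simp [χ.map_one]
  | succ i ih => rw [pow_succ, χ.map_mul (pow_mem hg i) hg, ih]; push_cast; ring

/-- The kernel. -/
def ker : Subgroup Γ where
  carrier := {g | g ∈ W ∧ χ g = 0}
  one_mem' := ⟨one_mem W, χ.map_one⟩
  mul_mem' :=
    fun {g h} hg hh => ⟨mul_mem hg.1 hh.1, by rw [χ.map_mul hg.1 hh.1, hg.2, hh.2, add_zero]⟩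
  inv_mem' := fun {g} hg => ⟨inv_mem hg.1, by rw [χ.map_inv hg.1, hg.2, neg_zero]⟩

/-- Membership in the kernel. -/
lemma mem_ker {g : Γ} : g ∈ χ.ker ↔ g ∈ W ∧ χ g = 0 := Iff.rfl

/-- The kernel lies in the subgroup. -/
lemma ker_le : χ.ker ≤ W := fun _ h => h.1

/-- The kernel is a level. -/
lemma ker_mem (hW : W ∈ L) : χ.ker ∈ L := by
  obtain ⟨V, hV, h⟩ := χ.const'
  refine Levels.mem_of_le (L.inf_mem hW hV) fun s hs => ⟨hs.1, ?_⟩
  have := h 1 (one_mem W) s hs
  rwa [one_mul, χ.map_one] at this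

/-- The kernel is normal in the subgroup. -/
lemma conj_mem {g s : Γ} (hg : g ∈ W) (hs : s ∈ χ.ker) : g * s * g⁻¹ ∈ χ.ker :=
  ⟨mul_mem (mul_mem hg hs.1) (inv_mem hg), by
    rw [χ.map_mul (mul_mem hg hs.1) (inv_mem hg), χ.map_mul hg hs.1, χ.map_inv hg, hs.2]; abel⟩

/-- The character is constant on cosets of the kernel. -/
lemma eq_of_ker {g s : Γ} (hg : g ∈ W) (hs : s ∈ χ.ker) : χ (g * s) = χ g := by
  rw [χ.map_mul hg hs.1, hs.2, add_zero]

/-- Every element is a power of a generator times an element of the kernel. -/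
lemma exists_mul_eq {σ : Γ} (hσ : σ ∈ W) (hσ1 : χ σ = 1) [NeZero n] {g : Γ} (hg : g ∈ W) :
    ∃ s ∈ χ.ker, g = σ ^ (χ g).val * s := by
  refine ⟨(σ ^ (χ g).val)⁻¹ * g, ⟨mul_mem (inv_mem (pow_mem hσ _)) hg, ?_⟩,
    (mul_inv_cancel_left _ _).symm⟩
  rw [χ.map_mul (inv_mem (pow_mem hσ _)) hg, χ.map_inv (pow_mem hσ _), χ.map_pow hσ, hσ1, mul_one,
    ZMod.natCast_zmod_val, neg_add_cancel]

/-- Restriction to a smaller subgroup. -/
def restrict {W' : Subgroup Γ} (h : W' ≤ W) : CycChar L W' n :=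
  ⟨χ, fun _ hg _ hk => χ.map_mul (h hg) (h hk), χ.const'.mono h⟩

/-- The restricted character has the same values. -/
@[simp] lemma restrict_apply {W' : Subgroup Γ} (h : W' ≤ W) (g : Γ) : χ.restrict h g = χ g := rfl

end CycChar

variable {A : Type*} [AddCommGroup A] {L : Levels Γ} {W : Subgroup Γ} {n : ℕ}

/-- The class attached to a character and an invariant element. -/
def cyc (χ : CycChar L W n) (b : A) (g h : Γ) : A := carry (χ g) (χ h) • b

variable (χ : CycChar L W n)

/-- The values of the cyclic cocycle. -/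
lemma cyc_apply (b : A) (g h : Γ) : cyc χ b g h = carry (χ g) (χ h) • b := rfl

/-- The cyclic cocycle is additive in the invariant element. -/
lemma cyc_add (b b' : A) : cyc χ (b + b') = cyc χ b + cyc χ b' :=
  funext fun _ => funext fun _ => smul_add _ _ _

/-- The cyclic cocycle of zero is zero. -/
@[simp] lemma cyc_zero : cyc χ (0 : A) = 0 := funext fun _ => funext fun _ => smul_zero _

/-- The cyclic cocycle commutes with integer multiples. -/
lemma cyc_zsmul (k : ℤ) (b : A) : cyc χ (k • b) = k • cyc χ b :=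
  funext fun _ => funext fun _ => smul_comm _ _ _

/-- The cyclic cocycle commutes with differences. -/
lemma cyc_sub (b b' : A) : cyc χ (b - b') = cyc χ b - cyc χ b' :=
  funext fun _ => funext fun _ => smul_sub _ _ _

variable [DistribMulAction Γ A]

/-- The action commutes with integer multiples. -/
lemma smul_zsmul_comm (g : Γ) (k : ℤ) (a : A) : g • (k • a) = k • g • a :=
  map_zsmul (DistribSMul.toAddMonoidHom A g) k a

/-- The norm along the powers of an element. -/
def cycNorm (σ : Γ) (n : ℕ) : A →+ A :=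
  ∑ i ∈ Finset.range n, DistribSMul.toAddMonoidHom A (σ ^ i)

/-- The norm is the sum over the powers of the generator. -/
lemma cycNorm_apply (σ : Γ) (n : ℕ) (a : A) :
    cycNorm σ n a = ∑ i ∈ Finset.range n, σ ^ i • a := by
  simp [cycNorm]

variable [NeZero n]

/-- The cyclic cocycle of an invariant element is a cocycle. -/
lemma cyc_mem_Z2 {b : A} (hb : ∀ g ∈ W, g • b = b) : cyc χ b ∈ L.Z2 W A := by
  refine ⟨?_, fun g hg h hh j hj => ?_⟩
  · obtain ⟨V, hV, hc⟩ := χ.const'
    exact ⟨V, hV, fun g hg h hh s hs t ht => by rw [cyc_apply, hc g hg s hs, hc h hh t ht]; rfl⟩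
  · simp only [d2, cyc_apply, smul_zsmul_comm, hb g hg, χ.map_mul hg hh,
      χ.map_mul hh hj, ← add_smul,
      ← sub_smul, carry_cocycle, zero_smul]

section Generator

variable {σ : Γ} (hσ : σ ∈ W) (hσ1 : χ σ = 1)

include hσ hσ1

omit [NeZero n] in
/-- The period power of a generator lies in the kernel. -/
lemma pow_period_mem_ker : σ ^ n ∈ χ.ker :=
  ⟨pow_mem hσ n, by rw [χ.map_pow hσ, hσ1, mul_one, ZMod.natCast_self]⟩

/-- On kernel-invariant elements the action is through powers of the generator. -/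
lemma smul_eq_pow_smul {a : A} (ha : ∀ s ∈ χ.ker, s • a = a) {g : Γ} (hg : g ∈ W) :
    g • a = σ ^ (χ g).val • a := by
  obtain ⟨s, hs, e⟩ := χ.exists_mul_eq hσ hσ1 hg
  conv_lhs => rw [e, mul_smul, ha s hs]

omit [NeZero n] hσ hσ1 in
/-- Kernel-invariant elements are stable under the subgroup. -/
lemma smul_ker_fixed {a : A} (ha : ∀ s ∈ χ.ker, s • a = a) {g : Γ} (hg : g ∈ W) :
    ∀ s ∈ χ.ker, s • g • a = g • a := fun s hs => by
  have h := χ.conj_mem (inv_mem hg) hs
  rw [inv_inv] at h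
  conv_rhs => rw [← ha _ h]
  rw [← mul_smul, ← mul_smul]
  group

omit [NeZero n] in
lemma sum_range_smul_add {a : A} (ha : ∀ s ∈ χ.ker, s • a = a) (m : ℕ) :
    ∑ i ∈ Finset.range (n + m), σ ^ i • a = cycNorm σ n a + ∑ i ∈ Finset.range m, σ ^ i • a := by
  rw [cycNorm_apply, Finset.sum_range_add]
  congr 1
  refine Finset.sum_congr rfl fun i _ => ?_
  rw [add_comm, pow_add, mul_smul, ha _ (pow_period_mem_ker χ hσ hσ1)]

/-- Norms are invariant. -/
lemma cycNorm_fixed {a : A} (ha : ∀ s ∈ χ.ker, s • a = a) :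
    ∀ g ∈ W, g • cycNorm σ n a = cycNorm σ n a := by
  have hker : ∀ s ∈ χ.ker, s • cycNorm σ n a = cycNorm σ n a := fun s hs => by
    rw [cycNorm_apply, Finset.smul_sum]
    exact Finset.sum_congr rfl fun i _ => smul_ker_fixed χ ha (pow_mem hσ i) s hs
  have hstep : σ • cycNorm σ n a = cycNorm σ n a := by
    have h := sum_range_smul_add χ hσ hσ1 ha 1
    rw [Finset.sum_range_succ', Finset.sum_range_one] at h
    rw [pow_zero, one_smul] at h
    have h' := add_right_cancel h
    simpa [cycNorm_apply, Finset.smul_sum, pow_succ', mul_smul] using h'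
  have hpow : ∀ i : ℕ, σ ^ i • cycNorm σ n a = cycNorm σ n a := fun i => by
    induction i with
    | zero => simp
    | succ i ih => rw [pow_succ, mul_smul, hstep, ih]
  intro g hg
  rw [smul_eq_pow_smul χ hσ hσ1 hker hg, hpow]

/-- The coboundary of the partial norms along a character. -/
lemma d1_partialNorm {a : A} (ha : ∀ s ∈ χ.ker, s • a = a) {g h : Γ} (hg : g ∈ W) (hh : h ∈ W) :
    d1 (fun x => ∑ i ∈ Finset.range (χ x).val, σ ^ i • a) g h =
      cyc χ (cycNorm σ n a) g h := by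
  have hC : ∀ s ∈ χ.ker, s • (∑ i ∈ Finset.range (χ h).val, σ ^ i • a) =
      ∑ i ∈ Finset.range (χ h).val, σ ^ i • a := fun s hs => by
    rw [Finset.smul_sum]
    exact Finset.sum_congr rfl fun i _ => smul_ker_fixed χ ha (pow_mem hσ i) s hs
  rw [d1, smul_eq_pow_smul χ hσ hσ1 hC hg, χ.map_mul hg hh, Finset.smul_sum]
  simp only [← mul_smul, ← pow_add]
  set u := (χ g).val
  set v := (χ h).val
  have hsum := Finset.sum_range_add (fun i => σ ^ i • a) u v
  have hv := val_add_val (χ g) (χ h)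
  rw [cyc_apply]
  have hlt : u + v < 2 * n := by
    have := ZMod.val_lt (χ g); have := ZMod.val_lt (χ h); omega
  rcases Nat.lt_or_ge (u + v) n with h1 | h1
  · have hc : carry (χ g) (χ h) = 0 := by simp [carry, u, v, Nat.div_eq_of_lt h1]
    have hval : (χ g + χ h).val = u + v := by rw [ZMod.val_add_of_lt h1]
    rw [hc, zero_smul, hval, hsum]
    abel
  · have hc : carry (χ g) (χ h) = 1 := by
      simp only [carry]
      exact_mod_cast Nat.div_eq_of_lt_le (by simpa using h1) (by simpa using hlt)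
    have hval : u + v = n + (χ g + χ h).val := by
      rw [hc, mul_one] at hv; omega
    rw [hc, one_smul]
    rw [hval, sum_range_smul_add χ hσ hσ1 ha] at hsum
    rw [sub_add_eq_add_sub, add_comm (∑ i ∈ Finset.range v, _), ← hsum]
    abel

/-- Cyclic cocycles of norms are coboundaries. -/
lemma cyc_cycNorm_mem_B2 {a : A} (ha : ∀ s ∈ χ.ker, s • a = a) :
    cyc χ (cycNorm σ n a) ∈ L.B2 W A :=
  ⟨fun g => ∑ i ∈ Finset.range (χ g).val, σ ^ i • a,
    χ.const'.comp fun x : ZMod n => ∑ i ∈ Finset.range x.val, σ ^ i • a,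
    fun _ hg _ hh => (d1_partialNorm χ hσ hσ1 ha hg hh).symm⟩

/-- A trivial class comes from a norm. -/
lemma exists_norm_of_cyc_mem_B2 (hH1 : ∀ c ∈ L.Z1 χ.ker A, c ∈ Levels.B1 χ.ker A)
    {b : A} (hb : ∀ g ∈ W, g • b = b) (h : cyc χ b ∈ L.B2 W A) :
    ∃ a : A, (∀ s ∈ χ.ker, s • a = a) ∧ cycNorm σ n a = b := by
  rcases eq_or_ne n 1 with rfl | hn1
  · exact ⟨b, fun s hs => hb s hs.1, by simp [cycNorm_apply]⟩
  have hn2 : 1 < n := lt_of_le_of_ne (Nat.pos_of_ne_zero (NeZero.ne n)) (Ne.symm hn1)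
  obtain ⟨c, hc, hd⟩ := h
  have hzero : ∀ g, ∀ s ∈ χ.ker, cyc χ b g s = 0 ∧ cyc χ b s g = 0 := fun g s hs => by
    have : ∀ x : ZMod n, carry x 0 = 0 ∧ carry 0 x = 0 := fun x => by
      simp [carry, Nat.div_eq_of_lt x.val_lt]
    simp [cyc_apply, hs.2, this]
  have hc1 : c ∈ L.Z1 χ.ker A := ⟨hc.mono χ.ker_le, fun s hs t ht => by
    rw [← hd s hs.1 t ht.1, (hzero s t ht).1]⟩
  obtain ⟨e, he⟩ := hH1 c hc1
  set c' : Γ → A := fun g => c g - d0 e g
  have hd' : ∀ g ∈ W, ∀ h ∈ W, cyc χ b g h = d1 c' g h := fun g hg h hh => by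
    rw [show c' = c - d0 e from rfl, d1_sub, d1_d0, sub_zero, hd g hg h hh]
  have hc0 : ∀ s ∈ χ.ker, c' s = 0 := fun s hs => sub_eq_zero.mpr (he s hs)
  have hright : ∀ g ∈ W, ∀ s ∈ χ.ker, c' (g * s) = c' g := fun g hg s hs => by
    have := hd' g hg s hs.1
    rw [(hzero g s hs).1, d1, hc0 s hs, smul_zero] at this
    exact (sub_eq_zero.mp (by simpa [sub_eq_neg_add, add_comm] using this.symm)).symm
  have hfix : ∀ g ∈ W, ∀ s ∈ χ.ker, s • c' g = c' g := fun g hg s hs => by
    have := hd' s hs.1 g hg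
    rw [(hzero g s hs).2, d1, hc0 s hs, add_zero] at this
    rw [sub_eq_zero.mp this.symm, show s * g = g * (g⁻¹ * s * g) by group]
    refine hright g hg _ ?_
    have := χ.conj_mem (inv_mem hg) hs
    rwa [inv_inv] at this
  refine ⟨c' σ, hfix σ hσ, ?_⟩
  have hn0 : 0 < n := Nat.pos_of_ne_zero (NeZero.ne n)
  have key : ∀ m < n, ∑ i ∈ Finset.range m, σ ^ i • c' σ = c' (σ ^ m) := by
    intro m hm
    induction m with
    | zero => simp [hc0 1 (one_mem _)]
    | succ m ih =>
      have h1 := hd' (σ ^ m) (pow_mem hσ m) σ hσ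
      rw [cyc_apply, χ.map_pow hσ, hσ1, mul_one, carry,
        ZMod.val_natCast_of_lt (Nat.lt_of_succ_lt hm),
        d1, ← pow_succ] at h1
      have h2 : ((1 : ZMod n)).val = 1 := ZMod.val_one'' (by omega)
      rw [h2, Nat.div_eq_of_lt hm, Nat.cast_zero, zero_smul] at h1
      rw [Finset.sum_range_succ, ih (Nat.lt_of_succ_lt hm), ← sub_eq_zero, h1]
      abel
  have hlast := hd' (σ ^ (n - 1)) (pow_mem hσ _) σ hσ
  rw [d1, ← pow_succ, Nat.sub_add_cancel hn0, hc0 _ (pow_period_mem_ker χ hσ hσ1), sub_zero,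
    cyc_apply, χ.map_pow hσ, hσ1, mul_one, ← key (n - 1) (by omega)] at hlast
  rw [cycNorm_apply, ← Nat.sub_add_cancel hn0, Finset.sum_range_succ, add_comm, ← hlast]
  have hcarry : carry ((n - 1 : ℕ) : ZMod n) (1 : ZMod n) = 1 := by
    rw [carry, ZMod.val_natCast_of_lt (by omega), ZMod.val_one'' (by omega),
      Nat.sub_add_cancel hn0, Nat.div_self hn0, Nat.cast_one]
  rw [hcarry, one_smul]

end Generator

/-- Change of character. -/
lemma sub_cyc_mem_B2 {m : ℕ} [NeZero m] (χ' : CycChar L W m) {b : A} (hb : ∀ g ∈ W, g • b = b)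
    {k r : ℤ} (hr : k * n = r * m) (q : ZMod n → ℤ)
    (h : ∀ g ∈ W, k * ((χ g).val : ℤ) = ((χ' g).val : ℤ) + m * q (χ g)) :
    cyc χ' b - r • cyc χ b ∈ L.B2 W A := by
  refine ⟨fun g => (-q (χ g)) • b, χ.const'.comp fun x => (-q x) • b, fun g hg h' hh => ?_⟩
  have e1 := h g hg
  have e2 := h h' hh
  have e3 := h _ (mul_mem hg hh)
  rw [χ.map_mul hg hh, χ'.map_mul hg hh] at e3
  have c1 := val_add_val (χ g) (χ h')
  have c2 := val_add_val (χ' g) (χ' h')
  have key : (carry (χ' g) (χ' h') - r * carry (χ g) (χ h') : ℤ) =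
      -q (χ h') + q (χ g + χ h') - q (χ g) := by
    refine mul_left_cancel₀ (a := (m : ℤ)) (by exact_mod_cast NeZero.ne m) ?_
    linear_combination -c2 + k * c1 - e1 - e2 + e3 + carry (χ g) (χ h') * hr
  simp only [Pi.sub_apply, Pi.smul_apply, cyc_apply, d1, smul_zsmul_comm, hb g hg, χ.map_mul hg hh]
  rw [← mul_smul r, ← sub_smul, key]
  module

omit [DistribMulAction Γ A] in
/-- The cyclic cocycle vanishes when the first argument is in the kernel. -/
lemma cyc_eq_zero_of_char_eq_zero (b : A) {g h : Γ} (hg : χ g = 0) : cyc χ b g h = 0 := by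
  simp [cyc_apply, carry, hg, Nat.div_eq_of_lt (χ h).val_lt]

end FermatAgent.CFT.Coh
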