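import Fermat.Agent.CFT.Coh.Cyclic

/-!
Classes split by the kernel of a cyclic character, and the projection formula.
-/

set_option autoImplicit false

noncomputable section

open scoped Classical

namespace FermatAgent.CFT.Coh

variable {Γ : Type*} [Group Γ] {L : Levels Γ} {W : Subgroup Γ} {n : ℕ} [NeZero n]
  (χ : CycChar L W n) {A : Type*} [AddCommGroup A] [DistribMulAction Γ A] {σ : Γ}

/-- The normalised representative, with the element given by a sum of values. -/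
lemma inflated_eq_cyc_sum (hσ : σ ∈ W) (hσ1 : χ σ = 1) {x : Γ → Γ → A}
    (hx : ∀ g ∈ W, ∀ h ∈ W, ∀ j ∈ W, d2 x g h j = 0)
    (hr : ∀ g ∈ W, ∀ h ∈ W, ∀ s ∈ χ.ker, ∀ t ∈ χ.ker, x (g * s) (h * t) = x g h)
    (h0 : ∀ g ∈ W, x g 1 = 0) (hfix : ∀ g ∈ W, ∀ h ∈ W, ∀ s ∈ χ.ker, s • x g h = x g h) :
    (∀ g ∈ W, g • (∑ k ∈ Finset.range n, x (σ ^ k) σ) = ∑ k ∈ Finset.range n, x (σ ^ k) σ) ∧
      x - cyc χ (∑ k ∈ Finset.range n, x (σ ^ k) σ) ∈ L.B2 W A := by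
  set C : ℕ → A := fun m => ∑ k ∈ Finset.range m, x (σ ^ k) σ with hCdef
  have hper : ∀ m, C (n + m) = C n + C m := fun m => by
    simp only [hCdef, Finset.sum_range_add]
    congr 1
    refine Finset.sum_congr rfl fun k _ => ?_
    have := hr (σ ^ k) (pow_mem hσ k) σ hσ (σ ^ n) (pow_period_mem_ker χ hσ hσ1) 1 (one_mem _)
    rwa [mul_one, ← pow_add, add_comm] at this
  have hCs : ∀ m, C (m + 1) = C m + x (σ ^ m) σ := fun m => Finset.sum_range_succ _ _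
  have hCfix : ∀ m, ∀ s ∈ χ.ker, s • C m = C m := fun m s hs => by
    rw [hCdef, Finset.smul_sum]
    exact Finset.sum_congr rfl fun k _ => hfix _ (pow_mem hσ k) _ hσ s hs
  have hformula : ∀ i j, x (σ ^ i) (σ ^ j) = C (i + j) - C i - σ ^ i • C j := by
    intro i j
    induction j with
    | zero =>
      rw [pow_zero, h0 _ (pow_mem hσ i), add_zero, sub_self]
      simp [hCdef]
    | succ j ih =>
      have h := hx (σ ^ i) (pow_mem hσ i) (σ ^ j) (pow_mem hσ j) σ hσ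
      rw [d2, ← pow_add, ← pow_succ, ih] at h
      rw [← add_assoc, hCs, hCs, smul_add, ← sub_eq_zero, ← h]
      abel
  have hb : σ • C n = C n := by
    have h := hformula 1 n
    rw [pow_one, add_comm 1 n, hper] at h
    have h' : x σ (σ ^ n) = 0 := by
      have := hr σ hσ 1 (one_mem W) 1 (one_mem _) (σ ^ n) (pow_period_mem_ker χ hσ hσ1)
      rwa [mul_one, one_mul, h0 σ hσ] at this
    rw [h', add_sub_cancel_right, eq_comm, sub_eq_zero] at h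
    exact h.symm
  have hbpow : ∀ i : ℕ, σ ^ i • C n = C n := fun i => by
    induction i with
    | zero => simp
    | succ i ih => rw [pow_succ, mul_smul, hb, ih]
  refine ⟨fun g hg => show g • C n = C n by rw [smul_eq_pow_smul χ hσ hσ1 (hCfix n) hg, hbpow], ?_⟩
  refine ⟨fun g => -C (χ g).val, χ.const'.comp fun a : ZMod n => -C a.val, fun g hg h hh => ?_⟩
  obtain ⟨s, hs, eg⟩ := χ.exists_mul_eq hσ hσ1 hg
  obtain ⟨t, ht, eh⟩ := χ.exists_mul_eq hσ hσ1 hh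
  have hxgh : x g h = x (σ ^ (χ g).val) (σ ^ (χ h).val) := by
    conv_lhs => rw [eg, eh]
    exact hr _ (pow_mem hσ _) _ (pow_mem hσ _) s hs t ht
  set u := (χ g).val
  set v := (χ h).val
  have hsum : C (u + v) = carry (χ g) (χ h) • C n + C (χ g + χ h).val := by
    have hv := val_add_val (χ g) (χ h)
    have hlt : u + v < 2 * n := by
      have := ZMod.val_lt (χ g); have := ZMod.val_lt (χ h); omega
    rcases Nat.lt_or_ge (u + v) n with h1 | h1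
    · have hc : carry (χ g) (χ h) = 0 := by simp [carry, u, v, Nat.div_eq_of_lt h1]
      rw [hc, zero_smul, zero_add, ZMod.val_add_of_lt h1]
    · have hc : carry (χ g) (χ h) = 1 := by
        simp only [carry]
        exact_mod_cast Nat.div_eq_of_lt_le (by simpa using h1) (by simpa using hlt)
      rw [hc, one_smul, ← hper]
      congr 1
      rw [hc, mul_one] at hv
      omega
  have hgv : g • C v = σ ^ u • C v := smul_eq_pow_smul χ hσ hσ1 (hCfix v) hg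
  show (x - cyc χ (C n)) g h = _
  simp only [Pi.sub_apply, cyc_apply, d1, hxgh, hformula, hsum, χ.map_mul hg hh, smul_neg]
  rw [show g • C (χ h).val = σ ^ u • C v from hgv]
  abel

/-- The normalised representative: a cocycle inflated from the quotient by the kernel is cyclic. -/
lemma exists_cyc_of_inflated (hσ : σ ∈ W) (hσ1 : χ σ = 1) {x : Γ → Γ → A}
    (hx : ∀ g ∈ W, ∀ h ∈ W, ∀ j ∈ W, d2 x g h j = 0)
    (hr : ∀ g ∈ W, ∀ h ∈ W, ∀ s ∈ χ.ker, ∀ t ∈ χ.ker, x (g * s) (h * t) = x g h)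
    (h0 : ∀ g ∈ W, x g 1 = 0) (hfix : ∀ g ∈ W, ∀ h ∈ W, ∀ s ∈ χ.ker, s • x g h = x g h) :
    ∃ b : A, (∀ g ∈ W, g • b = b) ∧ x - cyc χ b ∈ L.B2 W A :=
  ⟨_, inflated_eq_cyc_sum χ hσ hσ1 hx hr h0 hfix⟩

/-- A class dying on the kernel is cohomologous to a cocycle vanishing on `W × N` for the
kernel `N`. -/
private theorem exists_vanish_right (hW : W ∈ L) (hA : L.Smooth A) (hσ : σ ∈ W) (hσ1 : χ σ = 1)
    {x : Γ → Γ → A} (hx : x ∈ L.Z2 W A) (hres : x ∈ L.B2 χ.ker A) :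
    ∃ x₁ ∈ L.Z2 W A, x - x₁ ∈ L.B2 W A ∧ ∀ g ∈ W, ∀ t ∈ χ.ker, x₁ g t = 0 := by
  obtain ⟨k, hk, hxk⟩ := hres
  set N := χ.ker
  have hNW : N ≤ W := χ.ker_le
  -- normalisation at the neutral element
  set a := k 1
  set x₀ : Γ → Γ → A := x - d1 (fun _ => a)
  set k₀ : Γ → A := fun g => k g - a
  have hx₀ : x₀ ∈ L.Z2 W A :=
    sub_mem hx (Levels.B2_le_Z2 hA (Levels.d1_mem_B2 (Levels.const1_const a)))
  have hx₀k : ∀ s ∈ N, ∀ t ∈ N, x₀ s t = d1 k₀ s t := fun s hs t ht => by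
    show x s t - d1 (fun _ => a) s t = _
    rw [hxk s hs t ht]
    exact (d1_sub k (fun _ => a) s t).symm
  have hk₀1 : k₀ 1 = 0 := sub_self a
  have h11 : x₀ 1 1 = 0 := by
    rw [hx₀k 1 (one_mem _) 1 (one_mem _), d1, one_mul, one_smul, hk₀1]; simp
  have hleft : ∀ h ∈ W, x₀ 1 h = 0 := fun h hh => by
    have := hx₀.2 1 (one_mem W) 1 (one_mem W) h hh
    rw [d2, one_mul, one_smul, one_mul, h11] at this
    simpa using this
  have hright : ∀ g ∈ W, x₀ g 1 = 0 := fun g hg => by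
    have := hx₀.2 g hg 1 (one_mem W) 1 (one_mem W)
    rw [d2, mul_one, one_mul, h11, smul_zero] at this
    simpa using this
  set r : Γ → Γ := fun g => σ ^ (χ g).val
  set c : Γ → A := fun g => r g • k₀ ((r g)⁻¹ * g) - x₀ (r g) ((r g)⁻¹ * g)
  have hrW : ∀ g, r g ∈ W := fun g => pow_mem hσ _
  have hrinv : ∀ g ∈ W, (r g)⁻¹ * g ∈ N := fun g hg => by
    obtain ⟨s, hs, e⟩ := χ.exists_mul_eq hσ hσ1 hg
    show (σ ^ (χ g).val)⁻¹ * g ∈ N
    rwa [inv_mul_eq_iff_eq_mul.mpr e]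
  have hc : L.Const1 W c := by
    obtain ⟨V₁, hV₁, hχ⟩ := χ.const'
    obtain ⟨V₂, hV₂, hk'⟩ := hk
    obtain ⟨V₃, hV₃, hx'⟩ := hx₀.1
    refine ⟨V₁ ⊓ V₂ ⊓ V₃ ⊓ N, L.inf_mem (L.inf_mem (L.inf_mem hV₁ hV₂) hV₃) (χ.ker_mem hW),
      fun g hg s hs => ?_⟩
    have er : r (g * s) = r g := by
      simp only [r, hχ g hg s ⟨hs.1, hs.2.1.1.1⟩]
    have e1 : k₀ ((r g)⁻¹ * g * s) = k₀ ((r g)⁻¹ * g) := by
      show k _ - a = k _ - a
      rw [hk' _ (hrinv g hg) s ⟨hs.2.2, hs.2.1.1.2⟩]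
    have e2 : x₀ (r g) ((r g)⁻¹ * g * s) = x₀ (r g) ((r g)⁻¹ * g) := by
      have := hx' (r g) (hrW g) _ (hNW (hrinv g hg)) 1 (one_mem _) s ⟨hs.1, hs.2.1.2⟩
      rwa [mul_one] at this
    simp only [c, er, ← mul_assoc, e1, e2]
  have hdc : d1 c ∈ L.B2 W A := Levels.d1_mem_B2 hc
  set x₁ : Γ → Γ → A := x₀ - d1 c
  have hx₁ : x₁ ∈ L.Z2 W A := sub_mem hx₀ (Levels.B2_le_Z2 hA hdc)
  have hrN : ∀ t ∈ N, r t = 1 := fun t ht => by
    simp only [r, (ht : t ∈ W ∧ χ t = 0).2, ZMod.val_zero, pow_zero]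
  have hcN : ∀ t ∈ N, c t = k₀ t := fun t ht => by
    simp only [c, hrN t ht, inv_one, one_mul, one_smul, hleft t (hNW ht), sub_zero]
  have hcpow : ∀ i : ℕ, ∀ t ∈ N, i < n →
      c (σ ^ i * t) = σ ^ i • k₀ t - x₀ (σ ^ i) t := fun i t ht hi => by
    have hv : (χ (σ ^ i * t)).val = i := by
      rw [χ.eq_of_ker (pow_mem hσ i) ht, χ.map_pow hσ, hσ1, mul_one, ZMod.val_natCast_of_lt hi]
    simp only [c, r, hv, inv_mul_cancel_left]
  have hrep : ∀ i : ℕ, ∀ t ∈ N, i < n → x₁ (σ ^ i) t = 0 := fun i t ht hi => by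
    show x₀ (σ ^ i) t - d1 c (σ ^ i) t = 0
    have hci : c (σ ^ i) = 0 := by
      have := hcpow i 1 (one_mem _) hi
      rwa [mul_one, hk₀1, smul_zero, hright _ (pow_mem hσ i), sub_zero] at this
    rw [d1, hcN t ht, hcpow i t ht hi, hci]
    abel
  have hN0 : ∀ g ∈ W, ∀ t ∈ N, x₁ g t = 0 := fun g hg t ht => by
    obtain ⟨s, hs, e⟩ := χ.exists_mul_eq hσ hσ1 hg
    have hlt := (χ g).val_lt
    have h := hx₁.2 (σ ^ (χ g).val) (pow_mem hσ _) s hs.1 t (hNW ht)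
    have hst : x₁ s t = 0 := by
      have := hrep 0 t ht (Nat.pos_of_ne_zero (NeZero.ne n))
      show x₀ s t - d1 c s t = 0
      rw [hx₀k s hs t ht, d1, d1, hcN t ht, hcN s hs, hcN _ (mul_mem hs ht), sub_self]
    rw [d2, hst, smul_zero, hrep _ _ (mul_mem hs ht) hlt, hrep _ _ hs hlt, ← e] at h
    simpa using h
  refine ⟨x₁, hx₁, Levels.B2_congr (add_mem (Levels.d1_mem_B2 (L := L) (U := W)
    (Levels.const1_const a)) hdc) fun g _ h _ => ?_, hN0⟩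
  simp only [x₁, x₀, Pi.add_apply, Pi.sub_apply]
  abel

/-- A cocycle vanishing on `W × N` for the kernel `N` can be made to vanish on `N × W` as well. -/
private theorem exists_vanish_both (hA : L.Smooth A) (hσ : σ ∈ W) (hσ1 : χ σ = 1)
    (hH1 : ∀ c ∈ L.Z1 χ.ker A, c ∈ Levels.B1 χ.ker A) {x₁ : Γ → Γ → A} (hx₁ : x₁ ∈ L.Z2 W A)
    (hN0 : ∀ g ∈ W, ∀ t ∈ χ.ker, x₁ g t = 0) :
    ∃ x₂ ∈ L.Z2 W A, x₁ - x₂ ∈ L.B2 W A ∧ (∀ g ∈ W, ∀ t ∈ χ.ker, x₂ g t = 0) ∧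
      ∀ s ∈ χ.ker, ∀ h ∈ W, x₂ s h = 0 := by
  set N := χ.ker
  have hNW : N ≤ W := χ.ker_le
  have hright₁ : ∀ g ∈ W, ∀ h ∈ W, ∀ t ∈ N, x₁ g (h * t) = x₁ g h := fun g hg h hh t ht => by
    have := hx₁.2 g hg h hh t (hNW ht)
    rw [d2, hN0 h hh t ht, hN0 _ (mul_mem hg hh) t ht, smul_zero] at this
    simpa [sub_eq_zero] using this
  have hφ : ∀ i : ℕ, (fun s => x₁ s (σ ^ i)) ∈ L.Z1 N A := fun i => by
    refine ⟨?_, fun s hs t ht => ?_⟩
    · obtain ⟨V, hV, hV'⟩ := hx₁.1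
      exact ⟨V, hV, fun s hs v hv => by
        have := hV' s (hNW hs) (σ ^ i) (pow_mem hσ i) v ⟨hNW hv.1, hv.2⟩ 1 (one_mem _)
        rwa [mul_one] at this⟩
    · have := hx₁.2 s hs.1 t ht.1 (σ ^ i) (pow_mem hσ i)
      have e : x₁ s (t * σ ^ i) = x₁ s (σ ^ i) := by
        rw [show t * σ ^ i = σ ^ i * ((σ ^ i)⁻¹ * t * σ ^ i) by group]
        refine hright₁ s hs.1 _ (pow_mem hσ i) _ ?_
        have := χ.conj_mem (inv_mem (pow_mem hσ i)) ht
        rwa [inv_inv] at this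
      rw [d2, e, hN0 s hs.1 t ht, sub_zero] at this
      exact this
  choose a' ha' using fun i => hH1 _ (hφ i)
  set e : ZMod n → A := fun z => if z = 0 then 0 else -a' z.val
  set c₂ : Γ → A := fun g => e (χ g)
  have hc₂ : L.Const1 W c₂ := χ.const'.comp e
  set x₂ : Γ → Γ → A := x₁ + d1 c₂
  have hx₂ : x₂ ∈ L.Z2 W A := add_mem hx₁ (Levels.B2_le_Z2 hA (Levels.d1_mem_B2 hc₂))
  have hc₂N : ∀ t ∈ N, c₂ t = 0 := fun t ht => by simp [c₂, e, (ht : t ∈ W ∧ χ t = 0).2]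
  have h2r : ∀ g ∈ W, ∀ t ∈ N, x₂ g t = 0 := fun g hg t ht => by
    show x₁ g t + d1 c₂ g t = 0
    rw [hN0 g hg t ht, d1, hc₂N t ht, smul_zero, zero_add,
      show c₂ (g * t) = c₂ g by simp only [c₂, χ.eq_of_ker hg ht]]
    abel
  have h2l : ∀ s ∈ N, ∀ h ∈ W, x₂ s h = 0 := fun s hs h hh => by
    obtain ⟨t, ht, eh⟩ := χ.exists_mul_eq hσ hσ1 hh
    have e1 : x₁ s h = x₁ s (σ ^ (χ h).val) := by
      conv_lhs => rw [eh]
      exact hright₁ s hs.1 _ (pow_mem hσ _) t ht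
    have e2 : c₂ (s * h) = c₂ h := by
      simp only [c₂]
      rw [χ.map_mul hs.1 hh, (hs : s ∈ W ∧ χ s = 0).2, zero_add]
    show x₁ s h + d1 c₂ s h = 0
    rw [d1, hc₂N s hs, e2, add_zero, e1]
    by_cases hz : χ h = 0
    · rw [hz, ZMod.val_zero, pow_zero]
      simp only [c₂, e, hz, if_true, smul_zero, sub_zero, add_zero]
      exact hN0 s hs.1 1 (one_mem _)
    · have hz' := ha' (χ h).val s hs
      simp only at hz'
      rw [hz', d0]
      simp only [c₂, e, if_neg hz, smul_neg]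
      abel
  refine ⟨x₂, hx₂, Levels.B2_congr (neg_mem (Levels.d1_mem_B2 hc₂)) fun g _ h _ => ?_, h2r, h2l⟩
  simp only [x₂, Pi.add_apply, Pi.sub_apply, Pi.neg_apply]
  abel

/-- A class which dies on the kernel of a cyclic character is cyclic. -/
theorem exists_cyc (hW : W ∈ L) (hA : L.Smooth A) (hσ : σ ∈ W) (hσ1 : χ σ = 1)
    (hH1 : ∀ c ∈ L.Z1 χ.ker A, c ∈ Levels.B1 χ.ker A) {x : Γ → Γ → A} (hx : x ∈ L.Z2 W A)
    (hres : x ∈ L.B2 χ.ker A) :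
    ∃ b : A, (∀ g ∈ W, g • b = b) ∧ x - cyc χ b ∈ L.B2 W A := by
  obtain ⟨x₁, hx₁, hx01, hN0⟩ := exists_vanish_right χ hW hA hσ hσ1 hx hres
  obtain ⟨x₂, hx₂, hx12, h2r, h2l⟩ := exists_vanish_both χ hA hσ hσ1 hH1 hx₁ hN0
  set N := χ.ker
  have hNW : N ≤ W := χ.ker_le
  have h2right : ∀ g ∈ W, ∀ h ∈ W, ∀ t ∈ N, x₂ g (h * t) = x₂ g h := fun g hg h hh t ht => by
    have := hx₂.2 g hg h hh t (hNW ht)
    rw [d2, h2r h hh t ht, h2r _ (mul_mem hg hh) t ht, smul_zero] at this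
    simpa [sub_eq_zero] using this
  have hconj : ∀ g ∈ W, ∀ s ∈ N, g⁻¹ * s * g ∈ N := fun g hg s hs => by
    have := χ.conj_mem (inv_mem hg) hs
    rwa [inv_inv] at this
  have h2left : ∀ g ∈ W, ∀ h ∈ W, ∀ s ∈ N, x₂ (g * s) h = x₂ g h := fun g hg h hh s hs => by
    have := hx₂.2 g hg s hs.1 h hh
    rw [d2, h2l s hs h hh, h2r g hg s hs, smul_zero, show s * h = h * (h⁻¹ * s * h) by group,
      h2right g hg h hh _ (hconj h hh s hs)] at this
    rw [← sub_eq_zero, ← neg_eq_zero, ← this]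
    abel
  have h2fix : ∀ g ∈ W, ∀ h ∈ W, ∀ s ∈ N, s • x₂ g h = x₂ g h := fun g hg h hh s hs => by
    have := hx₂.2 s hs.1 g hg h hh
    rw [d2, h2l s hs _ (mul_mem hg hh), h2l s hs g hg, show s * g = g * (g⁻¹ * s * g) by group,
      h2left g hg h hh _ (hconj g hg s hs)] at this
    simpa [sub_eq_zero] using this
  obtain ⟨b, hb, hxb⟩ := exists_cyc_of_inflated χ hσ hσ1 hx₂.2
    (fun g hg h hh s hs t ht => by
      rw [h2right _ (mul_mem hg hs.1) h hh t ht, h2left g hg h hh s hs])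
    (fun g hg => h2r g hg 1 (one_mem _)) h2fix
  refine ⟨b, hb, Levels.B2_congr (add_mem (add_mem hx01 hx12) hxb) fun g _ h _ => ?_⟩
  simp only [Pi.add_apply, Pi.sub_apply]
  abel

/-- The projection formula. -/
theorem cor_cyc_mem_B2 (χ₀ : CycChar L ⊤ n) (W' : Subgroup Γ) [W'.FiniteIndex] (hW' : W' ∈ L)
    (hA : L.Smooth A) {a : A} (ha : ∀ g ∈ W', g • a = a) :
    (fun g h => Ind.total (indFun2 W' (cyc χ₀ a) g h)) -
      cyc χ₀ (∑ x : Γ ⧸ W', sec W' x • a) ∈ L.B2 ⊤ A := by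
  set φ : Ind W' A := Ind.mk W' fun x => sec W' x • a
  have hφ : ∀ g ∈ (⊤ : Subgroup Γ), g • φ = φ := fun g _ => Ind.ext fun x => by
    simp only [φ, Ind.smul_apply, Ind.mk_apply]
    rw [← mul_smul, mul_sec, mul_smul, ha _ (secCocycle_mem W' g x)]
  have h1 := sub_indFun2_mem_B2 hW' (smooth_ind hW' hA) (cyc_mem_Z2 χ₀ hφ)
  have h2 := Levels.map_mem_B2 Ind.total (fun g _ ψ => Ind.total_smul g ψ) (neg_mem h1)
  have he : (fun g k => cyc χ₀ φ g k ((1 : Γ) : Γ ⧸ W')) = cyc χ₀ a := funext fun g =>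
      funext fun k => by
    rw [cyc_apply, cyc_apply, show (carry (χ₀ g) (χ₀ k) • φ) ((1 : Γ) : Γ ⧸ W') =
      carry (χ₀ g) (χ₀ k) • φ ((1 : Γ) : Γ ⧸ W') from map_zsmul (Ind.eval _) _ φ]
    simp [φ]
  refine Levels.B2_congr h2 fun g _ h _ => ?_
  rw [he]
  simp only [Pi.sub_apply, Pi.neg_apply, neg_sub, map_sub, cyc_apply]
  rw [map_zsmul, Ind.total_apply φ]
  rfl

end FermatAgent.CFT.Coh
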