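import Fermat.Agent.CFT.Coh.Functional

/-!
Global duality data, and their extension from `Mu χ` to arbitrary coefficient modules.

A `GlobalDatum` has finitely many places with local invariants, reciprocity, realisation of
families of local functionals by classes in `Ind U (Mu χ)`, and killing of locally trivial classes
at deeper levels. Expanding a finite module in a basis over `ZMod p` extends the last two to
`Ind U M` (`exists_totalEval_eq`, `exists_kill`); realisation in `M` itself follows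
(`exists_totalEval_eq_of_diag`).
-/

set_option autoImplicit false

noncomputable section

open scoped Classical

namespace FermatAgent.CFT.Coh

variable {p : ℕ} [hp : Fact p.Prime] {Γ : Type} [Group Γ]

/-- The kernel of the sum map of an induced module. -/
def TotalKer (U : Subgroup Γ) [U.FiniteIndex] (M : Type) [AddCommGroup M] [DistribMulAction Γ M] :=
  ↥(Ind.total : Ind U M →+ M).ker

namespace TotalKer

variable (U : Subgroup Γ) [U.FiniteIndex] (M : Type) [AddCommGroup M] [DistribMulAction Γ M]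

instance : AddCommGroup (TotalKer U M) :=
  inferInstanceAs (AddCommGroup ↥(Ind.total : Ind U M →+ M).ker)

/-- The inclusion of the kernel. -/
def incl : TotalKer U M →+ Ind U M := (Ind.total : Ind U M →+ M).ker.subtype

/-- The inclusion of the kernel of the total map is injective. -/
lemma incl_injective : Function.Injective (incl U M) := Subtype.val_injective

/-- The total map kills the kernel. -/
lemma total_incl (x : TotalKer U M) : Ind.total (incl U M x) = 0 := x.2

/-- Every element killed by the total map comes from the kernel. -/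
lemma exists_incl {φ : Ind U M} (h : Ind.total φ = 0) : ∃ x : TotalKer U M, incl U M x = φ :=
  ⟨⟨φ, h⟩, rfl⟩

instance [Finite M] : Finite (TotalKer U M) :=
  Finite.of_injective _ (incl_injective U M)

instance : DistribMulAction Γ (TotalKer U M) where
  smul g x := ⟨g • incl U M x, by rw [AddMonoidHom.mem_ker, Ind.total_smul, total_incl, smul_zero]⟩
  one_smul x := Subtype.ext (one_smul Γ (incl U M x))
  mul_smul g k x := Subtype.ext (mul_smul g k (incl U M x))
  smul_zero g := Subtype.ext (smul_zero g)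
  smul_add g x y := Subtype.ext (smul_add g (incl U M x) (incl U M y))

/-- The inclusion of the kernel is equivariant. -/
lemma incl_smul (g : Γ) (x : TotalKer U M) : incl U M (g • x) = g • incl U M x := rfl

instance [Module (ZMod p) M] : Module (ZMod p) (TotalKer U M) :=
  AddCommGroup.zmodModule fun x => incl_injective U M (by
    rw [map_nsmul, map_zero, ← Nat.cast_smul_eq_nsmul (ZMod p), ZMod.natCast_self, zero_smul])

/-- A normal subgroup acting trivially on the module acts trivially on the kernel. -/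
lemma smul_of_mem (hUn : U.Normal) (hM : ∀ g ∈ U, ∀ m : M, g • m = m) :
    ∀ g ∈ U, ∀ x : TotalKer U M, g • x = x := fun g hg x => incl_injective U M (Ind.ext fun c => by
  rw [incl_smul, Ind.smul_apply, smul_coset_of_mem U hUn le_rfl (inv_mem hg), hM g hg])

end TotalKer

/-- The action commutes with scalars mod `p`. -/
lemma smul_zmod_comm {M : Type} [AddCommGroup M] [Module (ZMod p) M] [DistribMulAction Γ M]
    (g : Γ) (k : ZMod p) (m : M) : g • (k • m) = k • g • m := by
  rw [← ZMod.natCast_zmod_val k, Nat.cast_smul_eq_nsmul, Nat.cast_smul_eq_nsmul]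
  exact map_nsmul (DistribSMul.toAddMonoidHom M g) k.val m

/-- The dual of a finite elementary group has the same size. -/
lemma card_homZMod {A : Type*} [AddCommGroup A] [Finite A] (hA : ∀ a : A, p • a = 0) :
    Nat.card (A →+ ZMod p) = Nat.card A :=
  have h : ∀ [Module (ZMod p) A], Nat.card (A →+ ZMod p) = Nat.card A := fun {_} =>
    Nat.card_congr ((AddMonoidHom.toZModLinearMapEquiv (n := p)).toEquiv.trans
      (Module.Free.chooseBasis (ZMod p) A).toDualEquiv.symm.toEquiv)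
  @h (AddCommGroup.zmodModule hA)

variable (χ : Γ →* (ZMod p)ˣ)

section MuComponents

variable (U : Subgroup Γ) {X : Type} [AddCommGroup X] [Module (ZMod p) X] [DistribMulAction Γ X]

/-- The map `Ind U μ → Ind U X` attached to a vector. -/
def muEmbed (x : X) : Ind U (Mu χ) →+ Ind U X where
  toFun φ := Ind.mk U fun c =>
    ((χ (sec U c) : ZMod p)⁻¹ * Mu.val χ (φ c)) • (sec U c • x)
  map_zero' := Ind.ext fun c => by
    show ((χ (sec U c) : ZMod p)⁻¹ * Mu.val χ 0) • (sec U c • x) = 0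
    rw [map_zero, mul_zero, zero_smul]
  map_add' φ ψ := Ind.ext fun c => by
    show ((χ (sec U c) : ZMod p)⁻¹ * Mu.val χ (φ c + ψ c)) • (sec U c • x) = _
    rw [map_add, mul_add, add_smul]
    rfl

lemma muEmbed_apply (x : X) (φ : Ind U (Mu χ)) (c : Γ ⧸ U) :
    muEmbed χ U x φ c = ((χ (sec U c) : ZMod p)⁻¹ * Mu.val χ (φ c)) • (sec U c • x) := rfl

/-- The coordinate map `Ind U X → Ind U μ` attached to a linear functional. -/
def muCoord (n : X →ₗ[ZMod p] ZMod p) : Ind U X →+ Ind U (Mu χ) where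
  toFun φ := Ind.mk U fun c => Mu.of χ ((χ (sec U c) : ZMod p) * n ((sec U c)⁻¹ • φ c))
  map_zero' := Ind.ext fun c => by
    show Mu.of χ ((χ (sec U c) : ZMod p) * n ((sec U c)⁻¹ • (0 : X))) = 0
    rw [smul_zero, map_zero, mul_zero, map_zero]
  map_add' φ ψ := Ind.ext fun c => by
    show Mu.of χ ((χ (sec U c) : ZMod p) * n ((sec U c)⁻¹ • (φ c + ψ c))) = _
    rw [smul_add, map_add, mul_add, map_add]
    rfl

lemma muCoord_apply (n : X →ₗ[ZMod p] ZMod p) (φ : Ind U X) (c : Γ ⧸ U) :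
    muCoord χ U n φ c = Mu.of χ ((χ (sec U c) : ZMod p) * n ((sec U c)⁻¹ • φ c)) := rfl

variable {U}

/-- The embedding of the twisted roots at a vector is equivariant. -/
lemma muEmbed_smul (hU : U ≤ χ.ker) (hX : ∀ g ∈ U, ∀ x : X, g • x = x) (x : X) (g : Γ)
    (φ : Ind U (Mu χ)) : muEmbed χ U x (g • φ) = g • muEmbed χ U x φ := by
  refine Ind.ext fun c => ?_
  have hu := secCocycle_mem U g c
  have hg := mul_sec U g c
  rw [muEmbed_apply, Ind.smul_apply, Ind.smul_apply, muEmbed_apply, Mu.val_smul, smul_zmod_comm,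
    ← mul_smul g, hg, mul_smul (sec U c), hX _ hu]
  congr 1
  have hχ : (χ g : ZMod p) * χ (sec U (g⁻¹ • c)) = χ (sec U c) := by
    rw [← Units.val_mul, ← map_mul, hg, map_mul, MonoidHom.mem_ker.mp (hU hu), mul_one]
  have h1 := Units.ne_zero (χ (sec U c))
  have h2 := Units.ne_zero (χ (sec U (g⁻¹ • c)))
  field_simp
  linear_combination Mu.val χ (φ (g⁻¹ • c)) * hχ

/-- The coordinate map to the twisted roots is equivariant. -/
lemma muCoord_smul (hU : U ≤ χ.ker) (hX : ∀ g ∈ U, ∀ x : X, g • x = x) (n : X →ₗ[ZMod p] ZMod p)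
    (g : Γ) (φ : Ind U X) : muCoord χ U n (g • φ) = g • muCoord χ U n φ := by
  refine Ind.ext fun c => Mu.ext χ ?_
  have hu := secCocycle_mem U g c
  rw [muCoord_apply, Ind.smul_apply, Ind.smul_apply, muCoord_apply, Mu.val_smul, Mu.val_of,
    Mu.val_of, ← mul_smul, inv_sec_mul, mul_smul, hX _ hu, ← mul_assoc]
  congr 1
  rw [← Units.val_mul, ← map_mul, mul_sec U g c, map_mul, MonoidHom.mem_ker.mp (hU hu), mul_one]

variable [Finite X]

/-- An induced element is the sum of its coordinates in a basis. -/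
lemma sum_muEmbed_muCoord (φ : Ind U X) :
    ∑ i, muEmbed χ U (Module.finBasis (ZMod p) X i)
      (muCoord χ U ((Module.finBasis (ZMod p) X).coord i) φ) = φ := by
  set b := Module.finBasis (ZMod p) X
  refine Ind.ext fun c => ?_
  rw [show (∑ i, muEmbed χ U (b i) (muCoord χ U (b.coord i) φ)) c =
    ∑ i, muEmbed χ U (b i) (muCoord χ U (b.coord i) φ) c by
        show Ind.eval c (∑ i, muEmbed χ U (b i) (muCoord χ U (b.coord i) φ)) = _
        exact map_sum (Ind.eval c) _ _]
  have : ∀ i, muEmbed χ U (b i) (muCoord χ U (b.coord i) φ) c =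
      sec U c • (b.repr ((sec U c)⁻¹ • φ c) i • b i) := fun i => by
    rw [muEmbed_apply, muCoord_apply, Mu.val_of, inv_mul_cancel_left₀ (Units.ne_zero _),
      smul_zmod_comm, Module.Basis.coord_apply]
  simp only [this]
  rw [← Finset.smul_sum, b.sum_repr, smul_inv_smul]

omit [Finite X] in
lemma fibreSum_muEmbed {U' : Subgroup Γ} [U'.FiniteIndex] (h : U' ≤ U) (hU : U ≤ χ.ker)
    (hX : ∀ g ∈ U, ∀ x : X, g • x = x) (x : X) (φ : Ind U' (Mu χ)) :
    Ind.fibreSum h (muEmbed χ U' x φ) = muEmbed χ U x (Ind.fibreSum h φ) := by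
  refine Ind.ext fun d => ?_
  rw [Ind.fibreSum_apply, muEmbed_apply, Ind.fibreSum_apply, map_sum, Finset.mul_sum,
    Finset.sum_smul]
  refine Finset.sum_congr rfl fun c hc => ?_
  rw [muEmbed_apply]
  have hd : ((sec U' c : Γ) : Γ ⧸ U) = ((sec U d : Γ) : Γ ⧸ U) := by
    rw [mk_sec, ← (Finset.mem_filter.mp hc).2]
    conv_rhs => rw [← mk_sec U' c, Ind.proj_coe]
  rw [QuotientGroup.eq] at hd
  obtain ⟨u, hu, he⟩ : ∃ u ∈ U, sec U d = sec U' c * u := ⟨_, hd, (mul_inv_cancel_left _ _).symm⟩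
  rw [he, map_mul, MonoidHom.mem_ker.mp (hU hu), mul_one, mul_smul (sec U' c) u, hX u hu]

end MuComponents

namespace Levels

variable {Δ : Type} [Group Δ] {L₁ L₂ : Levels Δ} {U : Subgroup Δ} {A : Type} [AddCommGroup A]
  [DistribMulAction Δ A]

/-- Cocycles for fewer levels are cocycles for more levels. -/
lemma Z2_le (h : ∀ W ∈ L₁, W ∈ L₂) {f : Δ → Δ → A} (hf : f ∈ L₁.Z2 U A) : f ∈ L₂.Z2 U A := by
  obtain ⟨⟨V, hV, hc⟩, hcoc⟩ := hf
  exact ⟨⟨V, h V hV, hc⟩, hcoc⟩

/-- Coboundaries for fewer levels are coboundaries for more levels. -/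
lemma B2_le (h : ∀ W ∈ L₁, W ∈ L₂) {f : Δ → Δ → A} (hf : f ∈ L₁.B2 U A) : f ∈ L₂.B2 U A := by
  obtain ⟨c, ⟨V, hV, hc⟩, hfc⟩ := hf
  exact ⟨c, ⟨V, h V hV, hc⟩, hfc⟩

end Levels

/-- Global duality data: places, local invariants, reciprocity, realisation and killing. -/
structure GlobalDatum (L : Levels Γ) where
  /-- The places. -/
  ι : Type
  [fintypeι : Fintype ι]
  [nonemptyι : Nonempty ι]
  /-- The local groups. -/
  Δ : ι → Type
  [groupΔ : ∀ v, Group (Δ v)]
  /-- The localisation maps. -/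
  r : ∀ v, Δ v →* Γ
  /-- The local levels. -/
  Lv : ∀ v, Levels (Δ v)
  hLv : ∀ v, ∀ W ∈ L.comap (r v), W ∈ Lv v
  /-- The local invariants. -/
  loc : ∀ v, InvDatum (χ.comp (r v)) (Lv v)
  ker_mem : χ.ker ∈ L
  recip : ∀ f ∈ L.Z2 ⊤ (Mu χ),
    ∑ v, (loc v).inv ⊤ (fun a b => Mu.of (χ.comp (r v)) (Mu.val χ (f (r v a) (r v b)))) = 0
  corSurj : ∀ (W : Subgroup Γ) [W.FiniteIndex], W.Normal → W ∈ L → W ≤ χ.ker →
    ∀ (M : Type) [AddCommGroup M] [Module (ZMod p) M] [Finite M] [DistribMulAction Γ M],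
      (∀ g ∈ W, ∀ m : M, g • m = m) → CorSurj L W M
  realize : ∀ (U : Subgroup Γ) [U.FiniteIndex], U.Normal → U ∈ L → U ≤ χ.ker →
    ∀ θ : (∀ v, eqHom χ (r v) (Ind U (Mu χ))) →+ ZMod p,
      (∀ ψ (hψ : ψ ∈ eqHom χ (MonoidHom.id Γ) (Ind U (Mu χ))),
        θ (fun v => ⟨ψ, fun d m => hψ (r v d) m⟩) = 0) →
      ∃ F ∈ L.Z2 ⊤ (Ind U (Mu χ)), ∀ e : ∀ v, eqHom χ (r v) (Ind U (Mu χ)),
        θ e = ∑ v, (loc v).inv ⊤ (fun a b => Mu.of (χ.comp (r v)) ((e v).1 (F (r v a) (r v b))))
  kill : ∀ (U : Subgroup Γ) [U.FiniteIndex], U.Normal → U ∈ L → U ≤ χ.ker →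
    ∃ (U' : Subgroup Γ) (_ : U'.FiniteIndex) (h : U' ≤ U), U'.Normal ∧ U' ∈ L ∧
      ∀ F ∈ L.Z2 ⊤ (Ind U' (Mu χ)),
        (∀ v, (fun a b => Res.of (r v) _ (F (r v a) (r v b))) ∈
          (Lv v).B2 ⊤ (Res (r v) (Ind U' (Mu χ)))) →
        (fun g k => Ind.fibreSum h (F g k)) ∈ L.B2 ⊤ (Ind U (Mu χ))

attribute [instance] GlobalDatum.fintypeι GlobalDatum.nonemptyι GlobalDatum.groupΔ

namespace GlobalDatum

variable {χ} {L : Levels Γ} (D : GlobalDatum χ L) {M : Type} [AddCommGroup M] [DistribMulAction Γ M]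

/-- A cochain seen at a place. -/
def pull (v : D.ι) (f : Γ → Γ → M) : D.Δ v → D.Δ v → Res (D.r v) M :=
  fun a b => Res.of (D.r v) M (f (D.r v a) (D.r v b))

/-- Cocycles pull back to cocycles at every place. -/
lemma pull_mem_Z2 (v : D.ι) {f : Γ → Γ → M} (hf : f ∈ L.Z2 ⊤ M) :
    D.pull v f ∈ (D.Lv v).Z2 ⊤ (Res (D.r v) M) :=
  letI : DistribMulAction (D.Δ v) M := DistribMulAction.compHom M (D.r v)
  Levels.Z2_le (D.hLv v) <| Levels.pullback_mem_Z2 (A := M) (U := ⊤) (D.r v) (fun _ _ => rfl)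
    (fun _ _ => Subgroup.mem_top _) hf

/-- Coboundaries pull back to coboundaries at every place. -/
lemma pull_mem_B2 (v : D.ι) {f : Γ → Γ → M} (hf : f ∈ L.B2 ⊤ M) :
    D.pull v f ∈ (D.Lv v).B2 ⊤ (Res (D.r v) M) :=
  letI : DistribMulAction (D.Δ v) M := DistribMulAction.compHom M (D.r v)
  Levels.B2_le (D.hLv v) <| Levels.pullback_mem_B2 (A := M) (U := ⊤) (D.r v) (fun _ _ => rfl)
    (fun _ _ => Subgroup.mem_top _) hf

/-- The local invariant of a functional applied to a class. -/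
def locEval (v : D.ι) (f : Γ → Γ → M) (n : M →+ ZMod p) : ZMod p :=
  (D.loc v).eval (M := Res (D.r v) M) (D.pull v f) n

lemma mem_eqHom_res (v : D.ι) {n : M →+ ZMod p} (hn : n ∈ eqHom χ (D.r v) M) :
    (show Res (D.r v) M →+ ZMod p from n) ∈
      eqHom (χ.comp (D.r v)) (MonoidHom.id (D.Δ v)) (Res (D.r v) M) := hn

lemma eqHom_of_global {Δ : Type} [Group Δ] (r : Δ →* Γ) {n : M →+ ZMod p}
    (hn : n ∈ eqHom χ (MonoidHom.id Γ) M) : n ∈ eqHom χ r M := fun d m => hn (r d) m

/-- Local evaluation is additive in the cocycle. -/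
lemma locEval_add (v : D.ι) {f f' : Γ → Γ → M} (hf : f ∈ L.Z2 ⊤ M) (hf' : f' ∈ L.Z2 ⊤ M)
    {n : M →+ ZMod p} (hn : n ∈ eqHom χ (D.r v) M) :
    D.locEval v (f + f') n = D.locEval v f n + D.locEval v f' n :=
  (D.loc v).eval_add (D.pull_mem_Z2 v hf) (D.pull_mem_Z2 v hf') (D.mem_eqHom_res v hn)

/-- Local evaluation is additive in the functional. -/
lemma locEval_add_right (v : D.ι) {f : Γ → Γ → M} (hf : f ∈ L.Z2 ⊤ M)
    {n n' : M →+ ZMod p} (hn : n ∈ eqHom χ (D.r v) M) (hn' : n' ∈ eqHom χ (D.r v) M) :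
    D.locEval v f (n + n') = D.locEval v f n + D.locEval v f n' :=
  (D.loc v).eval_add_right (D.pull_mem_Z2 v hf) (D.mem_eqHom_res v hn) (D.mem_eqHom_res v hn')

/-- Local evaluation vanishes on local coboundaries. -/
lemma locEval_of_pull_mem_B2 (v : D.ι) {f : Γ → Γ → M}
    (hf : D.pull v f ∈ (D.Lv v).B2 ⊤ (Res (D.r v) M)) {n : M →+ ZMod p}
    (hn : n ∈ eqHom χ (D.r v) M) : D.locEval v f n = 0 :=
  (D.loc v).eval_eq_zero_of_mem_B2 hf (D.mem_eqHom_res v hn)

/-- Local evaluation depends only on the class. -/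
lemma locEval_congr (v : D.ι) {f f' : Γ → Γ → M} (hf : f ∈ L.Z2 ⊤ M) (hf' : f' ∈ L.Z2 ⊤ M)
    (h : f - f' ∈ L.B2 ⊤ M) {n : M →+ ZMod p} (hn : n ∈ eqHom χ (D.r v) M) :
    D.locEval v f n = D.locEval v f' n :=
  (D.loc v).eval_congr (D.pull_mem_Z2 v hf) (D.pull_mem_Z2 v hf') (D.pull_mem_B2 v h)
    (D.mem_eqHom_res v hn)

omit [DistribMulAction Γ M] in
/-- Local evaluation is natural in the module. -/
lemma locEval_comp (v : D.ι) {N : Type} [AddCommGroup N] (φ : M →+ N)
    (f : Γ → Γ → M) (n : N →+ ZMod p) :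
    D.locEval v (fun g k => φ (f g k)) n = D.locEval v f (n.comp φ) := rfl

/-- Global reciprocity for evaluations at a global functional. -/
lemma sum_locEval_eq_zero {f : Γ → Γ → M} (hf : f ∈ L.Z2 ⊤ M) {n : M →+ ZMod p}
    (hn : n ∈ eqHom χ (MonoidHom.id Γ) M) : ∑ v, D.locEval v f n = 0 :=
  D.recip (fun g k => Mu.of χ (n (f g k)))
    (Levels.map_mem_Z2 ((Mu.of χ).comp n) (fun g _ => mu_smul_of_mem χ hn g) hf)

/-- Evaluation of families of local functionals on a class. -/
def totalEval {f : Γ → Γ → M} (hf : f ∈ L.Z2 ⊤ M) : (∀ v, eqHom χ (D.r v) M) →+ ZMod p :=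
  AddMonoidHom.mk' (fun e => ∑ v, D.locEval v f (e v).1) fun e e' => by
    rw [← Finset.sum_add_distrib]
    exact Finset.sum_congr rfl fun v _ => D.locEval_add_right v hf (e v).2 (e' v).2

/-- The total evaluation is the sum of the local ones. -/
lemma totalEval_apply {f : Γ → Γ → M} (hf : f ∈ L.Z2 ⊤ M) (e : ∀ v, eqHom χ (D.r v) M) :
    D.totalEval hf e = ∑ v, D.locEval v f (e v).1 := rfl

/-- The diagonal family of a global functional. -/
def diag : eqHom χ (MonoidHom.id Γ) M →+ ∀ v, eqHom χ (D.r v) M where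
  toFun n v := ⟨n.1, eqHom_of_global (D.r v) n.2⟩
  map_zero' := rfl
  map_add' _ _ := rfl

@[simp] lemma diag_apply (n : eqHom χ (MonoidHom.id Γ) M) (v : D.ι) : (D.diag n v).1 = n.1 := rfl

/-- Composition of families with an equivariant map. -/
def compFamily {N : Type} [AddCommGroup N] [DistribMulAction Γ N] (φ : M →+ N)
    (hφ : ∀ (g : Γ) m, φ (g • m) = g • φ m) :
    (∀ v, eqHom χ (D.r v) N) →+ ∀ v, eqHom χ (D.r v) M where
  toFun e v := eqHomComp χ (D.r v) φ hφ (e v)
  map_zero' := funext fun _ => map_zero _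
  map_add' _ _ := funext fun _ => map_add _ _ _

@[simp] lemma compFamily_apply {N : Type} [AddCommGroup N] [DistribMulAction Γ N] (φ : M →+ N)
    (hφ : ∀ (g : Γ) m, φ (g • m) = g • φ m) (e : ∀ v, eqHom χ (D.r v) N) (v : D.ι) :
    (D.compFamily φ hφ e v).1 = (e v).1.comp φ := rfl

/-- Families of local functionals are killed by `p`. -/
lemma nsmul_family_eq_zero (e : ∀ v, eqHom χ (D.r v) M) : p • e = 0 :=
  funext fun v => Subtype.ext (AddMonoidHom.ext fun m => by simp)

variable [Module (ZMod p) M] [Finite M] {U : Subgroup Γ} [U.FiniteIndex]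

/-- Realisation of functionals by classes in induced modules. -/
theorem exists_totalEval_eq (hUn : U.Normal) (hU : U ∈ L) (hUχ : U ≤ χ.ker)
    (hM : ∀ g ∈ U, ∀ m : M, g • m = m) (θ : (∀ v, eqHom χ (D.r v) (Ind U M)) →+ ZMod p)
    (hθ : ∀ n, θ (D.diag n) = 0) :
    ∃ F, ∃ hF : F ∈ L.Z2 ⊤ (Ind U M), D.totalEval hF = θ := by
  set b := Module.finBasis (ZMod p) M
  let R : (∀ v, eqHom χ (D.r v) (Ind U M)) →+
      (Fin (Module.finrank (ZMod p) M) → ∀ v, eqHom χ (D.r v) (Ind U (Mu χ))) :=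
    AddMonoidHom.pi fun i => D.compFamily (muEmbed χ U (b i)) (muEmbed_smul χ hUχ hM (b i))
  let Δ : AddSubgroup (Fin (Module.finrank (ZMod p) M) → ∀ v, eqHom χ (D.r v) (Ind U (Mu χ))) :=
    (AddMonoidHom.pi fun i => (D.diag (M := Ind U (Mu χ))).comp
      (Pi.evalAddMonoidHom (fun _ => eqHom χ (MonoidHom.id Γ) (Ind U (Mu χ))) i)).range
  let q := QuotientAddGroup.mk' Δ
  obtain ⟨θ', hθ'⟩ := exists_factor (p := p) (fun x => by
      obtain ⟨x, rfl⟩ := QuotientAddGroup.mk'_surjective Δ x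
      rw [← map_nsmul, show p • x = 0 from funext fun i => D.nsmul_family_eq_zero (x i), map_zero])
    (q.comp R) θ fun e he => by
      obtain ⟨ψ, hψ⟩ := (QuotientAddGroup.eq_zero_iff _).mp he
      let n : eqHom χ (MonoidHom.id Γ) (Ind U M) :=
        ∑ i, eqHomComp χ _ (muCoord χ U (b.coord i)) (muCoord_smul χ hUχ hM (b.coord i)) (ψ i)
      have hn : e = D.diag n := by
        funext v
        refine Subtype.ext (AddMonoidHom.ext fun φ => ?_)
        rw [diag_apply, AddSubgroup.val_finsetSum, AddMonoidHom.finsetSum_apply]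
        conv_lhs => rw [← sum_muEmbed_muCoord χ (U := U) φ, map_sum]
        refine Finset.sum_congr rfl fun i _ => ?_
        exact (DFunLike.congr_fun (congrArg Subtype.val (congrFun (congrFun hψ i) v)) _).symm
      rw [hn, hθ]
  let θi : Fin (Module.finrank (ZMod p) M) → (∀ v, eqHom χ (D.r v) (Ind U (Mu χ))) →+ ZMod p :=
    fun i => (θ'.comp q).comp
      (AddMonoidHom.single (fun _ => ∀ v, eqHom χ (D.r v) (Ind U (Mu χ))) i)
  have hθi : ∀ i n, θi i (D.diag n) = 0 := fun i n => by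
    have : (Pi.single i (D.diag n) : Fin (Module.finrank (ZMod p) M) → _) ∈ Δ :=
      ⟨Pi.single i n, funext fun j => by
        by_cases h : j = i
        · subst h; simp
        · simp [h]⟩
    show θ' (q (Pi.single i (D.diag n))) = 0
    rw [show q (Pi.single i (D.diag n)) = 0 from (QuotientAddGroup.eq_zero_iff _).mpr this,
      map_zero]
  choose Fi hFi hFe using fun i => D.realize U hUn hU hUχ (θi i) fun ψ hψ => hθi i ⟨ψ, hψ⟩
  have hF : ∀ i, (fun g k => muEmbed χ U (b i) (Fi i g k)) ∈ L.Z2 ⊤ (Ind U M) := fun i =>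
    Levels.map_mem_Z2 _ (fun g _ => muEmbed_smul χ hUχ hM (b i) g) (hFi i)
  refine ⟨∑ i, fun g k => muEmbed χ U (b i) (Fi i g k), sum_mem fun i _ => hF i,
    AddMonoidHom.ext fun e => ?_⟩
  have hadd : ∀ (s : Finset (Fin (Module.finrank (ZMod p) M))) (hs : (∑ i ∈ s, fun g k =>
      muEmbed χ U (b i) (Fi i g k)) ∈ L.Z2 ⊤ (Ind U M)),
      D.totalEval hs e = ∑ i ∈ s, D.totalEval (hF i) e := by
    intro s
    induction s using Finset.induction with
    | empty =>
      intro hs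
      simp only [Finset.sum_empty, totalEval_apply]
      exact Finset.sum_eq_zero fun v _ =>
        D.locEval_of_pull_mem_B2 v (D.pull_mem_B2 v (zero_mem _)) (e v).2
    | insert a s ha ih =>
      intro hs
      rw [totalEval_apply]
      simp only [Finset.sum_insert ha]
      rw [← ih (sum_mem fun i _ => hF i), totalEval_apply, totalEval_apply,
        ← Finset.sum_add_distrib]
      exact Finset.sum_congr rfl fun v _ =>
        D.locEval_add v (hF a) (sum_mem fun i _ => hF i) (e v).2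
  rw [hadd, ← hθ' e]
  have : q (R e) = ∑ i, q (AddMonoidHom.single _ i (R e i)) := by
    conv_lhs => rw [← Finset.univ_sum_single (R e)]
    rw [map_sum]
    rfl
  show _ = θ' (q (R e))
  rw [this, map_sum]
  exact Finset.sum_congr rfl fun i _ => (hFe i (R e i)).symm

/-- Realisation in any finite module. -/
theorem exists_totalEval_eq_of_diag (hUn : U.Normal) (hU : U ∈ L) (hUχ : U ≤ χ.ker)
    (hM : ∀ g ∈ U, ∀ m : M, g • m = m) (θ : (∀ v, eqHom χ (D.r v) M) →+ ZMod p)
    (hθ : ∀ n, θ (D.diag n) = 0) :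
    ∃ G, ∃ hG : G ∈ L.Z2 ⊤ M, D.totalEval hG = θ := by
  let R := D.compFamily (Ind.total : Ind U M →+ M) Ind.total_smul
  let q := QuotientAddGroup.mk' (D.diag (M := Ind U M)).range
  obtain ⟨θ', hθ'⟩ := exists_factor (p := p) (fun x => by
      obtain ⟨x, rfl⟩ := QuotientAddGroup.mk'_surjective _ x
      rw [← map_nsmul, D.nsmul_family_eq_zero, map_zero])
    (q.comp R) θ fun e he => by
      obtain ⟨ψ, hψ⟩ := (QuotientAddGroup.eq_zero_iff _).mp he
      obtain ⟨v₀⟩ := D.nonemptyι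
      have hval : ∀ v φ, (e v).1 (Ind.total φ) = ψ.1 φ := fun v φ =>
        (DFunLike.congr_fun (congrArg Subtype.val (congrFun hψ v)) φ).symm
      have hmem : (e v₀).1 ∈ eqHom χ (MonoidHom.id Γ) M := fun g x => by
        obtain ⟨φ, rfl⟩ := Ind.total_surjective (U := U) x
        rw [MonoidHom.id_apply, ← Ind.total_smul, hval, hval]
        exact ψ.2 g φ
      have : e = D.diag ⟨(e v₀).1, hmem⟩ := funext fun v =>
          Subtype.ext (AddMonoidHom.ext fun x => by
        obtain ⟨φ, rfl⟩ := Ind.total_surjective (U := U) x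
        rw [diag_apply, hval, hval])
      rw [this, hθ]
  obtain ⟨F, hF, hFθ⟩ := D.exists_totalEval_eq hUn hU hUχ hM (θ'.comp q) fun n => by
    show θ' (q (D.diag n)) = 0
    rw [show q (D.diag n) = 0 from (QuotientAddGroup.eq_zero_iff _).mpr ⟨n, rfl⟩, map_zero]
  refine ⟨fun g k => Ind.total (F g k),
    Levels.map_mem_Z2 Ind.total (fun g _ ψ => Ind.total_smul g ψ) hF, AddMonoidHom.ext fun e => ?_⟩
  rw [← hθ' e]
  exact DFunLike.congr_fun hFθ (R e)

/-- Locally trivial classes die after projection from a deep enough level. -/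
theorem exists_kill (hUn : U.Normal) (hU : U ∈ L) (hUχ : U ≤ χ.ker)
    (hM : ∀ g ∈ U, ∀ m : M, g • m = m) :
    ∃ (U' : Subgroup Γ) (_ : U'.FiniteIndex) (h : U' ≤ U), U'.Normal ∧ U' ∈ L ∧
      ∀ F ∈ L.Z2 ⊤ (Ind U' M),
        (∀ v, D.pull v F ∈ (D.Lv v).B2 ⊤ (Res (D.r v) (Ind U' M))) →
        (fun g k => Ind.fibreSum h (F g k)) ∈ L.B2 ⊤ (Ind U M) := by
  obtain ⟨U', hfi, hle, hU'n, hU', hkill⟩ := D.kill U hUn hU hUχ
  refine ⟨U', hfi, hle, hU'n, hU', fun F hF hloc => ?_⟩
  set b := Module.finBasis (ZMod p) M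
  have hM' : ∀ g ∈ U', ∀ m : M, g • m = m := fun g hg => hM g (hle hg)
  have h1 : ∀ i, (fun g k => Ind.fibreSum hle (muCoord χ U' (b.coord i) (F g k))) ∈
      L.B2 ⊤ (Ind U (Mu χ)) := fun i => by
    refine hkill _ (Levels.map_mem_Z2 _ (fun g _ => muCoord_smul χ (hle.trans hUχ) hM' _ g) hF)
      fun v => ?_
    exact Levels.map_mem_B2 (A := Res (D.r v) (Ind U' M)) (B := Res (D.r v) (Ind U' (Mu χ)))
      (muCoord χ U' (b.coord i))
      (fun d _ => muCoord_smul χ (hle.trans hUχ) hM' _ (D.r v d)) (hloc v)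
  refine Levels.B2_congr (sum_mem fun i (_ : i ∈ Finset.univ) =>
    Levels.map_mem_B2 (muEmbed χ U (b i)) (fun g _ => muEmbed_smul χ hUχ hM (b i) g) (h1 i))
    fun g _ k _ => ?_
  simp only [Finset.sum_apply, ← fibreSum_muEmbed χ hle hUχ hM, ← map_sum]
  rw [sum_muEmbed_muCoord]

end GlobalDatum

end FermatAgent.CFT.Coh
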