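import Fermat.Agent.CFT.Coh.Datum

/-!
The duality between the locally trivial classes in degree one of the twisted dual (`sha1`) and in
degree two (`sha2`) of a global duality datum.

The pairing lifts the degree two class to an induced module, trivialises the degree one class at
each place and adds up the local evaluations (`PairData.value`, `pairing`). Realisation of
functionals and killing at deep levels give nondegeneracy on both sides (`mem_B1_of_pairing`,
`mem_B2_of_pairing`); `exists_descended` passes to the classes.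
-/

set_option autoImplicit false

noncomputable section

open scoped Classical

namespace FermatAgent.CFT.Coh

variable {p : ℕ} [hp : Fact p.Prime] {Γ : Type} [Group Γ] {χ : Γ →* (ZMod p)ˣ} {L : Levels Γ}

namespace GlobalDatum

variable (D : GlobalDatum χ L) (M : Type) [AddCommGroup M] [DistribMulAction Γ M]

/-- Degree one classes of the twisted dual which are trivial at every place. -/
def sha1 : AddSubgroup (Γ → Dual χ M) where
  carrier := {y | y ∈ L.Z1 ⊤ (Dual χ M) ∧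
    ∀ v, ∃ n : Dual χ M, ∀ d, y (D.r v d) = D.r v d • n - n}
  zero_mem' := ⟨zero_mem _, fun v => ⟨0, fun d => by simp⟩⟩
  add_mem' {y y'} hy hy' := ⟨add_mem hy.1 hy'.1, fun v => by
    obtain ⟨n, hn⟩ := hy.2 v
    obtain ⟨n', hn'⟩ := hy'.2 v
    exact ⟨n + n', fun d => by rw [Pi.add_apply, hn, hn', smul_add]; abel⟩⟩
  neg_mem' {y} hy := ⟨neg_mem hy.1, fun v => by
    obtain ⟨n, hn⟩ := hy.2 v
    exact ⟨-n, fun d => by rw [Pi.neg_apply, hn, smul_neg]; abel⟩⟩

/-- Degree two classes which are trivial at every place. -/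
def sha2 : AddSubgroup (Γ → Γ → M) where
  carrier := {f | f ∈ L.Z2 ⊤ M ∧
    ∀ v, D.pull v f ∈ (D.Lv v).B2 ⊤ (Res (D.r v) M)}
  zero_mem' := ⟨zero_mem _, fun _ => zero_mem _⟩
  add_mem' {_ _} hf hf' := ⟨add_mem hf.1 hf'.1, fun v => add_mem (hf.2 v) (hf'.2 v)⟩
  neg_mem' {_} hf := ⟨neg_mem hf.1, fun v => neg_mem (hf.2 v)⟩

variable {M}

lemma smul_out_eq {U : Subgroup Γ} {y : Γ → Dual χ M} (hy : y ∈ L.Z1 ⊤ (Dual χ M))
    (hyU : ∀ g ∈ U, y g = 0) (g : Γ) (c : Γ ⧸ U) :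
    y (g • c).out = g • y c.out + y g := by
  have h : ((g * c.out : Γ) : Γ ⧸ U) = (((g • c).out : Γ) : Γ ⧸ U) := by
    rw [QuotientGroup.out_eq', ← smul_eq_mul, ← MulAction.Quotient.smul_coe, QuotientGroup.out_eq']
  rw [QuotientGroup.eq] at h
  rw [show (g • c).out = g * c.out * ((g * c.out)⁻¹ * (g • c).out) by group,
    Levels.Z1_apply_mul hy trivial trivial, hyU _ h, smul_zero, zero_add,
    Levels.Z1_apply_mul hy trivial trivial]

variable (U : Subgroup Γ) [U.FiniteIndex]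

/-- The extension to the induced module of the functional attached to a cocycle. -/
def tilde (y : Γ → Dual χ M) (n : Dual χ M) : Ind U M →+ ZMod p :=
  indPair fun c => Dual.hom χ M (y c.out + n)

variable {U}

omit [DistribMulAction Γ M] in
lemma tilde_apply (y : Γ → Dual χ M) (n : Dual χ M) (φ : Ind U M) :
    tilde U y n φ = ∑ c, Dual.hom χ M (y c.out + n) (φ c) := indPair_apply _ _

lemma tilde_smul {y : Γ → Dual χ M} (hy : y ∈ L.Z1 ⊤ (Dual χ M)) (hyU : ∀ g ∈ U, y g = 0)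
    (n : Dual χ M) (g : Γ) (φ : Ind U M) :
    tilde U y n (g • φ) = (χ g : ZMod p) * tilde U y n φ +
      Dual.hom χ M (y g + n - g • n) (g • Ind.total φ) := by
  rw [tilde_apply, tilde_apply, Ind.total_apply, Finset.smul_sum, map_sum, Finset.mul_sum,
    ← Finset.sum_add_distrib]
  refine (Fintype.sum_equiv (MulAction.toPerm g) _ _ fun c => ?_).symm
  rw [MulAction.toPerm_apply, Ind.smul_apply, inv_smul_smul, smul_out_eq hy hyU]
  have e : g • y c.out + y g + n = g • (y c.out + n) + (y g + n - g • n) := by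
    rw [smul_add]; abel
  conv_rhs => rw [e, map_add, AddMonoidHom.add_apply, Dual.hom_smul_smul]

lemma tilde_mem {y : Γ → Dual χ M} (hy : y ∈ L.Z1 ⊤ (Dual χ M)) (hyU : ∀ g ∈ U, y g = 0)
    {Δ : Type} [Group Δ] (r : Δ →* Γ) {n : Dual χ M} (hn : ∀ d, y (r d) = r d • n - n) :
    tilde U y n ∈ eqHom χ r (Ind U M) := fun d φ => by
  rw [tilde_smul hy hyU, hn, show r d • n - n + n - r d • n = 0 by abel, map_zero,
    AddMonoidHom.zero_apply, add_zero]

omit [DistribMulAction Γ M] in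
lemma tilde_sub (y : Γ → Dual χ M) (n n' : Dual χ M) :
    tilde U y n - tilde U y n' = (Dual.hom χ M (n - n')).comp Ind.total := by
  refine AddMonoidHom.ext fun φ => ?_
  rw [AddMonoidHom.sub_apply, tilde_apply, tilde_apply, AddMonoidHom.comp_apply, Ind.total_apply,
    map_sum, ← Finset.sum_sub_distrib]
  refine Finset.sum_congr rfl fun c _ => ?_
  rw [← AddMonoidHom.sub_apply, ← map_sub]
  congr 2
  abel

omit [DistribMulAction Γ M] in
lemma out_mem_mul (U : Subgroup Γ) (g : Γ) : g⁻¹ * (((g : Γ) : Γ ⧸ U)).out ∈ U :=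
  QuotientGroup.eq.mp (QuotientGroup.out_eq' _).symm

omit [U.FiniteIndex] in
lemma apply_out {y : Γ → Dual χ M} (hy : y ∈ L.Z1 ⊤ (Dual χ M)) (hyU : ∀ g ∈ U, y g = 0) (g : Γ) :
    y (((g : Γ) : Γ ⧸ U)).out = y g := by
  rw [show (((g : Γ) : Γ ⧸ U)).out = g * (g⁻¹ * (((g : Γ) : Γ ⧸ U)).out) by group,
    Levels.Z1_apply_mul hy trivial trivial, hyU _ (out_mem_mul U g), smul_zero, zero_add]

omit [DistribMulAction Γ M] in
/-- Local evaluation at the zero functional vanishes. -/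
lemma locEval_zero_right (v : D.ι) {N : Type} [AddCommGroup N] [DistribMulAction Γ N]
    {f : Γ → Γ → N} (hf : f ∈ L.Z2 ⊤ N) : D.locEval v f 0 = 0 := by
  have h := D.locEval_add_right v hf (zero_mem (eqHom χ (D.r v) N)) (zero_mem (eqHom χ (D.r v) N))
  rwa [add_zero, left_eq_add] at h

lemma mem_eqHom_of_fixed {Δ : Type} [Group Δ] (r : Δ →* Γ) {m : Dual χ M}
    (hm : ∀ d, r d • m = m) : Dual.hom χ M m ∈ eqHom χ r M := fun d x => by
  conv_lhs => rw [← hm d]
  exact Dual.hom_smul_smul χ M (r d) m x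

/-- Auxiliary data to evaluate the pairing. -/
structure PairData (y : Γ → Dual χ M) (f : Γ → Γ → M) where
  /-- The level. -/
  U : Subgroup Γ
  [finiteIndex : U.FiniteIndex]
  normal : U.Normal
  mem : U ∈ L
  le_ker : U ≤ χ.ker
  fix : ∀ g ∈ U, ∀ m : M, g • m = m
  vanish : ∀ g ∈ U, y g = 0
  /-- The lift. -/
  F : Γ → Γ → Ind U M
  F_mem : F ∈ L.Z2 ⊤ (Ind U M)
  F_lift : (f - fun g k => Ind.total (F g k)) ∈ L.B2 ⊤ M
  /-- The local trivialisations. -/
  n : D.ι → Dual χ M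
  n_spec : ∀ v d, y (D.r v d) = D.r v d • n v - n v

attribute [instance] PairData.finiteIndex

/-- The value of the pairing computed from auxiliary data. -/
def PairData.value {D : GlobalDatum χ L} {y : Γ → Dual χ M} {f : Γ → Γ → M}
    (P : D.PairData y f) : ZMod p :=
  ∑ v, D.locEval v P.F (tilde P.U y (P.n v))

lemma value_congr_same {y : Γ → Dual χ M} (hy : y ∈ D.sha1 M) {f : Γ → Γ → M}
    (hf : f ∈ D.sha2 M) {U : Subgroup Γ} [U.FiniteIndex] (hU : U ∈ L)
    (hfix : ∀ g ∈ U, ∀ m : M, g • m = m) (hyU : ∀ g ∈ U, y g = 0)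
    {F F' : Γ → Γ → Ind U M}
    (hF : F ∈ L.Z2 ⊤ (Ind U M)) (hFf : (f - fun g k => Ind.total (F g k)) ∈ L.B2 ⊤ M)
    (hF' : F' ∈ L.Z2 ⊤ (Ind U M)) (hF'f : (f - fun g k => Ind.total (F' g k)) ∈ L.B2 ⊤ M)
    {n n' : D.ι → Dual χ M} (hn : ∀ v d, y (D.r v d) = D.r v d • n v - n v)
    (hn' : ∀ v d, y (D.r v d) = D.r v d • n' v - n' v) :
    ∑ v, D.locEval v F (tilde U y (n v)) = ∑ v, D.locEval v F' (tilde U y (n' v)) := by
  have hM : L.Smooth M := smooth_of_trivial_on hU hfix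
  -- independence of the local trivialisations
  have hA : ∀ v, D.locEval v F' (tilde U y (n v)) = D.locEval v F' (tilde U y (n' v)) := by
    intro v
    have hm : Dual.hom χ M (n v - n' v) ∈ eqHom χ (D.r v) M := mem_eqHom_of_fixed _ fun d => by
      have := (hn v d).symm.trans (hn' v d)
      rw [smul_sub, ← sub_eq_zero]
      rw [← sub_eq_zero] at this
      rw [← this]; abel
    have hmt : (Dual.hom χ M (n v - n' v)).comp Ind.total ∈ eqHom χ (D.r v) (Ind U M) :=
      fun d φ => by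
        rw [AddMonoidHom.comp_apply, AddMonoidHom.comp_apply, Ind.total_smul]
        exact hm d _
    rw [show tilde U y (n v) = tilde U y (n' v) + (Dual.hom χ M (n v - n' v)).comp Ind.total by
      rw [← tilde_sub, add_sub_cancel],
      D.locEval_add_right v hF' (tilde_mem hy.1 hyU _ (hn' v)) hmt, add_eq_left]
    have h := D.locEval_congr v hf.1
      (Levels.map_mem_Z2 Ind.total (fun g _ φ => Ind.total_smul g φ) hF') hF'f hm
    rw [D.locEval_of_pull_mem_B2 v (hf.2 v) hm, D.locEval_comp] at h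
    exact h.symm
  rw [← Finset.sum_congr rfl fun v _ => hA v, ← sub_eq_zero, ← Finset.sum_sub_distrib]
  -- the difference of two lifts
  have hker : (fun g k => Ind.total ((F - F') g k)) ∈ L.B2 ⊤ M := by
    refine Levels.B2_congr (sub_mem hF'f hFf) fun g _ k _ => ?_
    show Ind.total (F g k - F' g k) = f g k - Ind.total (F' g k) - (f g k - Ind.total (F g k))
    rw [map_sub]; abel
  obtain ⟨e, he, hef⟩ := Levels.exists_kernel_lift (U := ⊤) (TotalKer.incl U M)
    (Ind.total : Ind U M →+ M) (fun g _ => TotalKer.incl_smul U M g)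
    (fun g _ => Ind.total_smul g) (TotalKer.incl_injective U M) Ind.total_surjective
    (fun φ h => TotalKer.exists_incl U M h) (smooth_ind hU hM) (sub_mem hF hF') hker
  have hιe : (fun g k => TotalKer.incl U M (e g k)) ∈ L.Z2 ⊤ (Ind U M) :=
    Levels.map_mem_Z2 _ (fun g _ => TotalKer.incl_smul U M g) he
  set ψ : TotalKer U M →+ ZMod p := (tilde U y 0).comp (TotalKer.incl U M)
  have hψ : ψ ∈ eqHom χ (MonoidHom.id Γ) (TotalKer U M) := fun g x => by
    simp only [ψ, AddMonoidHom.comp_apply, MonoidHom.id_apply, TotalKer.incl_smul,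
      tilde_smul hy.1 hyU, TotalKer.total_incl, smul_zero, map_zero, add_zero]
  refine Eq.trans (Finset.sum_congr rfl fun v _ => ?_) (D.sum_locEval_eq_zero he hψ)
  have hmem := tilde_mem hy.1 hyU _ (hn v) (U := U)
  have h1 : D.locEval v (F - F') (tilde U y (n v)) =
      D.locEval v (fun g k => TotalKer.incl U M (e g k)) (tilde U y (n v)) :=
    D.locEval_congr v (sub_mem hF hF') hιe hef hmem
  have h2 := D.locEval_add v (sub_mem hF hF') hF' hmem
  rw [sub_add_cancel, h1, D.locEval_comp] at h2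
  rw [h2, add_sub_cancel_right]
  congr 1
  refine AddMonoidHom.ext fun x => ?_
  have hsub := DFunLike.congr_fun (tilde_sub (U := U) y (n v) 0) (TotalKer.incl U M x)
  rw [AddMonoidHom.sub_apply, AddMonoidHom.comp_apply, TotalKer.total_incl, map_zero, sub_eq_zero]
    at hsub
  exact hsub

lemma tilde_fibreSum {U' : Subgroup Γ} [U'.FiniteIndex] (h : U' ≤ U) {y : Γ → Dual χ M}
    (hy : y ∈ L.Z1 ⊤ (Dual χ M)) (hyU : ∀ g ∈ U, y g = 0) (n : Dual χ M) :
    (tilde U y n).comp (Ind.fibreSum h) = tilde U' y n := by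
  refine AddMonoidHom.ext fun φ => ?_
  rw [AddMonoidHom.comp_apply, tilde_apply, tilde_apply]
  simp only [Ind.fibreSum_apply, map_sum]
  refine Eq.trans (Finset.sum_congr rfl fun d _ => Finset.sum_congr rfl fun c hc => ?_)
    (Finset.sum_fiberwise Finset.univ (Ind.proj h) fun c => Dual.hom χ M (y c.out + n) (φ c))
  have hd : d = ((c.out : Γ) : Γ ⧸ U) := by
    rw [← (Finset.mem_filter.mp hc).2]
    conv_lhs => rw [← c.out_eq']
    rfl
  rw [hd, apply_out hy hyU]

variable [Module (ZMod p) M] [Finite M]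

omit [Module (ZMod p) M] in
include D in
lemma exists_killing_level {y : Γ → Dual χ M} (hy : y ∈ L.Z1 ⊤ (Dual χ M)) (hM : L.Smooth M) :
    ∃ U ∈ L, U.Normal ∧ U ≤ χ.ker ∧ (∀ g ∈ U, ∀ m : M, g • m = m) ∧ ∀ g ∈ U, y g = 0 := by
  have : Fintype M := Fintype.ofFinite M
  obtain ⟨W, hW, hfix⟩ := hM.exists_finset Finset.univ
  obtain ⟨V, hV, hc⟩ := hy.1
  obtain ⟨U, hU, hUn, hle⟩ := L.exists_normal (L.inf_mem (L.inf_mem hW hV) D.ker_mem)
  refine ⟨U, hU, hUn, hle.trans inf_le_right,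
    fun g hg m => hfix g (hle hg).1.1 m (Finset.mem_univ m),
    fun g hg => ?_⟩
  have := hc 1 trivial g ⟨trivial, (hle hg).1.2⟩
  rwa [one_mul, Levels.Z1_apply_one hy] at this

lemma exists_pairData {y : Γ → Dual χ M} (hy : y ∈ D.sha1 M) {f : Γ → Γ → M} (hf : f ∈ D.sha2 M)
    {U : Subgroup Γ} [U.FiniteIndex] (hUn : U.Normal) (hU : U ∈ L) (hUχ : U ≤ χ.ker)
    (hfix : ∀ g ∈ U, ∀ m : M, g • m = m) (hyU : ∀ g ∈ U, y g = 0) :
    ∃ P : D.PairData y f, P.U = U := by
  obtain ⟨F, hF, hFf⟩ := D.corSurj U hUn hU hUχ M hfix f hf.1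
  choose n hn using hy.2
  exact ⟨⟨U, hUn, hU, hUχ, hfix, hyU, F, hF, hFf, n, hn⟩, rfl⟩

omit [Module (ZMod p) M] [Finite M] in
lemma value_eq_of_le {y : Γ → Dual χ M} (hy : y ∈ D.sha1 M) {f : Γ → Γ → M} (hf : f ∈ D.sha2 M)
    (P Q : D.PairData y f) (h : Q.U ≤ P.U) : P.value = Q.value := by
  have hQ : (fun g k => Ind.fibreSum h (Q.F g k)) ∈ L.Z2 ⊤ (Ind P.U M) :=
    Levels.map_mem_Z2 _ (fun g _ => Ind.fibreSum_smul h g) Q.F_mem
  have hQf : (f - fun g k => Ind.total (Ind.fibreSum h (Q.F g k))) ∈ L.B2 ⊤ M := by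
    simp only [Ind.total_fibreSum]
    exact Q.F_lift
  rw [PairData.value, D.value_congr_same hy hf P.mem P.fix P.vanish P.F_mem P.F_lift hQ hQf
    P.n_spec Q.n_spec, PairData.value]
  refine Finset.sum_congr rfl fun v _ => ?_
  rw [D.locEval_comp, tilde_fibreSum h hy.1 P.vanish]

lemma value_eq {y : Γ → Dual χ M} (hy : y ∈ D.sha1 M) {f : Γ → Γ → M} (hf : f ∈ D.sha2 M)
    (P Q : D.PairData y f) : P.value = Q.value := by
  have := P.normal
  have := Q.normal
  obtain ⟨R, hR⟩ := D.exists_pairData hy hf (U := P.U ⊓ Q.U) inferInstance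
    (L.inf_mem P.mem Q.mem) (inf_le_left.trans P.le_ker)
    (fun g hg => P.fix g hg.1) (fun g hg => P.vanish g hg.1)
  rw [D.value_eq_of_le hy hf P R (hR ▸ inf_le_left), D.value_eq_of_le hy hf Q R (hR ▸ inf_le_right)]

variable (hM : L.Smooth M)

include hM in
lemma nonempty_pairData (y : D.sha1 M) (f : D.sha2 M) : Nonempty (D.PairData y.1 f.1) := by
  obtain ⟨U, hU, hUn, h1, h2, h3⟩ := D.exists_killing_level y.2.1 hM
  have := L.finiteIndex hU
  obtain ⟨P, -⟩ := D.exists_pairData y.2 f.2 hUn hU h1 h2 h3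
  exact ⟨P⟩

/-- The pairing on cocycles. -/
def pairVal (y : D.sha1 M) (f : D.sha2 M) : ZMod p := (D.nonempty_pairData hM y f).some.value

lemma pairVal_eq (y : D.sha1 M) (f : D.sha2 M) (P : D.PairData y.1 f.1) :
    D.pairVal hM y f = P.value := D.value_eq y.2 f.2 _ P

omit [Module (ZMod p) M] in
include hM in
lemma exists_common_level (y y' : D.sha1 M) :
    ∃ U ∈ L, U.Normal ∧ U ≤ χ.ker ∧ (∀ g ∈ U, ∀ m : M, g • m = m) ∧ (∀ g ∈ U, y.1 g = 0) ∧
      ∀ g ∈ U, y'.1 g = 0 := by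
  obtain ⟨U, hU, hUn, h1, h2, h3⟩ := D.exists_killing_level y.2.1 hM
  obtain ⟨U', hU', hUn', -, -, h3'⟩ := D.exists_killing_level y'.2.1 hM
  have := hUn
  have := hUn'
  exact ⟨U ⊓ U', L.inf_mem hU hU', inferInstance, inf_le_left.trans h1, fun g hg => h2 g hg.1,
    fun g hg => h3 g hg.1, fun g hg => h3' g hg.2⟩

lemma pairVal_add_right (y : D.sha1 M) (f f' : D.sha2 M) :
    D.pairVal hM y (f + f') = D.pairVal hM y f + D.pairVal hM y f' := by
  obtain ⟨U, hU, hUn, h1, h2, h3⟩ := D.exists_killing_level y.2.1 hM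
  have := L.finiteIndex hU
  obtain ⟨F, hF, hFf⟩ := D.corSurj U hUn hU h1 M h2 f.1 f.2.1
  obtain ⟨F', hF', hFf'⟩ := D.corSurj U hUn hU h1 M h2 f'.1 f'.2.1
  choose n hn using y.2.2
  have hsum : ((f + f' : D.sha2 M).1 - fun g k => Ind.total ((F + F') g k)) ∈ L.B2 ⊤ M := by
    refine Levels.B2_congr (add_mem hFf hFf') fun g _ k _ => ?_
    show f.1 g k + f'.1 g k - Ind.total (F g k + F' g k) =
      f.1 g k - Ind.total (F g k) + (f'.1 g k - Ind.total (F' g k))
    rw [map_add]; abel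
  rw [D.pairVal_eq hM y f ⟨U, hUn, hU, h1, h2, h3, F, hF, hFf, n, hn⟩,
    D.pairVal_eq hM y f' ⟨U, hUn, hU, h1, h2, h3, F', hF', hFf', n, hn⟩,
    D.pairVal_eq hM y (f + f') ⟨U, hUn, hU, h1, h2, h3, F + F', add_mem hF hF', hsum, n, hn⟩]
  simp only [PairData.value, ← Finset.sum_add_distrib]
  exact Finset.sum_congr rfl fun v _ => D.locEval_add v hF hF' (tilde_mem y.2.1 h3 _ (hn v))

lemma pairVal_add_left (y y' : D.sha1 M) (f : D.sha2 M) :
    D.pairVal hM (y + y') f = D.pairVal hM y f + D.pairVal hM y' f := by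
  obtain ⟨U, hU, hUn, h1, h2, h3, h3'⟩ := D.exists_common_level hM y y'
  have := L.finiteIndex hU
  obtain ⟨F, hF, hFf⟩ := D.corSurj U hUn hU h1 M h2 f.1 f.2.1
  choose n hn using y.2.2
  choose n' hn' using y'.2.2
  rw [D.pairVal_eq hM y f ⟨U, hUn, hU, h1, h2, h3, F, hF, hFf, n, hn⟩,
    D.pairVal_eq hM y' f ⟨U, hUn, hU, h1, h2, h3', F, hF, hFf, n', hn'⟩,
    D.pairVal_eq hM (y + y') f ⟨U, hUn, hU, h1, h2,
      fun g hg => by
        show y.1 g + y'.1 g = 0
        rw [h3 g hg, h3' g hg, add_zero],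
      F, hF, hFf, fun v => n v + n' v, fun v d => by
        show y.1 _ + y'.1 _ = _
        rw [hn, hn', smul_add]; abel⟩]
  simp only [PairData.value, ← Finset.sum_add_distrib]
  refine Finset.sum_congr rfl fun v _ => ?_
  rw [← D.locEval_add_right v hF (tilde_mem y.2.1 h3 _ (hn v)) (tilde_mem y'.2.1 h3' _ (hn' v))]
  congr 1
  refine AddMonoidHom.ext fun φ => ?_
  rw [AddMonoidHom.add_apply, tilde_apply, tilde_apply, tilde_apply, ← Finset.sum_add_distrib]
  refine Finset.sum_congr rfl fun c _ => ?_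
  rw [← AddMonoidHom.add_apply, ← map_add]
  congr 2
  show y.1 _ + y'.1 _ + _ = _
  abel

/-- The pairing as a bilinear map. -/
def pairing : D.sha1 M →+ D.sha2 M →+ ZMod p :=
  AddMonoidHom.mk' (fun y => AddMonoidHom.mk' (D.pairVal hM y) (D.pairVal_add_right hM y))
    fun y y' => AddMonoidHom.ext fun f => D.pairVal_add_left hM y y' f

lemma pairing_apply (y : D.sha1 M) (f : D.sha2 M) : D.pairing hM y f = D.pairVal hM y f := rfl

/-- The pairing vanishes when the first class is zero. -/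
lemma pairing_eq_zero_of_mem_B1 (y : D.sha1 M) (f : D.sha2 M) (h : y.1 ∈ Levels.B1 ⊤ (Dual χ M)) :
    D.pairing hM y f = 0 := by
  obtain ⟨m, hm⟩ := h
  obtain ⟨U, hU, hUn, h1, h2, h3⟩ := D.exists_killing_level y.2.1 hM
  have := L.finiteIndex hU
  obtain ⟨F, hF, hFf⟩ := D.corSurj U hUn hU h1 M h2 f.1 f.2.1
  have hy : ∀ g, y.1 g = g • m - m := fun g => hm g trivial
  have hn : ∀ v d, y.1 (D.r v d) = D.r v d • m - m := fun v d => hy _
  rw [pairing_apply, D.pairVal_eq hM y f ⟨U, hUn, hU, h1, h2, h3, F, hF, hFf, fun _ => m, hn⟩]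
  exact D.sum_locEval_eq_zero hF (tilde_mem y.2.1 h3 (MonoidHom.id Γ) fun g => hy g)

/-- The pairing vanishes when the second class is zero. -/
lemma pairing_eq_zero_of_mem_B2 (y : D.sha1 M) (f : D.sha2 M) (h : f.1 ∈ L.B2 ⊤ M) :
    D.pairing hM y f = 0 := by
  obtain ⟨U, hU, hUn, h1, h2, h3⟩ := D.exists_killing_level y.2.1 hM
  have := L.finiteIndex hU
  choose n hn using y.2.2
  have h0 : (f.1 - fun g k => Ind.total ((0 : Γ → Γ → Ind U M) g k)) ∈ L.B2 ⊤ M :=
    Levels.B2_congr h fun g _ k _ => by simp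
  rw [pairing_apply, D.pairVal_eq hM y f ⟨U, hUn, hU, h1, h2, h3, 0, zero_mem _, h0, n, hn⟩]
  exact Finset.sum_eq_zero fun v _ => D.locEval_of_pull_mem_B2 v (zero_mem _)
    (tilde_mem y.2.1 h3 _ (hn v))

/-- A class killed by all local evaluations is locally trivial. -/
lemma pull_mem_B2_of_locEval {U : Subgroup Γ} (hUn : U.Normal) (hU : U ∈ L)
    (hUχ : U ≤ χ.ker) {X : Type} [AddCommGroup X] [Module (ZMod p) X] [Finite X]
    [DistribMulAction Γ X] (hX : ∀ g ∈ U, ∀ x : X, g • x = x) (v : D.ι) {f : Γ → Γ → X}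
    (hf : f ∈ L.Z2 ⊤ X) (h : ∀ n ∈ eqHom χ (D.r v) X, D.locEval v f n = 0) :
    D.pull v f ∈ (D.Lv v).B2 ⊤ (Res (D.r v) X) := by
  have := (D.Lv v).finiteIndex (D.hLv v _ (L.comap_mem (D.r v) hU))
  exact (D.loc v).mem_B2_of_eval (M := Res (D.r v) X) (W := U.comap (D.r v)) (hUn.comap _)
    (D.hLv v _ (L.comap_mem _ hU))
    (fun d hd => hUχ hd) (fun d hd x => hX _ hd x) (D.pull_mem_Z2 v hf) h

/-- Left nondegeneracy. -/
theorem mem_B1_of_pairing (y : D.sha1 M) (h : ∀ f, D.pairing hM y f = 0) :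
    y.1 ∈ Levels.B1 ⊤ (Dual χ M) := by
  by_contra hyB
  obtain ⟨U, hU, hUn, h1, h2, h3⟩ := D.exists_killing_level y.2.1 hM
  have := L.finiteIndex hU
  choose n hn using y.2.2
  let e : ∀ v, eqHom χ (D.r v) (Ind U M) :=
    fun v => ⟨tilde U y.1 (n v), tilde_mem y.2.1 h3 _ (hn v)⟩
  let E := D.compFamily (Ind.total : Ind U M →+ M) Ind.total_smul
  have hnot : ∀ ψ m, D.diag ψ + E m ≠ e := by
    intro ψ m heq
    obtain ⟨v₀⟩ := D.nonemptyι
    set κ : Dual χ M := n v₀ - Dual.mk χ M (m v₀).1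
    have hψκ : ψ.1 = tilde U y.1 κ := by
      refine AddMonoidHom.ext fun φ => ?_
      have e1 : ψ.1 φ + (m v₀).1 (Ind.total φ) = tilde U y.1 (n v₀) φ :=
        DFunLike.congr_fun (congrArg Subtype.val (congrFun heq v₀)) φ
      have e2 := DFunLike.congr_fun (tilde_sub (U := U) y.1 (n v₀) κ) φ
      rw [AddMonoidHom.sub_apply, AddMonoidHom.comp_apply, sub_sub_cancel, Dual.hom_mk] at e2
      linear_combination e1 + e2
    refine hyB ⟨κ, fun g _ => ?_⟩
    have hker : ∀ φ : Ind U M, Dual.hom χ M (y.1 g + κ - g • κ) (g • Ind.total φ) = 0 := fun φ => by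
      have := ψ.2 g φ
      rw [hψκ, MonoidHom.id_apply, tilde_smul y.2.1 h3] at this
      linear_combination this
    have h0 : y.1 g + κ - g • κ = 0 := AddMonoidHom.ext fun x => by
      obtain ⟨φ, hφ⟩ := Ind.total_surjective (U := U) (g⁻¹ • x)
      have := hker φ
      rwa [hφ, smul_inv_smul] at this
    show y.1 g = g • κ - κ
    rw [← sub_eq_zero, ← h0]
    abel
  let S : AddSubgroup (∀ v, eqHom χ (D.r v) (Ind U M)) := (D.diag (M := Ind U M)).range ⊔ E.range
  let q := QuotientAddGroup.mk' S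
  have he : q e ≠ 0 := fun h0 => by
    obtain ⟨_, ⟨ψ, rfl⟩, _, ⟨m, rfl⟩, hsum⟩ :=
      AddSubgroup.mem_sup.mp ((QuotientAddGroup.eq_zero_iff _).mp h0)
    exact hnot ψ m hsum
  have : Module (ZMod p) ((∀ v, eqHom χ (D.r v) (Ind U M)) ⧸ S) :=
    AddCommGroup.zmodModule fun x => by
      obtain ⟨x, rfl⟩ := QuotientAddGroup.mk'_surjective S x
      rw [← map_nsmul, D.nsmul_family_eq_zero, map_zero]
  obtain ⟨θ₀, hθ₀⟩ := Module.Projective.exists_dual_ne_zero (ZMod p) he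
  set θ := θ₀.toAddMonoidHom.comp q
  have hθS : ∀ x ∈ S, θ x = 0 := fun x hx => by
    show θ₀ (q x) = 0
    rw [show q x = 0 from (QuotientAddGroup.eq_zero_iff _).mpr hx, map_zero]
  obtain ⟨F, hF, hFθ⟩ := D.exists_totalEval_eq hUn hU h1 h2 θ
    fun ψ => hθS _ (AddSubgroup.mem_sup_left ⟨ψ, rfl⟩)
  set f : Γ → Γ → M := fun g k => Ind.total (F g k)
  have hf : f ∈ L.Z2 ⊤ M := Levels.map_mem_Z2 Ind.total (fun g _ φ => Ind.total_smul g φ) hF
  have hsha : f ∈ D.sha2 M := ⟨hf, fun v =>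
      D.pull_mem_B2_of_locEval hUn hU h1 h2 v hf fun m hm => by
    let mm : ∀ w, eqHom χ (D.r w) M := Pi.single v ⟨m, hm⟩
    have h0 := hθS _ (AddSubgroup.mem_sup_right ⟨mm, rfl⟩ : E mm ∈ S)
    rw [← hFθ, totalEval_apply, Finset.sum_eq_single v] at h0
    · rw [D.locEval_comp]
      simpa [E, mm] using h0
    · intro w _ hw
      have : (E mm w).1 = 0 := by simp [E, mm, hw]
      rw [this]
      exact D.locEval_zero_right w hF
    · simp⟩
  have h0 := h ⟨f, hsha⟩
  rw [pairing_apply, D.pairVal_eq hM y ⟨f, hsha⟩ ⟨U, hUn, hU, h1, h2, h3, F, hF,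
    Levels.B2_congr (zero_mem (L.B2 ⊤ M)) fun g _ k _ => by simp [f], n, hn⟩] at h0
  exact hθ₀ ((DFunLike.congr_fun hFθ e).symm.trans h0)

/-- An evaluation family from a diagonal one pairs to zero with `F`: it comes from a locally
trivial cocycle killed by the level. -/
private theorem totalEval_eq_zero_of_diag [Fintype M] {U' : Subgroup Γ} [U'.FiniteIndex]
    (hU'n : U'.Normal) (hU' : U' ∈ L) (hU'χ : U' ≤ χ.ker)
    (hU'M : ∀ g ∈ U', ∀ m : M, g • m = m) (f : D.sha2 M) (h : ∀ y, D.pairing hM y f = 0)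
    {F : Γ → Γ → Ind U' M} (hF : F ∈ L.Z2 ⊤ (Ind U' M))
    (hFf : (f.1 - fun g k => Ind.total (F g k)) ∈ L.B2 ⊤ M)
    {e : ∀ v, eqHom χ (D.r v) (Ind U' M)}
    (he : D.compFamily (TotalKer.incl U' M) (TotalKer.incl_smul U' M) e ∈
      (D.diag (M := TotalKer U' M)).range) : D.totalEval hF e = 0 := by
  set o : Γ ⧸ U' := ((1 : Γ) : Γ ⧸ U')
  obtain ⟨ψ, hψ⟩ := he
  obtain ⟨v₀⟩ := D.nonemptyι
  have hres : ∀ v φ, Ind.total φ = 0 → (e v).1 φ = (e v₀).1 φ := fun v φ hφ => by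
    obtain ⟨x, rfl⟩ := TotalKer.exists_incl U' M hφ
    exact (DFunLike.congr_fun (congrArg Subtype.val (congrFun hψ v)) x).symm.trans
      (DFunLike.congr_fun (congrArg Subtype.val (congrFun hψ v₀)) x)
  have hinv : ∀ g φ, Ind.total φ = 0 → (e v₀).1 (g • φ) = (χ g : ZMod p) * (e v₀).1 φ :=
    fun g φ hφ => by
      obtain ⟨x, rfl⟩ := TotalKer.exists_incl U' M hφ
      rw [← TotalKer.incl_smul]
      exact ((DFunLike.congr_fun (congrArg Subtype.val (congrFun hψ v₀)) (g • x)).symm.trans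
        (ψ.2 g x)).trans
          (congrArg _ (DFunLike.congr_fun (congrArg Subtype.val (congrFun hψ v₀)) x))
  set P : Γ → Dual χ M := fun g => Dual.mk χ M ((e v₀).1.comp (indSingle ((g : Γ) : Γ ⧸ U')))
  have hP : ∀ g u, u ∈ U' → P (g * u) = P g := fun g u hu => by
    have hc : ((g * u : Γ) : Γ ⧸ U') = ((g : Γ) : Γ ⧸ U') := by
      rw [QuotientGroup.eq, mul_inv_rev, mul_assoc, inv_mul_cancel, mul_one]
      exact inv_mem hu
    simp only [P, hc]
  have hstep : ∀ g k, P (g * k) - P g = g • (P k - P 1) := fun g k =>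
      AddMonoidHom.ext fun x => by
    show (e v₀).1 (indSingle ((g * k : Γ) : Γ ⧸ U') x) -
      (e v₀).1 (indSingle ((g : Γ) : Γ ⧸ U') x) =
      (χ g : ZMod p) * ((e v₀).1 (indSingle ((k : Γ) : Γ ⧸ U') (g⁻¹ • x)) -
        (e v₀).1 (indSingle o (g⁻¹ • x)))
    rw [← map_sub, ← map_sub, ← hinv g _ (by
      rw [map_sub, Ind.total_apply, Ind.total_apply]
      simp [indSingle_apply])]
    congr 1
    rw [smul_sub, smul_indSingle, smul_indSingle, smul_inv_smul,
      show g • o = ((g * 1 : Γ) : Γ ⧸ U') from rfl, mul_one]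
    rfl
  set y : Γ → Dual χ M := fun g => P g - P 1
  have hy1 : y ∈ L.Z1 ⊤ (Dual χ M) := ⟨⟨U', hU', fun g _ s hs => by
      show P (g * s) - P 1 = P g - P 1
      rw [hP g s hs.2]⟩, fun g _ k _ => by
      show g • (P k - P 1) - (P (g * k) - P 1) + (P g - P 1) = 0
      rw [← hstep]; abel⟩
  have hy0 : ∀ g ∈ U', y g = 0 := fun g hg => by
    show P g - P 1 = 0
    rw [← one_mul g, hP 1 g hg, sub_self]
  let n : D.ι → Dual χ M := fun v =>
    Dual.mk χ M (((e v).1 - (e v₀).1).comp (indSingle o)) + P 1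
  have htil : ∀ v, tilde U' y (n v) = (e v).1 := fun v => by
    conv_rhs => rw [← indPair_eq (e v).1]
    refine congrArg indPair (funext fun c => AddMonoidHom.ext fun x => ?_)
    have hc : (((c.out : Γ)) : Γ ⧸ U') = c := c.out_eq'
    show (e v₀).1 (indSingle ((c.out : Γ) : Γ ⧸ U') x) - (e v₀).1 (indSingle o x) +
      ((e v).1 (indSingle o x) - (e v₀).1 (indSingle o x) + (e v₀).1 (indSingle o x)) =
      (e v).1 (indSingle c x)
    have hd := hres v (indSingle c x - indSingle o x) (by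
      rw [map_sub, Ind.total_apply, Ind.total_apply]
      simp [indSingle_apply])
    rw [map_sub, map_sub] at hd
    rw [hc]
    linear_combination -hd
  have hn : ∀ v d, y (D.r v d) = D.r v d • n v - n v := fun v d => by
    have h' : ∀ φ,
        Dual.hom χ M (y (D.r v d) + n v - D.r v d • n v) (D.r v d • Ind.total φ) = 0 :=
      fun φ => by
        have := (e v).2 d φ
        rw [← htil v, tilde_smul hy1 hy0] at this
        linear_combination this
    have h0 : y (D.r v d) + n v - D.r v d • n v = 0 := AddMonoidHom.ext fun x => by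
      obtain ⟨φ, hφ⟩ := Ind.total_surjective (U := U') ((D.r v d)⁻¹ • x)
      have := h' φ
      rwa [hφ, smul_inv_smul] at this
    rw [← sub_eq_zero, ← h0]; abel
  have hsha : y ∈ D.sha1 M := ⟨hy1, fun v => ⟨n v, hn v⟩⟩
  have h0 := h ⟨y, hsha⟩
  rw [pairing_apply, D.pairVal_eq hM ⟨y, hsha⟩ f
    ⟨U', hU'n, hU', hU'χ, hU'M, hy0, F, hF, hFf, n, hn⟩] at h0
  rw [totalEval_apply, ← h0]
  exact Finset.sum_congr rfl fun v _ => by rw [← htil v]

/-- Right nondegeneracy. -/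
theorem mem_B2_of_pairing (f : D.sha2 M) (h : ∀ y, D.pairing hM y f = 0) :
    f.1 ∈ L.B2 ⊤ M := by
  have : Fintype M := Fintype.ofFinite M
  obtain ⟨W, hW, hfix⟩ := hM.exists_finset Finset.univ
  obtain ⟨U, hU, hUn, hle⟩ := L.exists_normal (L.inf_mem hW D.ker_mem)
  have := L.finiteIndex hU
  have hUM : ∀ g ∈ U, ∀ m : M, g • m = m := fun g hg m => hfix g (hle hg).1 m (Finset.mem_univ m)
  obtain ⟨U', hfi, hU'le, hU'n, hU', hkill⟩ :=
    D.exists_kill hUn hU (hle.trans inf_le_right) hUM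
  have hU'χ : U' ≤ χ.ker := hU'le.trans (hle.trans inf_le_right)
  have hU'M : ∀ g ∈ U', ∀ m : M, g • m = m := fun g hg => hUM g (hU'le hg)
  obtain ⟨F, hF, hFf⟩ := D.corSurj U' hU'n hU' hU'χ M hU'M f.1 f.2.1
  let R := D.compFamily (TotalKer.incl U' M) (TotalKer.incl_smul U' M)
  let q := QuotientAddGroup.mk' (D.diag (M := TotalKer U' M)).range
  obtain ⟨θ', hθ'⟩ := exists_factor (p := p) (fun x => by
      obtain ⟨x, rfl⟩ := QuotientAddGroup.mk'_surjective _ x
      rw [← map_nsmul, D.nsmul_family_eq_zero, map_zero])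
    (q.comp R) (D.totalEval hF) fun e he => D.totalEval_eq_zero_of_diag hM hU'n hU' hU'χ hU'M f h
      hF hFf ((QuotientAddGroup.eq_zero_iff _).mp he)
  obtain ⟨G, hG, hGθ⟩ := D.exists_totalEval_eq_of_diag hU'n hU' hU'χ
    (TotalKer.smul_of_mem _ _ hU'n hU'M) (θ'.comp q) fun ψ => by
    show θ' (q (D.diag ψ)) = 0
    rw [show q (D.diag ψ) = 0 from (QuotientAddGroup.eq_zero_iff _).mpr ⟨ψ, rfl⟩, map_zero]
  have hιG : (fun g k => TotalKer.incl U' M (G g k)) ∈ L.Z2 ⊤ (Ind U' M) :=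
    Levels.map_mem_Z2 _ (fun g _ => TotalKer.incl_smul U' M g) hG
  have htotal : ∀ e, D.totalEval hF e = D.totalEval hιG e := fun e => by
    rw [← hθ' e]
    exact (DFunLike.congr_fun hGθ (R e)).symm
  have hloc : ∀ v, D.pull v (F - fun g k => TotalKer.incl U' M (G g k)) ∈
      (D.Lv v).B2 ⊤ (Res (D.r v) (Ind U' M)) := fun v => by
    refine D.pull_mem_B2_of_locEval hU'n hU' hU'χ (fun g hg φ => Ind.ext fun c => by
      rw [Ind.smul_apply, smul_coset_of_mem U' hU'n le_rfl (inv_mem hg), hU'M g hg]) v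
      (sub_mem hF hιG) fun e he => ?_
    have hsingle : ∀ {X : Γ → Γ → Ind U' M} (hX : X ∈ L.Z2 ⊤ (Ind U' M)),
        D.totalEval hX (Pi.single v ⟨e, he⟩) = D.locEval v X e := fun {X} hX => by
      rw [totalEval_apply, Finset.sum_eq_single v]
      · simp
      · intro w _ hw
        simp [hw, D.locEval_zero_right w hX]
      · simp
    have h2 := D.locEval_add v (sub_mem hF hιG) hιG he
    rw [sub_add_cancel, ← hsingle hF, ← hsingle hιG, htotal] at h2
    exact add_eq_right.mp h2.symm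
  have hfin := Levels.map_mem_B2 Ind.total (fun g _ φ => Ind.total_smul g φ)
    (hkill _ (sub_mem hF hιG) hloc)
  refine Levels.B2_congr (add_mem hFf hfin) fun g _ k _ => ?_
  show f.1 g k = f.1 g k - Ind.total (F g k) +
    Ind.total (Ind.fibreSum hU'le (F g k - TotalKer.incl U' M (G g k)))
  rw [Ind.total_fibreSum, map_sub, TotalKer.total_incl, sub_zero, sub_add_cancel]

end GlobalDatum

/-- A pairing of representatives descends to a nondegenerate pairing of classes. -/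
lemma exists_descended {A₁ A₂ B₁ B₂ C : Type*} [AddCommGroup A₁] [AddCommGroup A₂]
    [AddCommGroup B₁] [AddCommGroup B₂] [AddCommGroup C] (π₁ : A₁ →+ B₁)
    (hπ₁ : Function.Surjective π₁) (π₂ : A₂ →+ B₂) (hπ₂ : Function.Surjective π₂)
    (P : A₁ →+ A₂ →+ C) (h₁ : ∀ y, π₁ y = 0 → ∀ f, P y f = 0)
    (h₂ : ∀ f, π₂ f = 0 → ∀ y, P y f = 0) (n₁ : ∀ y, (∀ f, P y f = 0) → π₁ y = 0)
    (n₂ : ∀ f, (∀ y, P y f = 0) → π₂ f = 0) :
    ∃ P' : B₁ →+ B₂ →+ C, Function.Injective P' ∧ Function.Injective P'.flip := by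
  choose s₁ hs₁ using hπ₁
  choose s₂ hs₂ using hπ₂
  have e₁ : ∀ y f, P (s₁ (π₁ y)) f = P y f := fun y f => by
    have h := h₁ (s₁ (π₁ y) - y) (by rw [map_sub, hs₁, sub_self]) f
    rwa [map_sub, AddMonoidHom.sub_apply, sub_eq_zero] at h
  have e₂ : ∀ y f, P y (s₂ (π₂ f)) = P y f := fun y f => by
    have h := h₂ (s₂ (π₂ f) - f) (by rw [map_sub, hs₂, sub_self]) y
    rwa [map_sub, sub_eq_zero] at h
  have a₂ : ∀ y x x', P y (s₂ (x + x')) = P y (s₂ x) + P y (s₂ x') := fun y x x' => by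
    rw [← map_add, ← e₂ y (s₂ x + s₂ x'), map_add, hs₂, hs₂]
  have a₁ : ∀ y y' f, P (s₁ (y + y')) f = P (s₁ y) f + P (s₁ y') f := fun y y' f => by
    rw [← AddMonoidHom.add_apply, ← map_add, ← e₁ (s₁ y + s₁ y') f, map_add π₁, hs₁, hs₁]
  refine ⟨AddMonoidHom.mk' (fun y => AddMonoidHom.mk' (fun x => P (s₁ y) (s₂ x)) (a₂ _))
    fun y y' => AddMonoidHom.ext fun x => a₁ y y' _,
    (injective_iff_map_eq_zero _).mpr fun y hy => ?_,
    (injective_iff_map_eq_zero _).mpr fun x hx => ?_⟩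
  · rw [← hs₁ y]
    exact n₁ _ fun f => (e₂ _ f).symm.trans (DFunLike.congr_fun hy (π₂ f))
  · rw [← hs₂ x]
    exact n₂ _ fun z => (e₁ z _).symm.trans (DFunLike.congr_fun hx (π₁ z))

end FermatAgent.CFT.Coh
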