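import Fermat.Agent.CFT.Coh.Functional

/-!
Transfer of cochains along an injective homomorphism.
-/

set_option autoImplicit false

noncomputable section

open scoped Classical

namespace FermatAgent.CFT.Coh

variable {Γ Δ : Type*} [Group Γ] [Group Δ] {L : Levels Γ} (e : Δ →* Γ)
  {A : Type*} [AddCommGroup A] [DistribMulAction Γ A] [DistribMulAction Δ A]

/-- Extension of a two-cochain along a homomorphism. -/
def ext2 {X : Type*} [Zero X] (f : Δ → Δ → X) (g k : Γ) : X :=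
  if g ∈ e.range ∧ k ∈ e.range then f (Function.invFun e g) (Function.invFun e k) else 0

variable {e} (he : Function.Injective e)

include he

lemma invFun_eq (d : Δ) : Function.invFun e (e d) = d := Function.leftInverse_invFun he d

/-- The extension restricts to the original cochain. -/
lemma ext2_apply {X : Type*} [Zero X] (f : Δ → Δ → X) (d d' : Δ) :
    ext2 e f (e d) (e d') = f d d' := by
  rw [ext2, if_pos ⟨⟨d, rfl⟩, ⟨d', rfl⟩⟩, invFun_eq he, invFun_eq he]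

variable (hr : ∀ (d : Δ) (a : A), d • a = e d • a) {V : Subgroup Δ}

include hr

/-- Extensions of cocycles are cocycles. -/
lemma ext2_mem_Z2 {f : Δ → Δ → A} (hf : f ∈ (L.comap e).Z2 V A) :
    ext2 e f ∈ L.Z2 (V.map e) A := by
  obtain ⟨⟨V', ⟨U, hU, hle, -⟩, hc⟩, hcoc⟩ := hf
  refine ⟨⟨U, hU, ?_⟩, ?_⟩
  · rintro _ ⟨g, hg, rfl⟩ _ ⟨k, hk, rfl⟩ _ ⟨⟨s, hs, rfl⟩, hs'⟩ _ ⟨⟨t, ht, rfl⟩, ht'⟩
    rw [← map_mul, ← map_mul, ext2_apply he, ext2_apply he]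
    exact hc g hg k hk s ⟨hs, hle hs'⟩ t ⟨ht, hle ht'⟩
  · rintro _ ⟨g, hg, rfl⟩ _ ⟨k, hk, rfl⟩ _ ⟨j, hj, rfl⟩
    simp only [d2, ← map_mul, ext2_apply he, ← hr]
    exact hcoc g hg k hk j hj

/-- Extensions of coboundaries are coboundaries. -/
lemma ext2_mem_B2 {f : Δ → Δ → A} (hf : f ∈ (L.comap e).B2 V A) :
    ext2 e f ∈ L.B2 (V.map e) A := by
  obtain ⟨c, ⟨V', ⟨U, hU, hle, -⟩, hc⟩, hfc⟩ := hf
  refine ⟨fun g => c (Function.invFun e g), ⟨U, hU, ?_⟩, ?_⟩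
  · rintro _ ⟨g, hg, rfl⟩ _ ⟨⟨s, hs, rfl⟩, hs'⟩
    simp only [← map_mul, invFun_eq he]
    exact hc g hg s ⟨hs, hle hs'⟩
  · rintro _ ⟨g, hg, rfl⟩ _ ⟨k, hk, rfl⟩
    simp only [d1, ← map_mul, ext2_apply he, ← hr, invFun_eq he]
    exact hfc g hg k hk

end FermatAgent.CFT.Coh
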