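import Fermat.Agent.CFT.Coh.Lift

/-!
Twisted coefficients and functionals, local invariants, and detection of classes by functionals.

`Mu χ` is `ZMod p` with action through `χ`, `Dual χ M` the twisted dual, and `eqHom` the equivariant
functionals. An `InvDatum` is an injective invariant on `H²(W, Mu χ)` compatible with corestriction,
together with surjectivity of corestriction. With it every functional on equivariant functionals
is evaluation at a class (`InvDatum.exists_eval_eq`) and a class killed by all of them is trivial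
(`InvDatum.mem_B2_of_eval`).
-/

set_option autoImplicit false

noncomputable section

open scoped Classical

namespace FermatAgent.CFT.Coh

variable {p : ℕ} [hp : Fact p.Prime]

/-- Extension of a functional along a map. -/
lemma exists_factor {A B : Type*} [AddCommGroup A] [AddCommGroup B] (hB : ∀ b : B, p • b = 0)
    (R : A →+ B) (θ : A →+ ZMod p) (h : ∀ a, R a = 0 → θ a = 0) :
    ∃ θ' : B →+ ZMod p, ∀ a, θ' (R a) = θ a := by
  have : Module (ZMod p) B := AddCommGroup.zmodModule hB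
  obtain ⟨S, hSdef⟩ : ∃ S : Submodule (ZMod p) B, ∀ b, b ∈ S ↔ b ∈ R.range :=
    ⟨AddSubgroup.toZModSubmodule p R.range, fun _ => AddSubgroup.mem_toZModSubmodule _⟩
  have hS : ∀ b : ↥S, ∃ a, R a = (b : B) := fun b => (hSdef _).mp b.2
  choose sel hsel using hS
  let θ₀ : S →+ ZMod p := AddMonoidHom.mk' (fun b => θ (sel b)) fun b b' => by
    rw [← map_add, ← sub_eq_zero, ← map_sub]
    refine h _ ?_
    rw [map_sub, map_add, hsel, hsel, hsel, Submodule.coe_add, sub_self]
  obtain ⟨g, hg⟩ := LinearMap.exists_extend (θ₀.toZModLinearMap p)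
  refine ⟨g.toAddMonoidHom, fun a => ?_⟩
  have hmem : R a ∈ S := (hSdef _).mpr ⟨a, rfl⟩
  refine (LinearMap.congr_fun hg ⟨R a, hmem⟩).trans ?_
  show θ (sel ⟨R a, hmem⟩) = θ a
  rw [← sub_eq_zero, ← map_sub]
  refine h _ ?_
  rw [map_sub, hsel, sub_self]

instance {Γ' : Type*} [Group Γ'] {U : Subgroup Γ'} {R X : Type*} [Semiring R] [AddCommGroup X]
    [Module R X] : Module R (Ind U X) :=
  inferInstanceAs (Module R (Γ' ⧸ U → X))

variable {Γ : Type} [Group Γ]

/-- `ZMod p` with the action through a character. -/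
def Mu (_ : Γ →* (ZMod p)ˣ) := ZMod p

namespace Mu

variable (χ : Γ →* (ZMod p)ˣ)

instance : AddCommGroup (Mu χ) := inferInstanceAs (AddCommGroup (ZMod p))
instance : Finite (Mu χ) := inferInstanceAs (Finite (ZMod p))

/-- The identification with `ZMod p`. -/
def val : Mu χ →+ ZMod p := AddMonoidHom.id (ZMod p)

/-- The identification with `ZMod p`. -/
def of : ZMod p →+ Mu χ := AddMonoidHom.id (ZMod p)

/-- The value of a twisted residue. -/
@[simp] lemma val_of (a : ZMod p) : val χ (of χ a) = a := rfl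
@[simp] lemma of_val (a : Mu χ) : of χ (val χ a) = a := rfl

/-- Twisted residues with equal values are equal. -/
lemma ext {a b : Mu χ} (h : val χ a = val χ b) : a = b := h

instance : DistribMulAction Γ (Mu χ) where
  smul g a := of χ ((χ g : ZMod p) * val χ a)
  one_smul a := by show of χ ((χ 1 : ZMod p) * val χ a) = a; simp
  mul_smul g h a := by
    show of χ ((χ (g * h) : ZMod p) * val χ a) =
      of χ ((χ g : ZMod p) * ((χ h : ZMod p) * val χ a))
    rw [show χ (g * h) = χ g * χ h from map_mul χ g h, Units.val_mul, mul_assoc]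
  smul_zero g := mul_zero (χ g : ZMod p)
  smul_add g a b := mul_add (χ g : ZMod p) _ _

/-- The action multiplies values by the character. -/
@[simp] lemma val_smul (g : Γ) (a : Mu χ) : val χ (g • a) = (χ g : ZMod p) * val χ a := rfl

end Mu

/-- The dual module twisted by a character. -/
def Dual (_ : Γ →* (ZMod p)ˣ) (M : Type) [AddCommGroup M] := M →+ ZMod p

namespace Dual

variable (χ : Γ →* (ZMod p)ˣ) (M : Type) [AddCommGroup M] [DistribMulAction Γ M]

instance : AddCommGroup (Dual χ M) := inferInstanceAs (AddCommGroup (M →+ ZMod p))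

instance [Finite M] : Finite (Dual χ M) :=
  (show Finite (M →+ ZMod p) from Finite.of_injective _ DFunLike.coe_injective)

/-- A dual element as a homomorphism. -/
def hom : Dual χ M →+ (M →+ ZMod p) := AddMonoidHom.id _

/-- A homomorphism as a dual element. -/
def mk : (M →+ ZMod p) →+ Dual χ M := AddMonoidHom.id _

omit [DistribMulAction Γ M] in
/-- The functional of the dual element built from it. -/
@[simp] lemma hom_mk (n : M →+ ZMod p) : hom χ M (mk χ M n) = n := rfl

instance : DistribMulAction Γ (Dual χ M) where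
  smul g n := mk χ M ((AddMonoidHom.mulLeft (χ g : ZMod p)).comp
    ((hom χ M n).comp (DistribSMul.toAddMonoidHom M g⁻¹)))
  one_smul n := AddMonoidHom.ext fun m => by
    show (χ 1 : ZMod p) * hom χ M n ((1 : Γ)⁻¹ • m) = hom χ M n m
    simp
  mul_smul g h n := AddMonoidHom.ext fun m => by
    show (χ (g * h) : ZMod p) * hom χ M n ((g * h)⁻¹ • m) =
      (χ g : ZMod p) * ((χ h : ZMod p) * hom χ M n (h⁻¹ • g⁻¹ • m))
    rw [map_mul, Units.val_mul, mul_assoc, mul_inv_rev, mul_smul]
  smul_zero g := AddMonoidHom.ext fun m => mul_zero (χ g : ZMod p)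
  smul_add g n n' := AddMonoidHom.ext fun m => mul_add (χ g : ZMod p) _ _

/-- The action on the dual is the twisted contragredient. -/
@[simp] lemma hom_smul (g : Γ) (n : Dual χ M) (m : M) :
    hom χ M (g • n) m = (χ g : ZMod p) * hom χ M n (g⁻¹ • m) := rfl

/-- The evaluation pairing is equivariant. -/
lemma hom_smul_smul (g : Γ) (n : Dual χ M) (m : M) :
    hom χ M (g • n) (g • m) = (χ g : ZMod p) * hom χ M n m := by simp

end Dual

/-- A module restricted along a homomorphism. -/
def Res {Δ : Type} [Group Δ] (_ : Δ →* Γ) (M : Type) := M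

namespace Res

variable {Δ : Type} [Group Δ] (r : Δ →* Γ) (M : Type) [AddCommGroup M] [DistribMulAction Γ M]

instance : AddCommGroup (Res r M) := inferInstanceAs (AddCommGroup M)
instance [h : Module (ZMod p) M] : Module (ZMod p) (Res r M) := h
instance [h : Finite M] : Finite (Res r M) := h
instance : DistribMulAction Δ (Res r M) := DistribMulAction.compHom M r

/-- The identity map onto the restricted module. -/
def of : M →+ Res r M := AddMonoidHom.id M

end Res

variable (χ : Γ →* (ZMod p)ˣ)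

/-- Functionals transforming through the character on the image of `r`. -/
def eqHom {Δ : Type} [Group Δ] (r : Δ →* Γ) (M : Type) [AddCommGroup M] [DistribMulAction Γ M] :
    AddSubgroup (M →+ ZMod p) where
  carrier := {n | ∀ d m, n (r d • m) = (χ (r d) : ZMod p) * n m}
  zero_mem' d m := (mul_zero _).symm
  add_mem' {n n'} hn hn' d m := by simp [hn d m, hn' d m, mul_add]
  neg_mem' {n} hn d m := by simp [hn d m]

/-- Composition of functionals with an equivariant map. -/
def eqHomComp {Δ : Type} [Group Δ] (r : Δ →* Γ) {M N : Type} [AddCommGroup M]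
    [DistribMulAction Γ M] [AddCommGroup N] [DistribMulAction Γ N] (f : M →+ N)
    (hf : ∀ (g : Γ) m, f (g • m) = g • f m) : eqHom χ r N →+ eqHom χ r M where
  toFun n := ⟨n.1.comp f, fun d m => by simp [hf, n.2 d]⟩
  map_zero' := Subtype.ext (AddMonoidHom.zero_comp f)
  map_add' n n' := Subtype.ext (AddMonoidHom.add_comp n.1 n'.1 f)

/-- A functional as an equivariant map to `Mu`. -/
lemma mu_smul_of_mem {M : Type} [AddCommGroup M] [DistribMulAction Γ M] {n : M →+ ZMod p}
    (hn : n ∈ eqHom χ (MonoidHom.id Γ) M) (g : Γ) (m : M) :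
    ((Mu.of χ).comp n) (g • m) = g • ((Mu.of χ).comp n) m := Mu.ext χ (by simpa using hn g m)

section FunctionalInd

variable {U : Subgroup Γ} [U.FiniteIndex] {X : Type} [AddCommGroup X]

/-- The functional on an induced module with given components. -/
def indPair : (Γ ⧸ U → (X →+ ZMod p)) →+ (Ind U X →+ ZMod p) where
  toFun a := AddMonoidHom.mk' (fun φ => ∑ c, a c (φ c)) fun φ ψ => by
    simp [Finset.sum_add_distrib]
  map_zero' := AddMonoidHom.ext fun φ => by simp
  map_add' a b := AddMonoidHom.ext fun φ => by simp [Finset.sum_add_distrib]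

/-- The pairing with an induced element is the sum over cosets. -/
lemma indPair_apply (a : Γ ⧸ U → (X →+ ZMod p)) (φ : Ind U X) :
    indPair a φ = ∑ c, a c (φ c) := rfl

/-- The function supported at one coset. -/
def indSingle (c : Γ ⧸ U) : X →+ Ind U X where
  toFun x := Ind.mk U (Pi.single c x)
  map_zero' := Ind.ext fun _ => by simp
  map_add' x y := Ind.ext fun d => by simp [Pi.single_add]

omit [U.FiniteIndex] in
/-- The values of a one-coset element. -/
lemma indSingle_apply (c : Γ ⧸ U) (x : X) (d : Γ ⧸ U) :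
    indSingle c x d = if d = c then x else 0 := by
  simp [indSingle, Pi.single_apply]

/-- An induced element is the sum of its one-coset parts. -/
lemma sum_indSingle (φ : Ind U X) : ∑ c, indSingle c (φ c) = φ := by
  refine Ind.ext fun d => ?_
  rw [show (∑ c, indSingle c (φ c)) d = ∑ c, indSingle c (φ c) d from
    map_sum (Ind.eval d) (fun c => indSingle c (φ c)) _]
  simp [indSingle_apply]

/-- Functionals on induced modules are families on the cosets. -/
lemma indPair_eq (e : Ind U X →+ ZMod p) : indPair (fun c => e.comp (indSingle c)) = e := by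
  refine AddMonoidHom.ext fun φ => ?_
  conv_rhs => rw [← sum_indSingle φ, map_sum]
  rfl

/-- The pairing with a one-coset element. -/
lemma indPair_indSingle (a : Γ ⧸ U → (X →+ ZMod p)) (c : Γ ⧸ U) (x : X) :
    indPair a (indSingle c x) = a c x := by
  rw [indPair_apply, Finset.sum_eq_single c]
  · simp [indSingle_apply]
  · intro d _ hd; simp [indSingle_apply, hd]
  · simp

variable [DistribMulAction Γ X]

omit [U.FiniteIndex] in
/-- The action permutes one-coset elements. -/
lemma smul_indSingle (g : Γ) (c : Γ ⧸ U) (x : X) :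
    g • indSingle c x = indSingle (g • c) (g • x) := Ind.ext fun d => by
  simp only [Ind.smul_apply, indSingle_apply, inv_smul_eq_iff]
  split_ifs <;> simp

/-- The equivariant functional on an induced module attached to a functional at the trivial
coset. -/
def extendEq (n : X →+ ZMod p) : Ind U X →+ ZMod p :=
  indPair fun c => (AddMonoidHom.mulLeft (χ (sec U c) : ZMod p)).comp
    (n.comp (DistribSMul.toAddMonoidHom X (sec U c)⁻¹))

lemma extendEq_mem (hU : U ≤ χ.ker) (hX : ∀ g ∈ U, ∀ x : X, g • x = x)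
    (n : X →+ ZMod p) : extendEq (U := U) χ n ∈ eqHom χ (MonoidHom.id Γ) (Ind U X) := by
  intro g φ
  simp only [extendEq, indPair_apply, MonoidHom.id_apply, Finset.mul_sum]
  refine (Fintype.sum_equiv (MulAction.toPerm g) _ _ fun c => ?_).symm
  simp only [MulAction.toPerm_apply, AddMonoidHom.coe_comp, AddMonoidHom.coe_mulLeft,
    Function.comp_apply, DistribSMul.toAddMonoidHom_apply, Ind.smul_apply, inv_smul_smul]
  have h : ((g * sec U c : Γ) : Γ ⧸ U) = ((sec U (g • c) : Γ) : Γ ⧸ U) := by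
    rw [mk_sec, ← smul_eq_mul, ← MulAction.Quotient.smul_coe, mk_sec]
  rw [QuotientGroup.eq] at h
  obtain ⟨u, hu, hsec⟩ : ∃ u ∈ U, sec U (g • c) = g * sec U c * u :=
    ⟨_, h, (mul_inv_cancel_left _ _).symm⟩
  have hχu : χ u = 1 := hU hu
  have e1 : (sec U (g • c))⁻¹ • g • φ c = (sec U c)⁻¹ • φ c := by
    rw [← mul_smul, hsec, show (g * sec U c * u)⁻¹ * g = u⁻¹ * (sec U c)⁻¹ by group, mul_smul,
      hX _ (inv_mem hu)]
  rw [e1, hsec, map_mul, map_mul, hχu, mul_one, Units.val_mul]
  ring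

lemma extendEq_indFun2 (n : X →+ ZMod p) (h : Γ → Γ → X) (g k : Γ) :
    Mu.of χ (extendEq (U := U) χ n (indFun2 U h g k)) =
      Ind.total (indFun2 U (fun a b => Mu.of χ (n (h a b))) g k) := by
  refine Mu.ext χ ?_
  rw [Mu.val_of, extendEq, indPair_apply, Ind.total_apply, map_sum]
  simp [indFun2]

end FunctionalInd

/-- Invariant maps in degree two on the subgroups of a group. -/
structure InvDatum (L : Levels Γ) where
  /-- The invariant. -/
  inv : Subgroup Γ → (Γ → Γ → Mu χ) → ZMod p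
  inv_add : ∀ W ∈ L, ∀ f ∈ L.Z2 W (Mu χ), ∀ f' ∈ L.Z2 W (Mu χ), inv W (f + f') = inv W f + inv W f'
  inv_eq_zero_iff : ∀ W ∈ L, ∀ f ∈ L.Z2 W (Mu χ), (inv W f = 0 ↔ f ∈ L.B2 W (Mu χ))
  inv_cor : ∀ (W : Subgroup Γ) [W.FiniteIndex], W.Normal → W ∈ L → W ≤ χ.ker →
    ∀ f ∈ L.Z2 W (Mu χ), inv ⊤ (fun g k => Ind.total (indFun2 W f g k)) = inv W f
  exists_inv_eq_one : ∀ W ∈ L, W ≤ χ.ker → ∃ f ∈ L.Z2 W (Mu χ), inv W f = 1
  ker_mem : χ.ker ∈ L
  corSurj : ∀ (W : Subgroup Γ) [W.FiniteIndex], W.Normal → W ∈ L → W ≤ χ.ker →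
    ∀ (M : Type) [AddCommGroup M] [Module (ZMod p) M] [Finite M] [DistribMulAction Γ M],
      (∀ g ∈ W, ∀ m : M, g • m = m) → CorSurj L W M

namespace InvDatum

variable {χ} {L : Levels Γ} (I : InvDatum χ L)

/-- The invariant depends only on the class. -/
lemma inv_congr {W : Subgroup Γ} (hW : W ∈ L) {f f' : Γ → Γ → Mu χ} (hf : f ∈ L.Z2 W (Mu χ))
    (hf' : f' ∈ L.Z2 W (Mu χ)) (h : f - f' ∈ L.B2 W (Mu χ)) : I.inv W f = I.inv W f' := by
  have h' := (I.inv_eq_zero_iff W hW _ (sub_mem hf hf')).mpr h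
  have := I.inv_add W hW _ (sub_mem hf hf') _ hf'
  rwa [sub_add_cancel, h', zero_add] at this

/-- The invariant of zero is zero. -/
lemma inv_zero {W : Subgroup Γ} (hW : W ∈ L) : I.inv W 0 = 0 :=
  (I.inv_eq_zero_iff W hW _ (zero_mem _)).mpr (zero_mem _)

/-- The invariant as a homomorphism. -/
def invHom {W : Subgroup Γ} (hW : W ∈ L) : L.Z2 W (Mu χ) →+ ZMod p :=
  AddMonoidHom.mk' (fun f => I.inv W f.1) fun f f' => I.inv_add W hW _ f.2 _ f'.2

include I in
/-- The twisted residues form a smooth module. -/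
lemma smooth_mu : L.Smooth (Mu χ) := fun a => ⟨χ.ker, I.ker_mem, fun g hg => Mu.ext χ (by
  rw [Mu.val_smul, MonoidHom.mem_ker.mp hg, Units.val_one, one_mul])⟩

variable {M : Type} [AddCommGroup M] [DistribMulAction Γ M]

/-- The value of a functional on a class. -/
def eval (f : Γ → Γ → M) (n : M →+ ZMod p) : ZMod p :=
  I.inv ⊤ (fun g k => Mu.of χ (n (f g k)))

/-- Evaluating a cocycle at an equivariant functional gives a cocycle. -/
lemma eval_comp_mem {f : Γ → Γ → M} (hf : f ∈ L.Z2 ⊤ M) {n : M →+ ZMod p}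
    (hn : n ∈ eqHom χ (MonoidHom.id Γ) M) :
    (fun g k => Mu.of χ (n (f g k))) ∈ L.Z2 ⊤ (Mu χ) :=
  Levels.map_mem_Z2 ((Mu.of χ).comp n) (fun g _ => mu_smul_of_mem χ hn g) hf

/-- Evaluation vanishes on coboundaries. -/
lemma eval_eq_zero_of_mem_B2 {f : Γ → Γ → M} (hf : f ∈ L.B2 ⊤ M) {n : M →+ ZMod p}
    (hn : n ∈ eqHom χ (MonoidHom.id Γ) M) : I.eval f n = 0 := by
  have h : (fun g k => Mu.of χ (n (f g k))) ∈ L.B2 ⊤ (Mu χ) :=
    Levels.map_mem_B2 ((Mu.of χ).comp n) (fun g _ => mu_smul_of_mem χ hn g) hf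
  exact (I.inv_eq_zero_iff ⊤ L.top_mem _ (Levels.B2_le_Z2 I.smooth_mu h)).mpr h

/-- Evaluation is additive in the cocycle. -/
lemma eval_add {f f' : Γ → Γ → M} (hf : f ∈ L.Z2 ⊤ M) (hf' : f' ∈ L.Z2 ⊤ M) {n : M →+ ZMod p}
    (hn : n ∈ eqHom χ (MonoidHom.id Γ) M) : I.eval (f + f') n = I.eval f n + I.eval f' n := by
  rw [eval, eval, eval, ← I.inv_add ⊤ L.top_mem _ (eval_comp_mem hf hn) _ (eval_comp_mem hf' hn)]
  congr 1
  funext g k
  simp

/-- Evaluation depends only on the class. -/
lemma eval_congr {f f' : Γ → Γ → M} (hf : f ∈ L.Z2 ⊤ M) (hf' : f' ∈ L.Z2 ⊤ M)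
    (h : f - f' ∈ L.B2 ⊤ M) {n : M →+ ZMod p} (hn : n ∈ eqHom χ (MonoidHom.id Γ) M) :
    I.eval f n = I.eval f' n := by
  have := I.eval_add (sub_mem hf hf') hf' hn
  rwa [sub_add_cancel, I.eval_eq_zero_of_mem_B2 h hn, zero_add] at this

/-- Evaluation is additive in the functional. -/
lemma eval_add_right {f : Γ → Γ → M} (hf : f ∈ L.Z2 ⊤ M) {n n' : M →+ ZMod p}
    (hn : n ∈ eqHom χ (MonoidHom.id Γ) M) (hn' : n' ∈ eqHom χ (MonoidHom.id Γ) M) :
    I.eval f (n + n') = I.eval f n + I.eval f n' := by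
  rw [eval, eval, eval, ← I.inv_add ⊤ L.top_mem _ (eval_comp_mem hf hn) _ (eval_comp_mem hf hn')]
  rfl

/-- Evaluation of equivariant functionals on a class, as a homomorphism. -/
def evalHom {f : Γ → Γ → M} (hf : f ∈ L.Z2 ⊤ M) : eqHom χ (MonoidHom.id Γ) M →+ ZMod p :=
  AddMonoidHom.mk' (fun n => I.eval f n.1) fun n n' => I.eval_add_right hf n.2 n'.2

variable {W : Subgroup Γ} [W.FiniteIndex] (hWn : W.Normal) (hW : W ∈ L) (hWχ : W ≤ χ.ker)

include hWn hW hWχ in
lemma eval_extendEq (hM : L.Smooth M) (htriv : ∀ g ∈ W, ∀ m : M, g • m = m)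
    {F : Γ → Γ → Ind W M} (hF : F ∈ L.Z2 ⊤ (Ind W M)) (n : M →+ ZMod p) :
    I.eval F (extendEq χ n) = I.inv W (fun g k => Mu.of χ (n (F g k ((1 : Γ) : Γ ⧸ W)))) := by
  have he := extendEq_mem χ hWχ htriv n (U := W)
  rw [I.eval_congr hF (indFun2_mem_Z2 hW (eval_mem_Z2 hF))
    (sub_indFun2_mem_B2 hW (smooth_ind hW hM) hF) he, eval]
  simp only [extendEq_indFun2]
  refine I.inv_cor W hWn hW hWχ _ (Levels.map_mem_Z2 ((Mu.of χ).comp n) (fun g hg m => ?_)
    (eval_mem_Z2 hF))
  refine Mu.ext χ ?_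
  rw [Mu.val_smul, htriv g hg, MonoidHom.mem_ker.mp (hWχ hg), Units.val_one, one_mul]

variable [Module (ZMod p) M] [Finite M]

include hWn hW hWχ in
/-- Classes with values in an induced module are detected by functionals. -/
lemma ind_mem_B2_of_eval (htriv : ∀ g ∈ W, ∀ m : M, g • m = m) {F : Γ → Γ → Ind W M}
    (hF : F ∈ L.Z2 ⊤ (Ind W M))
    (h : ∀ n ∈ eqHom χ (MonoidHom.id Γ) (Ind W M), I.eval F n = 0) : F ∈ L.B2 ⊤ (Ind W M) := by
  have hsm : L.Smooth M := smooth_of_trivial_on hW htriv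
  refine mem_B2_of_eval_mem_B2 hW (smooth_ind hW hsm) hF ?_
  let b := Module.finBasis (ZMod p) M
  set f : Γ → Γ → M := fun g k => F g k ((1 : Γ) : Γ ⧸ W)
  have hcomp : ∀ i, (fun g k => Mu.of χ (b.coord i (f g k))) ∈ L.B2 W (Mu χ) := fun i => by
    refine (I.inv_eq_zero_iff W hW _ (Levels.map_mem_Z2 ((Mu.of χ).comp (b.coord i).toAddMonoidHom)
      (fun g hg m => Mu.ext χ ?_) (eval_mem_Z2 hF))).mp ?_
    · rw [Mu.val_smul, htriv g hg, MonoidHom.mem_ker.mp (hWχ hg), Units.val_one, one_mul]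
    · exact (I.eval_extendEq hWn hW hWχ hsm htriv hF (b.coord i).toAddMonoidHom).symm.trans
        (h _ (extendEq_mem χ hWχ htriv _))
  have hback : ∀ i, (fun g k => b.coord i (f g k) • b i) ∈ L.B2 W M := fun i => by
    let φ : Mu χ →+ M := (LinearMap.toSpanSingleton (ZMod p) M (b i)).toAddMonoidHom.comp (Mu.val χ)
    exact Levels.map_mem_B2 φ (fun g hg a => by
      simp only [φ, AddMonoidHom.comp_apply, Mu.val_smul, MonoidHom.mem_ker.mp (hWχ hg),
        Units.val_one, one_mul, htriv g hg]) (hcomp i)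
  refine Levels.B2_congr (sum_mem fun i (_ : i ∈ Finset.univ) => hback i) fun g _ k _ => ?_
  simp only [Finset.sum_apply, Module.Basis.coord_apply]
  exact (b.sum_repr _).symm

include hWn hW hWχ in
/-- Every functional on equivariant functionals comes from a class. -/
lemma exists_eval_eq (htriv : ∀ g ∈ W, ∀ m : M, g • m = m)
    (θ : eqHom χ (MonoidHom.id Γ) M →+ ZMod p) :
    ∃ f ∈ L.Z2 ⊤ M, ∀ n : eqHom χ (MonoidHom.id Γ) M, I.eval f n.1 = θ n := by
  have hsm : L.Smooth M := smooth_of_trivial_on hW htriv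
  have hp0 : ∀ n : M →+ ZMod p, p • n = 0 := fun n => AddMonoidHom.ext fun m => by simp
  obtain ⟨θ', hθ'⟩ := exists_factor hp0 (eqHom χ (MonoidHom.id Γ) M).subtype θ
    fun a ha => by rw [show a = 0 from Subtype.ext ha, map_zero]
  -- a functional on the dual is evaluation at a vector
  let b := Module.finBasis (ZMod p) M
  set x : M := ∑ i, θ' (b.coord i).toAddMonoidHom • b i
  have hx : ∀ n : M →+ ZMod p, θ' n = n x := by
    intro n
    have hn : n = ∑ i, (n (b i)).val • (b.coord i).toAddMonoidHom := AddMonoidHom.ext fun m => by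
      rw [AddMonoidHom.finsetSum_apply]
      conv_lhs => rw [← b.sum_repr m, map_sum]
      refine Finset.sum_congr rfl fun i _ => ?_
      rw [AddMonoidHom.smul_apply, ← AddMonoidHom.coe_toZModLinearMap p n, map_smul,
        AddMonoidHom.coe_toZModLinearMap, LinearMap.toAddMonoidHom_coe, Module.Basis.coord_apply,
        ← Nat.cast_smul_eq_nsmul (ZMod p), ZMod.natCast_zmod_val, smul_eq_mul, smul_eq_mul,
        mul_comm]
    conv_lhs => rw [hn, map_sum]
    rw [map_sum]
    refine Finset.sum_congr rfl fun i _ => ?_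
    rw [map_nsmul, ← AddMonoidHom.coe_toZModLinearMap p n, map_smul,
      AddMonoidHom.coe_toZModLinearMap, ← Nat.cast_smul_eq_nsmul (ZMod p), ZMod.natCast_zmod_val,
      smul_eq_mul, smul_eq_mul, mul_comm]
  obtain ⟨h₀, hh₀, h₀1⟩ := I.exists_inv_eq_one W hW hWχ
  let φ : Mu χ →+ M := (LinearMap.toSpanSingleton (ZMod p) M x).toAddMonoidHom.comp (Mu.val χ)
  have hφ : ∀ g ∈ W, ∀ a, φ (g • a) = g • φ a := fun g hg a => by
    simp only [φ, AddMonoidHom.comp_apply, Mu.val_smul, MonoidHom.mem_ker.mp (hWχ hg),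
      Units.val_one, one_mul, htriv g hg]
  set F := indFun2 W fun g k => φ (h₀ g k)
  have hFZ : F ∈ L.Z2 ⊤ (Ind W M) := indFun2_mem_Z2 hW (Levels.map_mem_Z2 φ hφ hh₀)
  refine ⟨fun g k => Ind.total (F g k),
    Levels.map_mem_Z2 Ind.total (fun g _ ψ => Ind.total_smul g ψ) hFZ, fun n => ?_⟩
  rw [← hθ' n, AddSubgroup.coe_subtype, hx]
  have hc := n.2
  have : ∀ ψ : Ind W M, n.1 (Ind.total ψ) = extendEq χ n.1 ψ := fun ψ => by
    rw [Ind.total_apply, map_sum, extendEq, indPair_apply]
    refine Finset.sum_congr rfl fun c _ => ?_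
    show _ = (χ (sec W c) : ZMod p) * n.1 ((sec W c)⁻¹ • ψ c)
    have hc' := hc (sec W c) ((sec W c)⁻¹ • ψ c)
    rw [MonoidHom.id_apply, smul_inv_smul] at hc'
    exact hc'
  have hev := I.eval_extendEq hWn hW hWχ hsm htriv hFZ n.1
  simp only [eval, this] at hev ⊢
  rw [hev]
  have : (fun g k => Mu.of χ (n.1 (F g k ((1 : Γ) : Γ ⧸ W)))) =
      fun g k => Mu.of χ ((n.1 x) * Mu.val χ (indFun2 W h₀ g k ((1 : Γ) : Γ ⧸ W))) := by
    funext g k
    simp only [F, indFun2, Ind.mk_apply, sec_one, one_smul, φ, AddMonoidHom.comp_apply]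
    congr 1
    rw [LinearMap.toAddMonoidHom_coe, LinearMap.toSpanSingleton_apply,
      ← AddMonoidHom.coe_toZModLinearMap p n.1, map_smul, smul_eq_mul, mul_comm]
  rw [this]
  have hlin := map_nsmul (I.invHom hW) (n.1 x).val
    ⟨fun g k => indFun2 W h₀ g k ((1 : Γ) : Γ ⧸ W), eval_mem_Z2 (indFun2_mem_Z2 hW hh₀)⟩
  have hone : I.inv W (fun g k => indFun2 W h₀ g k ((1 : Γ) : Γ ⧸ W)) = 1 := by
    rw [← h₀1]
    refine I.inv_congr hW (eval_mem_Z2 (indFun2_mem_Z2 hW hh₀)) hh₀
      (Levels.B2_congr (zero_mem _) fun g hg k hk => ?_)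
    rw [Pi.sub_apply, Pi.sub_apply, indFun2_one_coset W h₀ hg hk, sub_self]
    rfl
  simp only [invHom, AddMonoidHom.mk'_apply, hone, nsmul_eq_mul, mul_one, ZMod.natCast_zmod_val]
    at hlin
  refine Eq.trans ?_ hlin
  congr 1
  funext g k
  show _ = (n.1 x).val • indFun2 W h₀ g k ((1 : Γ) : Γ ⧸ W)
  refine Mu.ext χ ?_
  rw [Mu.val_of, map_nsmul, nsmul_eq_mul, ZMod.natCast_zmod_val]

include hWn hW hWχ in
/-- Classes are detected by equivariant functionals. -/
theorem mem_B2_of_eval (htriv : ∀ g ∈ W, ∀ m : M, g • m = m) {f : Γ → Γ → M}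
    (hf : f ∈ L.Z2 ⊤ M) (h : ∀ n ∈ eqHom χ (MonoidHom.id Γ) M, I.eval f n = 0) :
    f ∈ L.B2 ⊤ M := by
  obtain ⟨F, hF, hFf⟩ := I.corSurj W hWn hW hWχ M htriv f hf
  let K : Submodule (ZMod p) (Ind W M) :=
    AddSubgroup.toZModSubmodule p (Ind.total : Ind W M →+ M).ker
  let : DistribMulAction Γ (Ind.total : Ind W M →+ M).ker :=
    { smul := fun g x => ⟨g • x.1, by
        rw [AddMonoidHom.mem_ker, Ind.total_smul, x.2, smul_zero]⟩
      one_smul := fun x => Subtype.ext (one_smul Γ x.1)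
      mul_smul := fun g k x => Subtype.ext (mul_smul g k x.1)
      smul_zero := fun g => Subtype.ext (smul_zero g)
      smul_add := fun g x y => Subtype.ext (smul_add g x.1 y.1) }
  have : Module (ZMod p) (Ind.total : Ind W M →+ M).ker :=
    AddCommGroup.zmodModule fun x => Subtype.ext (Ind.ext fun c => by
      show p • x.1 c = 0
      rw [← Nat.cast_smul_eq_nsmul (ZMod p), ZMod.natCast_self, zero_smul])
  have htrivI : ∀ g ∈ W, ∀ φ : Ind W M, g • φ = φ := fun g hg φ => Ind.ext fun c => by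
    rw [Ind.smul_apply, smul_coset_of_mem W hWn le_rfl (inv_mem hg), htriv g hg]
  set ι := (Ind.total : Ind W M →+ M).ker.subtype
  let R := eqHomComp χ (MonoidHom.id Γ) ι fun _ _ => rfl
  have hpK : ∀ e : eqHom χ (MonoidHom.id Γ) (Ind.total : Ind W M →+ M).ker, p • e = 0 := fun e =>
    Subtype.ext (AddMonoidHom.ext fun m => by simp)
  obtain ⟨θ, hθ⟩ := exists_factor hpK R (I.evalHom hF) fun e he => by
    -- such a functional factors through the sum
    set m : M →+ ZMod p := e.1.comp (indSingle ((1 : Γ) : Γ ⧸ W))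
    have hfac : ∀ φ, e.1 φ = m (Ind.total φ) := fun φ => by
      rw [← sub_eq_zero]
      show e.1 φ - e.1 (indSingle _ (Ind.total φ)) = 0
      rw [← map_sub]
      exact DFunLike.congr_fun (congrArg Subtype.val he)
        ⟨φ - indSingle ((1 : Γ) : Γ ⧸ W) (Ind.total φ), by
          rw [AddMonoidHom.mem_ker, map_sub, Ind.total_apply (indSingle _ _)]
          simp [indSingle_apply]⟩
    have hm : m ∈ eqHom χ (MonoidHom.id Γ) M := fun g x => by
      obtain ⟨φ, rfl⟩ := Ind.total_surjective (U := W) x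
      rw [MonoidHom.id_apply, ← Ind.total_smul, ← hfac, ← hfac]
      exact e.2 g φ
    show I.eval F e.1 = 0
    have h1 : I.eval F e.1 = I.eval (fun g k => Ind.total (F g k)) m := by
      simp only [eval, hfac]
    rw [h1, I.eval_congr (Levels.map_mem_Z2 Ind.total (fun g _ ψ => Ind.total_smul g ψ) hF) hf
      (Levels.B2_congr (neg_mem hFf) fun g _ k _ => by simp) hm, h m hm]
  obtain ⟨G, hG, hGθ⟩ := I.exists_eval_eq hWn hW hWχ
    (M := (Ind.total : Ind W M →+ M).ker) (fun g hg x => Subtype.ext (htrivI g hg x.1)) θ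
  have hιG : (fun g k => ι (G g k)) ∈ L.Z2 ⊤ (Ind W M) :=
    Levels.map_mem_Z2 ι (fun g _ _ => rfl) hG
  have hdiff : F - (fun g k => ι (G g k)) ∈ L.B2 ⊤ (Ind W M) := by
    refine I.ind_mem_B2_of_eval hWn hW hWχ htriv (sub_mem hF hιG) fun e he => ?_
    have h1 := I.eval_add (sub_mem hF hιG) hιG he
    rw [sub_add_cancel] at h1
    have h2 : I.eval (fun g k => ι (G g k)) e = I.eval F e :=
      (hGθ (R ⟨e, he⟩)).trans (hθ ⟨e, he⟩)
    rw [h2] at h1
    exact add_eq_right.mp h1.symm
  refine Levels.B2_congr (add_mem hFf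
    (Levels.map_mem_B2 Ind.total (fun g _ ψ => Ind.total_smul g ψ) hdiff)) fun g _ k _ => ?_
  show f g k = f g k - Ind.total (F g k) + Ind.total (F g k - ι (G g k))
  rw [map_sub, show Ind.total (ι (G g k)) = 0 from (G g k).2, sub_zero, sub_add_cancel]

end InvDatum

end FermatAgent.CFT.Coh
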