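import Mathlib

/-!
Herbrand indices of a pair of endomorphisms with vanishing composites, by index arithmetic.
-/

set_option autoImplicit false

namespace FermatAgent.CFT.Coh

open AddSubgroup

variable {A : Type*} [AddCommGroup A] (f g : A →+ A)

/-- The order of `ker f / im g` on a stable subgroup. -/
noncomputable def hIdx (B : AddSubgroup A) : ℕ := (B.map g).relIndex (B ⊓ f.ker)

/-- The order of `ker f / im g` on the subquotient `X / B`. -/
noncomputable def qIdx (B X : AddSubgroup A) : ℕ := (X.map g ⊔ B).relIndex (X ⊓ B.comap f)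

variable {f g} {B X : AddSubgroup A}

/-- The index on a subgroup is the one on the quotient by zero. -/
lemma hIdx_eq_qIdx_bot : hIdx f g X = qIdx f g ⊥ X := by
  rw [hIdx, qIdx, sup_bot_eq]
  rfl

/-- Intersecting with a larger subgroup does not change a relative index. -/
lemma relIndex_inf_of_le {Y K : AddSubgroup A} (h : K ≤ X) : (X ⊓ Y).relIndex K = Y.relIndex K := by
  rw [← inf_relIndex_right (X ⊓ Y), ← inf_relIndex_right Y, inf_comm X Y, inf_assoc,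
    inf_eq_right.mpr h]

lemma hIdx_decomp (hfg : ∀ a ∈ X, f (g a) = 0) (hXg : X.map g ≤ X) (hB : B ≤ X) :
    hIdx f g X = (B ⊓ X.map g).relIndex (B ⊓ f.ker) *
      (X.map g ⊔ B).relIndex ((X ⊓ f.ker) ⊔ B) := by
  have hker : X.map g ≤ f.ker := by
    rintro _ ⟨a, ha, rfl⟩
    exact hfg a ha
  have h1 : X.map g ≤ X.map g ⊔ (B ⊓ f.ker) := le_sup_left
  have h2 : X.map g ⊔ (B ⊓ f.ker) ≤ X ⊓ f.ker :=
    sup_le (le_inf hXg hker) (inf_le_inf hB le_rfl)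
  rw [hIdx, ← relIndex_mul_relIndex _ _ _ h1 h2, relIndex_sup_left]
  congr 1
  · rw [← inf_relIndex_right (X.map g)]
    congr 1
    rw [inf_comm, inf_assoc, inf_comm f.ker, inf_eq_left.mpr hker]
  · have e1 : (X ⊓ f.ker) ⊔ B = (X ⊓ f.ker) ⊔ (X.map g ⊔ B) := by
      rw [← sup_assoc, sup_eq_left.mpr (le_inf hXg hker)]
    rw [e1, relIndex_sup_right, ← inf_relIndex_right (X.map g ⊔ B)]
    congr 1
    have hm : (X.map g ⊔ B) ⊓ f.ker = X.map g ⊔ (B ⊓ f.ker) := sup_inf_assoc_of_le B hker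
    rw [inf_comm X, ← inf_assoc, hm, inf_eq_left.mpr (h2.trans inf_le_left)]

lemma hIdx_decomp_sub (hfg : ∀ a ∈ X, f (g a) = 0) (hBg : B.map g ≤ B) (hB : B ≤ X) :
    hIdx f g B =
      (B.map g).relIndex (B ⊓ X.map g) * (B ⊓ X.map g).relIndex (B ⊓ f.ker) := by
  have hker : X.map g ≤ f.ker := by
    rintro _ ⟨a, ha, rfl⟩
    exact hfg a ha
  rw [hIdx]
  exact (relIndex_mul_relIndex _ _ _ (le_inf hBg (map_mono hB)) (inf_le_inf le_rfl hker)).symm

lemma qIdx_decomp (hfg : ∀ a ∈ X, f (g a) = 0) (hXg : X.map g ≤ X) (hBf : B.map f ≤ B)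
    (hB : B ≤ X) :
    qIdx f g B X = (X.map g ⊔ B).relIndex ((X ⊓ f.ker) ⊔ B) *
      (B.map f).relIndex (B ⊓ X.map f) := by
  have hker : X.map g ≤ f.ker := by
    rintro _ ⟨a, ha, rfl⟩
    exact hfg a ha
  have h1 : X.map g ⊔ B ≤ (X ⊓ f.ker) ⊔ B := sup_le_sup (le_inf hXg hker) le_rfl
  have h2 : (X ⊓ f.ker) ⊔ B ≤ X ⊓ B.comap f := by
    refine le_inf (sup_le inf_le_left hB) (sup_le (fun a ha => ?_) (map_le_iff_le_comap.mp hBf))
    show f a ∈ B
    rw [show f a = 0 from ha.2]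
    exact zero_mem B
  rw [qIdx, ← relIndex_mul_relIndex _ _ _ h1 h2]
  congr 1
  have e : (X ⊓ f.ker) ⊔ B = X ⊓ (B.map f).comap f := by
    rw [comap_map_eq, inf_comm X f.ker, inf_comm X (B ⊔ f.ker), sup_comm,
      sup_inf_assoc_of_le f.ker hB]
  rw [e, relIndex_inf_of_le inf_le_left, relIndex_comap]
  congr 1
  refine le_antisymm ?_ ?_
  · rintro _ ⟨a, ha, rfl⟩
    exact ⟨ha.2, a, ha.1, rfl⟩
  · rintro _ ⟨hb, a, ha, rfl⟩
    exact ⟨a, ⟨ha, hb⟩, rfl⟩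

/-- Multiplicativity of the Herbrand indices. -/
theorem hIdx_mul (hfg : ∀ a ∈ X, f (g a) = 0) (hgf : ∀ a ∈ X, g (f a) = 0) (hXf : X.map f ≤ X)
    (hXg : X.map g ≤ X) (hBf : B.map f ≤ B) (hBg : B.map g ≤ B) (hB : B ≤ X) :
    hIdx f g B * qIdx f g B X * hIdx g f X = hIdx g f B * qIdx g f B X * hIdx f g X := by
  rw [hIdx_decomp hfg hXg hB, hIdx_decomp hgf hXf hB, hIdx_decomp_sub hfg hBg hB,
    hIdx_decomp_sub hgf hBf hB, qIdx_decomp hfg hXg hBf hB, qIdx_decomp hgf hXf hBg hB]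
  ring

/-- Identification of the indices of a subquotient with those of an image. -/
lemma qIdx_eq_of_map {C : Type*} [AddCommGroup C] (π : A →+ C) (fC gC : C →+ C)
    (hf : ∀ a ∈ X, π (f a) = fC (π a)) (hg : ∀ a ∈ X, π (g a) = gC (π a))
    (hXg : X.map g ≤ X) (hπB : B = X ⊓ π.ker) (hXf : X.map f ≤ X) :
    qIdx f g B X = hIdx fC gC (X.map π) := by
  have h1 : (X.map π).map gC = (X.map g).map π := by
    ext c
    constructor
    · rintro ⟨_, ⟨a, ha, rfl⟩, rfl⟩; exact ⟨g a, ⟨a, ha, rfl⟩, hg a ha⟩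
    · rintro ⟨_, ⟨a, ha, rfl⟩, rfl⟩; exact ⟨π a, ⟨a, ha, rfl⟩, (hg a ha).symm⟩
  have h2 : X ⊓ B.comap f = X ⊓ fC.ker.comap π := by
    ext a
    constructor
    · rintro ⟨ha, hb⟩
      refine ⟨ha, ?_⟩
      show fC (π a) = 0
      rw [← hf a ha]
      exact ((hπB ▸ hb : f a ∈ X ⊓ π.ker)).2
    · rintro ⟨ha, hb⟩
      refine ⟨ha, ?_⟩
      show f a ∈ B
      rw [hπB]
      exact ⟨hXf ⟨a, ha, rfl⟩, by show π (f a) = 0; rw [hf a ha]; exact hb⟩
  have h3 : X.map g ⊔ B = X ⊓ ((X.map g).map π).comap π := by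
    rw [comap_map_eq, hπB, inf_comm X π.ker, inf_comm X (_ ⊔ _), sup_inf_assoc_of_le π.ker hXg]
  rw [qIdx, hIdx, h1, h2, h3, relIndex_inf_of_le inf_le_left, relIndex_comap]
  congr 1
  ext c
  constructor
  · rintro ⟨a, ⟨ha, hb⟩, rfl⟩; exact ⟨⟨a, ha, rfl⟩, hb⟩
  · rintro ⟨⟨a, ha, rfl⟩, hb⟩; exact ⟨a, ⟨ha, hb⟩, rfl⟩

/-- A finite subquotient has equal indices. -/
theorem qIdx_eq_qIdx_swap (hfg : ∀ a ∈ X, f (g a) = 0) (hgf : ∀ a ∈ X, g (f a) = 0)
    (hXf : X.map f ≤ X)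
    (hXg : X.map g ≤ X) (hBf : B.map f ≤ B) (hBg : B.map g ≤ B) (hB : B ≤ X)
    (hfin : B.relIndex X ≠ 0) : qIdx f g B X = qIdx g f B X := by
  have key : ∀ (u v : A →+ A), (∀ a ∈ X, u (v a) = 0) → X.map u ≤ X → X.map v ≤ X → B.map u ≤ B →
      (X.map v ⊔ B).relIndex (X ⊓ B.comap u) * B.relIndex (X.map v ⊔ B) *
        B.relIndex (X.map u ⊔ B) = B.relIndex X := by
    intro u v huv hXu hXv hBu
    have e1 : X.map v ⊔ B ≤ X ⊓ B.comap u := by
      refine le_inf (sup_le hXv hB) (sup_le ?_ (map_le_iff_le_comap.mp hBu))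
      rintro _ ⟨a, ha, rfl⟩
      show u (v a) ∈ B
      rw [huv a ha]; exact zero_mem B
    have e2 : (X ⊓ B.comap u).relIndex X = B.relIndex (X.map u ⊔ B) := by
      rw [relIndex_sup_right, relIndex_inf_of_le le_rfl, relIndex_comap]
    rw [← e2, mul_comm _ (B.relIndex (X.map v ⊔ B)),
      relIndex_mul_relIndex _ _ _ le_sup_right e1,
      relIndex_mul_relIndex _ _ _ (le_sup_right.trans e1) inf_le_left]
  have h1 := key f g hfg hXf hXg hBf
  have h2 := key g f hgf hXg hXf hBg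
  rw [mul_assoc] at h1 h2
  rw [← h2, mul_comm (B.relIndex (X.map f ⊔ B))] at h1
  refine Nat.eq_of_mul_eq_mul_right (Nat.pos_of_ne_zero ?_) h1
  intro h
  refine hfin ?_
  rw [← h2, mul_comm (B.relIndex (X.map f ⊔ B)), h, mul_zero]

end FermatAgent.CFT.Coh
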