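import Fermat.Agent.CFT.Coh.PIndex

/-!
Transport of Herbrand indices along equivariant maps.
-/

set_option autoImplicit false

namespace FermatAgent.CFT.Coh

open AddSubgroup

variable {A C : Type*} [AddCommGroup A] [AddCommGroup C] {f g : A →+ A} {X : AddSubgroup A}
  (π : A →+ C) {fC gC : C →+ C}

/-- Indices are preserved by injective equivariant maps. -/
lemma hIdx_map (hinj : ∀ a ∈ X, π a = 0 → a = 0) (hXf : X.map f ≤ X) (hXg : X.map g ≤ X)
    (hf : ∀ a ∈ X, π (f a) = fC (π a)) (hg : ∀ a ∈ X, π (g a) = gC (π a)) :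
    hIdx f g X = hIdx fC gC (X.map π) := by
  rw [hIdx_eq_qIdx_bot, qIdx_eq_of_map π fC gC hf hg hXg ?_ hXf]
  exact le_antisymm bot_le fun a ha => hinj a ha.1 ha.2

/-- Indices along a map with finite kernel, when the second index is one. -/
lemma hIdx_map_of_finite (hfg : ∀ a ∈ X, f (g a) = 0) (hgf : ∀ a ∈ X, g (f a) = 0)
    (hXf : X.map f ≤ X) (hXg : X.map g ≤ X) (hf : ∀ a ∈ X, π (f a) = fC (π a))
    (hg : ∀ a ∈ X, π (g a) = gC (π a)) [Finite ↥(X ⊓ π.ker)] (h1 : hIdx g f X = 1) :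
    hIdx f g X * hIdx gC fC (X.map π) = hIdx fC gC (X.map π) ∧ hIdx gC fC (X.map π) ≠ 0 := by
  set B := X ⊓ π.ker
  have hB : ∀ (u : A →+ A) (uC : C →+ C), X.map u ≤ X → (∀ a ∈ X, π (u a) = uC (π a)) →
      B.map u ≤ B := by
    intro u uC hu huC
    rintro _ ⟨a, ⟨ha, ha0⟩, rfl⟩
    exact ⟨hu ⟨a, ha, rfl⟩, by
      show π (u a) = 0
      rw [huC a ha, show π a = 0 from ha0, map_zero]⟩
  have hBf := hB f fC hXf hf
  have hBg := hB g gC hXg hg
  have h := hIdx_mul hfg hgf hXf hXg hBf hBg inf_le_left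
  have e1 : qIdx f g B X = hIdx fC gC (X.map π) := qIdx_eq_of_map π fC gC hf hg hXg rfl hXf
  have e2 : qIdx g f B X = hIdx gC fC (X.map π) := qIdx_eq_of_map π gC fC hg hf hXf rfl hXg
  have hne : (⊥ : AddSubgroup A).relIndex B ≠ 0 := by
    rw [relIndex_bot_left]; exact Nat.card_pos.ne'
  have hswap : hIdx f g B = hIdx g f B := by
    rw [hIdx_eq_qIdx_bot, hIdx_eq_qIdx_bot]
    exact qIdx_eq_qIdx_swap (fun a ha => hfg a ha.1) (fun a ha => hgf a ha.1) hBf hBg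
      (by rw [AddSubgroup.map_bot]) (by rw [AddSubgroup.map_bot]) bot_le hne
  have hB0 : hIdx g f B ≠ 0 := fun h0 => by
    have h2 : (⊥ : AddSubgroup A).relIndex (B ⊓ g.ker) ≠ 0 :=
      fun h3 => hne (relIndex_eq_zero_of_le_right inf_le_left h3)
    exact h2 (relIndex_eq_zero_of_le_left bot_le h0)
  rw [e1, e2, hswap, h1, mul_one, mul_assoc] at h
  refine ⟨((Nat.eq_of_mul_eq_mul_left (Nat.pos_of_ne_zero hB0) h).trans (mul_comm _ _)).symm, ?_⟩
  rw [← e2, qIdx]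
  set Xc := X ⊓ B.comap g
  have hsub : (X.map f ⊔ B).relIndex (Xc ⊓ g.ker) = 1 := by
    rw [relIndex_eq_one]
    rintro a ⟨⟨ha, -⟩, hga⟩
    exact mem_sup_left (relIndex_eq_one.mp h1 ⟨ha, hga⟩)
  have hcomap : (Xc ⊓ g.ker).relIndex Xc ≠ 0 := by
    rw [inf_relIndex_left, ← AddMonoidHom.comap_bot g, relIndex_comap]
    intro h0
    refine hne (relIndex_eq_zero_of_le_right ?_ h0)
    rintro _ ⟨a, ha, rfl⟩
    exact ha.2
  intro h0
  refine hcomap (Nat.eq_zero_of_zero_dvd ?_)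
  have h2 := relIndex_sup_left (X.map f ⊔ B) (Xc ⊓ g.ker)
  have hle : Xc ⊓ g.ker ≤ X.map f ⊔ B := relIndex_eq_one.mp hsub
  rw [← h0]
  exact relIndex_dvd_of_le_left Xc hle

end FermatAgent.CFT.Coh
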