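import Fermat.Agent.CFT.Coh.Basic

/-!
Induced modules and Shapiro's lemma in degree two, on cochains.

`Ind U M` is the module of functions on the cosets of `U`, with the sum map `Ind.total`; a section
of the cosets gives the cocycle `secCocycle`, and `indFun2` induces cochains from `U`. Evaluation at
the trivial coset is injective on classes (`mem_B2_of_eval_mem_B2`) and inverse to induction
(`sub_indFun2_mem_B2`).
-/

set_option autoImplicit false

noncomputable section

open scoped Classical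

namespace FermatAgent.CFT.Coh

variable {Γ : Type*} [Group Γ]

/-- The module induced from the subgroup `U` to `Γ` by a `Γ`-module. -/
def Ind (U : Subgroup Γ) (M : Type*) := Γ ⧸ U → M

namespace Ind

variable (U : Subgroup Γ) {M : Type*} [AddCommGroup M]

instance : AddCommGroup (Ind U M) := inferInstanceAs (AddCommGroup (Γ ⧸ U → M))

instance [Finite M] [U.FiniteIndex] : Finite (Ind U M) :=
  haveI : Finite (Γ ⧸ U) := Subgroup.finite_quotient_of_finiteIndex
  inferInstanceAs (Finite (Γ ⧸ U → M))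

/-- A function on cosets as an element of the induced module. -/
def mk (φ : Γ ⧸ U → M) : Ind U M := φ

/-- The function underlying an element of the induced module. -/
def coe (φ : Ind U M) : Γ ⧸ U → M := φ

instance : CoeFun (Ind U M) fun _ => Γ ⧸ U → M := ⟨coe U⟩

variable {U}

omit [AddCommGroup M] in
/-- Induced elements are determined by their values. -/
@[ext] lemma ext {φ ψ : Ind U M} (h : ∀ c, φ c = ψ c) : φ = ψ := funext h

omit [AddCommGroup M] in
@[simp] lemma mk_apply (φ : Γ ⧸ U → M) (c : Γ ⧸ U) : mk U φ c = φ c := rfl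
/-- Addition is pointwise. -/
@[simp] lemma add_apply (φ ψ : Ind U M) (c : Γ ⧸ U) : (φ + ψ) c = φ c + ψ c := rfl
@[simp] lemma sub_apply (φ ψ : Ind U M) (c : Γ ⧸ U) : (φ - ψ) c = φ c - ψ c := rfl
@[simp] lemma neg_apply (φ : Ind U M) (c : Γ ⧸ U) : (-φ) c = -φ c := rfl
/-- The values of the zero element. -/
@[simp] lemma zero_apply (c : Γ ⧸ U) : (0 : Ind U M) c = 0 := rfl

variable [DistribMulAction Γ M]

instance : DistribMulAction Γ (Ind U M) where
  smul g φ := mk U fun c => g • φ (g⁻¹ • c)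
  one_smul φ := ext fun c => by
    show (1 : Γ) • φ ((1 : Γ)⁻¹ • c) = _
    rw [inv_one, one_smul, one_smul]
  mul_smul g h φ := ext fun c => by
    show (g * h) • φ ((g * h)⁻¹ • c) = g • h • φ (h⁻¹ • g⁻¹ • c)
    rw [mul_inv_rev, mul_smul, mul_smul]
  smul_zero g := ext fun c => smul_zero g
  smul_add g φ ψ := ext fun c => smul_add g _ _

/-- The action on induced elements. -/
@[simp] lemma smul_apply (g : Γ) (φ : Ind U M) (c : Γ ⧸ U) : (g • φ) c = g • φ (g⁻¹ • c) := rfl

/-- Evaluation at a coset. -/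
def eval (c : Γ ⧸ U) : Ind U M →+ M where
  toFun φ := φ c
  map_zero' := rfl
  map_add' _ _ := rfl

omit [DistribMulAction Γ M] in
@[simp] lemma eval_apply (c : Γ ⧸ U) (φ : Ind U M) : eval c φ = φ c := rfl

/-- The subgroup fixes the trivial coset. -/
lemma smul_one_coset {g : Γ} (hg : g ∈ U) :
    g • ((1 : Γ) : Γ ⧸ U) = ((1 : Γ) : Γ ⧸ U) := by
  show ((g * 1 : Γ) : Γ ⧸ U) = _
  rw [QuotientGroup.eq, mul_one, mul_one]
  exact inv_mem hg

/-- Evaluation at the trivial coset is equivariant for the subgroup. -/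
lemma eval_one_smul {g : Γ} (hg : g ∈ U) (φ : Ind U M) :
    eval ((1 : Γ) : Γ ⧸ U) (g • φ) = g • eval ((1 : Γ) : Γ ⧸ U) φ := by
  simp [smul_one_coset (inv_mem hg)]

/-- Postcomposition with an equivariant map. -/
def map {N : Type*} [AddCommGroup N] (f : M →+ N) : Ind U M →+ Ind U N where
  toFun φ := mk U fun c => f (φ c)
  map_zero' := ext fun _ => f.map_zero
  map_add' _ _ := ext fun _ => f.map_add _ _

omit [DistribMulAction Γ M] in
@[simp] lemma map_apply {N : Type*} [AddCommGroup N] (f : M →+ N) (φ : Ind U M) (c : Γ ⧸ U) :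
    map f φ c = f (φ c) := rfl

/-- The functorial map is equivariant. -/
lemma map_smul {N : Type*} [AddCommGroup N] [DistribMulAction Γ N] (f : M →+ N)
    (hf : ∀ (g : Γ) m, f (g • m) = g • f m) (g : Γ) (φ : Ind U M) :
    map f (g • φ) = g • map f φ := ext fun _ => hf g _

variable [U.FiniteIndex]

instance : Fintype (Γ ⧸ U) := Subgroup.fintypeQuotientOfFiniteIndex

/-- The sum map `Ind U M → M`. -/
def total : Ind U M →+ M where
  toFun φ := ∑ c, φ c
  map_zero' := by simp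
  map_add' φ ψ := by simp [Finset.sum_add_distrib]

omit [DistribMulAction Γ M] in
/-- The total map is the sum over cosets. -/
lemma total_apply (φ : Ind U M) : total φ = ∑ c, φ c := rfl

/-- The total map is equivariant. -/
lemma total_smul (g : Γ) (φ : Ind U M) : total (g • φ) = g • total φ := by
  rw [total_apply, total_apply, Finset.smul_sum]
  exact Fintype.sum_equiv (MulAction.toPerm g⁻¹) _ _ fun c => rfl

omit [DistribMulAction Γ M] in
/-- The total map is onto. -/
lemma total_surjective : Function.Surjective (total : Ind U M →+ M) := fun m =>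
  ⟨mk U fun c => if c = ((1 : Γ) : Γ ⧸ U) then m else 0, by simp [total_apply]⟩

end Ind

section Section

variable (U : Subgroup Γ)

/-- A section of `Γ → Γ ⧸ U` taking the trivial coset to `1`. -/
def sec (c : Γ ⧸ U) : Γ := if c = ((1 : Γ) : Γ ⧸ U) then 1 else c.out

/-- The chosen representative of the trivial coset is one. -/
@[simp] lemma sec_one : sec U ((1 : Γ) : Γ ⧸ U) = 1 := if_pos rfl

/-- Representatives lie in their cosets. -/
lemma mk_sec (c : Γ ⧸ U) : ((sec U c : Γ) : Γ ⧸ U) = c := by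
  unfold sec
  split_ifs with h
  · exact h.symm
  · exact c.out_eq'

/-- The element of `U` attached to a group element and a coset. -/
def secCocycle (g : Γ) (c : Γ ⧸ U) : Γ := (sec U c)⁻¹ * g * sec U (g⁻¹ • c)

/-- The cocycle of the representatives has values in the subgroup. -/
lemma secCocycle_mem (g : Γ) (c : Γ ⧸ U) : secCocycle U g c ∈ U := by
  have h : ((g * sec U (g⁻¹ • c) : Γ) : Γ ⧸ U) = c := by
    rw [← smul_eq_mul, ← MulAction.Quotient.smul_coe, mk_sec, smul_inv_smul]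
  rw [← mk_sec U c, QuotientGroup.eq, ← inv_mem_iff] at h
  unfold secCocycle
  rw [mk_sec] at h
  simpa [mul_assoc] using h

/-- The defining identity of the cocycle of the representatives. -/
lemma mul_sec (g : Γ) (c : Γ ⧸ U) : g * sec U (g⁻¹ • c) = sec U c * secCocycle U g c := by
  simp [secCocycle, mul_assoc]

/-- The cocycle identity for the representatives. -/
lemma secCocycle_mul (g h : Γ) (c : Γ ⧸ U) :
    secCocycle U (g * h) c = secCocycle U g c * secCocycle U h (g⁻¹ • c) := by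
  simp only [secCocycle, mul_inv_rev, mul_smul]
  group

/-- The inverse form of the defining identity. -/
lemma inv_sec_mul (g : Γ) (c : Γ ⧸ U) :
    (sec U c)⁻¹ * g = secCocycle U g c * (sec U (g⁻¹ • c))⁻¹ := by
  simp [secCocycle]

lemma inv_sec_smul (c : Γ ⧸ U) : (sec U c) • ((1 : Γ) : Γ ⧸ U) = c := by
  rw [MulAction.Quotient.smul_coe, smul_eq_mul, mul_one, mk_sec]

/-- The cocycle of the representatives at the trivial coset. -/
lemma secCocycle_one_coset {g : Γ} (hg : g ∈ U) : secCocycle U g ((1 : Γ) : Γ ⧸ U) = g := by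
  simp [secCocycle, Ind.smul_one_coset (inv_mem hg)]

/-- A normal subgroup inside fixes every coset. -/
lemma smul_coset_of_mem {N : Subgroup Γ} (hN : N.Normal) (hNU : N ≤ U) {s : Γ} (hs : s ∈ N)
    (c : Γ ⧸ U) : s • c = c := by
  induction c using QuotientGroup.induction_on with
  | _ x =>
    rw [MulAction.Quotient.smul_coe, QuotientGroup.eq, smul_eq_mul, mul_inv_rev, mul_assoc]
    have := hN.conj_mem s⁻¹ (inv_mem hs) x⁻¹
    rw [inv_inv] at this
    exact hNU (by rwa [← mul_assoc])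

/-- The cocycle of the representatives is constant along a normal level. -/
lemma exists_secCocycle_mul {N : Subgroup Γ} (hN : N.Normal) (hNU : N ≤ U) {s : Γ} (hs : s ∈ N)
    (g : Γ) (c : Γ ⧸ U) : ∃ s' ∈ N, secCocycle U (g * s) c = secCocycle U g c * s' := by
  refine ⟨(sec U (g⁻¹ • c))⁻¹ * s * sec U (g⁻¹ • c), ?_, ?_⟩
  · have := hN.conj_mem s hs (sec U (g⁻¹ • c))⁻¹
    rwa [inv_inv] at this
  · simp only [secCocycle, mul_inv_rev, mul_smul, smul_coset_of_mem U hN hNU (inv_mem hs)]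
    group

end Section

section Shapiro

variable (U : Subgroup Γ) {M : Type*} [AddCommGroup M] [DistribMulAction Γ M]

/-- Induction of a `1`-cochain on `U`. -/
def indFun1 (c : Γ → M) (g : Γ) : Ind U M :=
  Ind.mk U fun x => sec U x • c (secCocycle U g x)

/-- Induction of a `2`-cochain on `U`. -/
def indFun2 (f : Γ → Γ → M) (g h : Γ) : Ind U M :=
  Ind.mk U fun x => sec U x • f (secCocycle U g x) (secCocycle U h (g⁻¹ • x))

/-- Evaluation at the trivial coset inverts Shapiro. -/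
lemma indFun2_one_coset (f : Γ → Γ → M) {g h : Γ} (hg : g ∈ U) (hh : h ∈ U) :
    indFun2 U f g h ((1 : Γ) : Γ ⧸ U) = f g h := by
  simp [indFun2, Ind.smul_one_coset (inv_mem hg), secCocycle_one_coset U hg,
    secCocycle_one_coset U hh]

/-- The Shapiro map commutes with `d¹`. -/
lemma indFun2_d1 (c : Γ → M) (g h : Γ) :
    indFun2 U (d1 c) g h = d1 (indFun1 U c) g h := by
  refine Ind.ext fun x => ?_
  simp only [indFun2, indFun1, d1, Ind.add_apply, Ind.sub_apply, Ind.smul_apply, Ind.mk_apply,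
    smul_add, smul_sub, secCocycle_mul]
  rw [← mul_smul (sec U x), ← mul_smul g, mul_sec]

lemma indFun2_d2 (f : Γ → Γ → M) (g h j : Γ) (x : Γ ⧸ U) :
    d2 (indFun2 U f) g h j x = sec U x • d2 f (secCocycle U g x) (secCocycle U h (g⁻¹ • x))
      (secCocycle U j (h⁻¹ • g⁻¹ • x)) := by
  simp only [indFun2, d2, Ind.add_apply, Ind.sub_apply, Ind.smul_apply, Ind.mk_apply,
    smul_add, smul_sub, secCocycle_mul, mul_inv_rev, mul_smul]
  rw [← mul_smul (sec U x), ← mul_smul g, mul_sec]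

variable {U} {L : Levels Γ}

lemma indFun1_const (hU : U ∈ L) {c : Γ → M} (hc : L.Const1 U c) :
    L.Const1 ⊤ (indFun1 U c) := by
  obtain ⟨V, hV, hc⟩ := hc
  obtain ⟨N, hN, hNn, hNle⟩ := L.exists_normal (L.inf_mem hV hU)
  refine ⟨N, hN, fun g _ s hs => Ind.ext fun x => ?_⟩
  obtain ⟨s', hs', he⟩ := exists_secCocycle_mul U hNn (hNle.trans inf_le_right) hs.2 g x
  simp only [indFun1, Ind.mk_apply, he,
    hc _ (secCocycle_mem U g x) s' ⟨(hNle hs').2, (hNle hs').1⟩]

/-- The Shapiro map carries cocycles to cocycles. -/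
lemma indFun2_mem_Z2 (hU : U ∈ L) {f : Γ → Γ → M} (hf : f ∈ L.Z2 U M) :
    indFun2 U f ∈ L.Z2 ⊤ (Ind U M) := by
  refine ⟨?_, fun g _ h _ j _ => Ind.ext fun x => ?_⟩
  · obtain ⟨V, hV, hc⟩ := hf.1
    obtain ⟨N, hN, hNn, hNle⟩ := L.exists_normal (L.inf_mem hV hU)
    refine ⟨N, hN, fun g _ h _ s hs t ht => Ind.ext fun x => ?_⟩
    obtain ⟨s', hs', he⟩ := exists_secCocycle_mul U hNn (hNle.trans inf_le_right) hs.2 g x
    obtain ⟨t', ht', he'⟩ := exists_secCocycle_mul U hNn (hNle.trans inf_le_right) ht.2 h (g⁻¹ • x)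
    simp only [indFun2, Ind.mk_apply, mul_inv_rev, mul_smul,
      smul_coset_of_mem U hNn (hNle.trans inf_le_right) (inv_mem hs.2), he, he',
      hc _ (secCocycle_mem U g x) _ (secCocycle_mem U h (g⁻¹ • x)) s' ⟨(hNle hs').2, (hNle hs').1⟩
        t' ⟨(hNle ht').2, (hNle ht').1⟩]
  · rw [indFun2_d2, hf.2 _ (secCocycle_mem U g x) _ (secCocycle_mem U h _) _ (secCocycle_mem U j _),
      smul_zero, Ind.zero_apply]

/-- The Shapiro map carries coboundaries to coboundaries. -/
lemma indFun2_mem_B2 (hU : U ∈ L) {f : Γ → Γ → M} (hf : f ∈ L.B2 U M) :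
    indFun2 U f ∈ L.B2 ⊤ (Ind U M) := by
  obtain ⟨c, hc, h⟩ := hf
  refine ⟨indFun1 U c, indFun1_const hU hc, fun g _ k _ => ?_⟩
  rw [← indFun2_d1]
  refine Ind.ext fun x => ?_
  simp only [indFun2, Ind.mk_apply, h _ (secCocycle_mem U g x) _ (secCocycle_mem U k _)]

/-- Restriction to the trivial coset. -/
lemma eval_mem_Z2 {F : Γ → Γ → Ind U M} (hF : F ∈ L.Z2 ⊤ (Ind U M)) :
    (fun g h => F g h ((1 : Γ) : Γ ⧸ U)) ∈ L.Z2 U M :=
  Levels.map_mem_Z2 (Ind.eval _) (fun _ hg => Ind.eval_one_smul hg)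
    (Levels.Z2_mono le_top hF)

/-- Injectivity in Shapiro's lemma, cocycles vanishing at the trivial coset. -/
lemma mem_B2_of_eval_eq_zero (hU : U ∈ L) {F : Γ → Γ → Ind U M}
    (hF : F ∈ L.Z2 ⊤ (Ind U M))
    (h0 : ∀ u ∈ U, ∀ v ∈ U, F u v ((1 : Γ) : Γ ⧸ U) = 0) : F ∈ L.B2 ⊤ (Ind U M) := by
  set o : Γ ⧸ U := ((1 : Γ) : Γ ⧸ U)
  set G : Γ → Γ → M := fun a b => F a b o with hG
  have hcoc : ∀ a b e,
      a • F b e (a⁻¹ • o) - G (a * b) e + G a (b * e) - G a b = 0 := fun a b e => by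
    have := congrArg (fun φ : Ind U M => φ o) (hF.2 a trivial b trivial e trivial)
    simpa [d2] using this
  let X : Γ → Ind U M := fun g => Ind.mk U fun x =>
    sec U x • (G (sec U x)⁻¹ g - G (secCocycle U g x) (sec U (g⁻¹ • x))⁻¹)
  refine ⟨X, ?_, fun g _ k _ => Ind.ext fun x => ?_⟩
  · obtain ⟨V, hV, hc⟩ := hF.1
    obtain ⟨N, hN, hNn, hNle⟩ := L.exists_normal (L.inf_mem hV hU)
    refine ⟨N, hN, fun g _ s hs => Ind.ext fun x => ?_⟩
    obtain ⟨s', hs', he⟩ := exists_secCocycle_mul U hNn (hNle.trans inf_le_right) hs.2 g x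
    have hx : (g * s)⁻¹ • x = g⁻¹ • x := by
      rw [mul_inv_rev, mul_smul, smul_coset_of_mem U hNn (hNle.trans inf_le_right) (inv_mem hs.2)]
    have e1 : F (sec U x)⁻¹ (g * s) = F (sec U x)⁻¹ g := by
      simpa using hc _ trivial _ trivial 1 (one_mem _) s ⟨trivial, (hNle hs.2).1⟩
    have e2 : F (secCocycle U g x * s') (sec U (g⁻¹ • x))⁻¹ =
        F (secCocycle U g x) (sec U (g⁻¹ • x))⁻¹ := by
      simpa using hc (secCocycle U g x) trivial (sec U (g⁻¹ • x))⁻¹ trivial s'
        ⟨trivial, (hNle hs').1⟩ 1 (one_mem _)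
    simp only [X, Ind.mk_apply, hx, he, hG, e1, e2]
  · set s := sec U x
    set y := g⁻¹ • x
    set s' := sec U y
    set u := secCocycle U g x
    set z := k⁻¹ • y
    set s'' := sec U z
    set u' := secCocycle U k y
    have hu : u ∈ U := secCocycle_mem U g x
    have hu' : u' ∈ U := secCocycle_mem U k y
    have a1 := hcoc s⁻¹ g k
    rw [inv_inv, inv_sec_smul] at a1
    have a2 := hcoc u s'⁻¹ k
    rw [Ind.smul_one_coset (inv_mem hu), ← inv_sec_mul U g x] at a2
    have a3 := hcoc u u' s''⁻¹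
    rw [Ind.smul_one_coset (inv_mem hu), ← inv_sec_mul U k y] at a3
    have hgy : g * s' = s * u := mul_sec U g x
    have hz : (g * k)⁻¹ • x = z := by rw [mul_inv_rev, mul_smul]
    have huv : G u u' = 0 := h0 u hu u' hu'
    apply (MulAction.injective s⁻¹)
    show s⁻¹ • F g k x = s⁻¹ • d1 X g k x
    simp only [d1, Ind.add_apply, Ind.sub_apply, Ind.smul_apply, X, Ind.mk_apply]
    rw [hz, secCocycle_mul]
    change s⁻¹ • F g k x =
      s⁻¹ • (g • s' • (G s'⁻¹ k - G u' s''⁻¹) - s • (G s⁻¹ (g * k) - G (u * u') s''⁻¹) +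
        s • (G s⁻¹ g - G u s'⁻¹))
    rw [← mul_smul g, hgy, smul_add, smul_sub, ← mul_smul s⁻¹, inv_smul_smul, inv_smul_smul,
      inv_mul_cancel_left, smul_sub u]
    change s⁻¹ • F g k x = u • F s'⁻¹ k o - u • F u' s''⁻¹ o - _ + _
    have b1 : s⁻¹ • F g k x = G (s⁻¹ * g) k - G s⁻¹ (g * k) + G s⁻¹ g := by
      rw [← sub_eq_zero, ← a1]; abel
    have b2 : u • F s'⁻¹ k o = G (s⁻¹ * g) k - G u (s'⁻¹ * k) + G u s'⁻¹ := by
      rw [← sub_eq_zero, ← a2]; abel
    have b3 : u • F u' s''⁻¹ o = G (u * u') s''⁻¹ - G u (s'⁻¹ * k) + G u u' := by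
      rw [← sub_eq_zero, ← a3]; abel
    rw [b1, b2, b3, huv]
    abel

/-- Injectivity in Shapiro's lemma. -/
lemma mem_B2_of_eval_mem_B2 (hU : U ∈ L) (hA : L.Smooth (Ind U M)) {F : Γ → Γ → Ind U M}
    (hF : F ∈ L.Z2 ⊤ (Ind U M))
    (h : (fun g k => F g k ((1 : Γ) : Γ ⧸ U)) ∈ L.B2 U M) : F ∈ L.B2 ⊤ (Ind U M) := by
  obtain ⟨c, hc, hfc⟩ := h
  have hd : d1 (indFun1 U c) ∈ L.B2 ⊤ (Ind U M) := Levels.d1_mem_B2 (indFun1_const hU hc)
  have h' : F - d1 (indFun1 U c) ∈ L.B2 ⊤ (Ind U M) := by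
    refine mem_B2_of_eval_eq_zero hU (sub_mem hF (Levels.B2_le_Z2 hA hd)) fun u hu v hv => ?_
    show F u v ((1 : Γ) : Γ ⧸ U) - d1 (indFun1 U c) u v ((1 : Γ) : Γ ⧸ U) = 0
    rw [← indFun2_d1, indFun2_one_coset U _ hu hv, sub_eq_zero]
    exact hfc u hu v hv
  simpa using add_mem h' hd

/-- Induced modules from levels are smooth. -/
lemma smooth_ind [U.FiniteIndex] (hU : U ∈ L) (hM : L.Smooth M) : L.Smooth (Ind U M) := fun φ => by
  obtain ⟨W, hW, hfix⟩ := hM.exists_finset (Finset.univ.image fun c => φ c)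
  obtain ⟨N, hN, hNn, hNle⟩ := L.exists_normal (L.inf_mem hW hU)
  refine ⟨N, hN, fun s hs => Ind.ext fun c => ?_⟩
  rw [Ind.smul_apply, smul_coset_of_mem U hNn (hNle.trans inf_le_right) (inv_mem hs),
    hfix s (hNle hs).1 _ (Finset.mem_image.mpr ⟨c, Finset.mem_univ _, rfl⟩)]

/-- Shapiro: a cocycle with values in an induced module is induced from its value at `1`. -/
lemma sub_indFun2_mem_B2 (hU : U ∈ L) (hA : L.Smooth (Ind U M)) {F : Γ → Γ → Ind U M}
    (hF : F ∈ L.Z2 ⊤ (Ind U M)) :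
    F - indFun2 U (fun g k => F g k ((1 : Γ) : Γ ⧸ U)) ∈ L.B2 ⊤ (Ind U M) :=
  mem_B2_of_eval_mem_B2 hU hA (sub_mem hF (indFun2_mem_Z2 hU (eval_mem_Z2 hF)))
    (Levels.B2_congr (zero_mem _) fun g hg k hk => by
      simp only [Pi.sub_apply, Ind.sub_apply, indFun2_one_coset U _ hg hk, Pi.zero_apply, sub_self])

end Shapiro

end FermatAgent.CFT.Coh
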