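import Fermat.Agent.CFT.Coh.Herbrand

/-!
The Herbrand quotient of a torsion free module with an action of a cyclic group of prime order,
in terms of the indices of multiplication by the prime.
-/

set_option autoImplicit false

noncomputable section

namespace FermatAgent.CFT.Coh

open Polynomial

/-- The comparison of `(X - 1) ^ (p - 1)` with the cyclotomic sum. -/
lemma exists_geomSum_congr (p : ℕ) [hp : Fact p.Prime] : ∃ R R' : ℤ[X],
    (X - 1) ^ (p - 1) = (∑ i ∈ Finset.range p, X ^ i) + C (p : ℤ) * R ∧ R = -1 + (X - 1) * R' := by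
  set Φ : ℤ[X] := ∑ i ∈ Finset.range p, X ^ i
  have hpos : p - 1 + 1 = p := Nat.sub_add_cancel hp.out.pos
  have hdvd : C (p : ℤ) ∣ (X - 1) ^ (p - 1) - Φ := by
    rw [C_dvd_iff_dvd_coeff]
    intro i
    have h0 : ((X - 1) ^ (p - 1) - Φ).map (Int.castRingHom (ZMod p)) = 0 := by
      have hne : (X - 1 : (ZMod p)[X]) ≠ 0 := by
        rw [← C_1]; exact X_sub_C_ne_zero 1
      refine (mul_eq_zero.mp ?_).resolve_right hne
      simp only [Φ, Polynomial.map_sub, Polynomial.map_pow, map_X, Polynomial.map_one,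
        Polynomial.map_sum]
      rw [sub_mul, ← pow_succ, hpos, geom_sum_mul, sub_pow_char, one_pow, sub_self]
    have := congrArg (fun P : (ZMod p)[X] => P.coeff i) h0
    simp only [coeff_map, coeff_zero, eq_intCast] at this
    exact (ZMod.intCast_zmod_eq_zero_iff_dvd _ p).mp this
  obtain ⟨R, hR⟩ := hdvd
  have h1 : R.eval 1 = -1 := by
    have h := congrArg (eval 1) hR
    simp only [Φ, eval_sub, eval_pow, eval_X, eval_one, sub_self, eval_finsetSum, one_pow,
      Finset.sum_const, Finset.card_range, nsmul_eq_mul, mul_one, eval_mul, eval_C] at h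
    rw [zero_pow (by have := hp.out.two_le; omega), zero_sub] at h
    have hp0 : (p : ℤ) ≠ 0 := by exact_mod_cast hp.out.ne_zero
    exact mul_left_cancel₀ hp0 (by rw [← h, mul_neg, mul_one])
  obtain ⟨R', hR'⟩ := (dvd_iff_isRoot (p := R + 1) (a := (1 : ℤ))).mpr (by simp [IsRoot, h1])
  refine ⟨R, R', by rw [← hR]; ring, ?_⟩
  rw [map_one] at hR'
  rw [← hR']; ring

variable {A : Type*} [AddCommGroup A] {p : ℕ} [hp : Fact p.Prime] (σ : A →+ A)

/-- The difference `σ - 1`. -/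
def diffEnd : A →+ A := σ - AddMonoidHom.id A

/-- The value of `σ - 1`. -/
@[simp] lemma diffEnd_apply (a : A) : diffEnd σ a = σ a - a := rfl

/-- The sum of the first `n` iterates. -/
def traceEnd (n : ℕ) : A →+ A :=
  AddMonoidHom.mk' (fun a => ∑ i ∈ Finset.range n, σ^[i] a) fun a b => by
    simp only [iterate_map_add, Finset.sum_add_distrib]

/-- The value of the norm `1 + σ + … + σ^(n-1)`. -/
lemma traceEnd_apply (n : ℕ) (a : A) :
    traceEnd σ n a = ∑ i ∈ Finset.range n, σ^[i] a := rfl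

variable {σ} {Y : AddSubgroup A}

/-- Stable subgroups are stable under the iterates. -/
lemma iterate_mem (hσY : ∀ a ∈ Y, σ a ∈ Y) {a : A} (ha : a ∈ Y) : ∀ i : ℕ, σ^[i] a ∈ Y
  | 0 => ha
  | i + 1 => by rw [Function.iterate_succ_apply']; exact hσY _ (iterate_mem hσY ha i)

/-- The norm of `σ a - a` is `σ^n a - a`. -/
lemma traceEnd_diffEnd (n : ℕ) (a : A) : traceEnd σ n (diffEnd σ a) = σ^[n] a - a := by
  rw [diffEnd_apply, map_sub, traceEnd_apply, traceEnd_apply]
  simp only [← Function.iterate_succ_apply]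
  rw [← Finset.sum_sub_distrib, Finset.sum_range_sub (fun i => σ^[i] a)]
  rfl

/-- `σ - 1` applied to the norm is `σ^n - 1`. -/
lemma diffEnd_traceEnd (n : ℕ) (a : A) : diffEnd σ (traceEnd σ n a) = σ^[n] a - a := by
  rw [diffEnd_apply, traceEnd_apply, map_sum]
  simp only [← Function.iterate_succ_apply']
  rw [← Finset.sum_sub_distrib, Finset.sum_range_sub (fun i => σ^[i] a)]
  rfl

/-- The iterates of an endomorphism, as endomorphisms. -/
private def iterHom (D : A →+ A) (k : ℕ) : A →+ A := (show AddMonoid.End A from D) ^ k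

omit hp in
private lemma iterHom_apply (D : A →+ A) (k : ℕ) (a : A) : iterHom D k a = D^[k] a := by
  show ((show AddMonoid.End A from D) ^ k) a = _
  rw [AddMonoid.End.coe_pow]; rfl

omit hp in
private lemma iterHom_succ (D : A →+ A) (k : ℕ) (a : A) :
    iterHom D (k + 1) a = D (iterHom D k a) := by
  rw [iterHom_apply, iterHom_apply, Function.iterate_succ_apply']

omit hp in
private lemma iterHom_succ' (D : A →+ A) (k : ℕ) (a : A) :
    iterHom D (k + 1) a = iterHom D k (D a) := by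
  rw [iterHom_apply, iterHom_apply, Function.iterate_succ_apply]

omit hp in
private lemma iterHom_mem {D : A →+ A} (hDY : Y.map D ≤ Y) (k : ℕ) {a : A} (ha : a ∈ Y) :
    iterHom D k a ∈ Y := by
  induction k with
  | zero => exact ha
  | succ k ih => rw [iterHom_succ]; exact hDY ⟨_, ih, rfl⟩

omit hp in
/-- Iterates of an endomorphism, injective modulo a subgroup it kills: the index is a power. -/
private lemma relIndex_map_iterHom_sup {D : A →+ A} {B : AddSubgroup A} (hDY : Y.map D ≤ Y)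
    (hBY : B ≤ Y) (hB : ∀ b ∈ B, D b = 0) (hinj : ∀ a ∈ Y, D a ∈ B → a ∈ B) (k : ℕ) :
    (Y.map (iterHom D k) ⊔ B).relIndex Y = (Y.map D ⊔ B).relIndex Y ^ k := by
  have hDkinj : ∀ k, ∀ a ∈ Y, iterHom D k a ∈ B → a ∈ B := fun k => by
    induction k with
    | zero => exact fun a _ h => h
    | succ k ih =>
      exact fun a ha h => ih a ha (hinj _ (iterHom_mem hDY k ha) (iterHom_succ D k a ▸ h))
  have hanti : ∀ k, Y.map (iterHom D (k + 1)) ≤ Y.map (iterHom D k) := fun k => by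
    rintro _ ⟨a, ha, rfl⟩; exact ⟨D a, hDY ⟨a, ha, rfl⟩, (iterHom_succ' D k a).symm⟩
  have hstep : ∀ k, (Y.map (iterHom D (k + 1)) ⊔ B).relIndex (Y.map (iterHom D k) ⊔ B) =
      (Y.map D ⊔ B).relIndex Y := fun k => by
    set K := Y.map (iterHom D (k + 1)) ⊔ B
    have e : Y.map (iterHom D k) ⊔ B = Y.map (iterHom D k) ⊔ K := by
      rw [← sup_assoc, sup_eq_left.mpr (hanti k)]
    rw [e, AddSubgroup.relIndex_sup_right, ← AddSubgroup.relIndex_comap,
      ← relIndex_inf_of_le (X := Y) le_rfl]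
    congr 1
    ext a
    constructor
    · rintro ⟨ha, hK⟩
      obtain ⟨_, ⟨c, hc, rfl⟩, b, hb, hsum⟩ := AddSubgroup.mem_sup.mp hK
      have hac : a - D c ∈ B := hDkinj k _ (Y.sub_mem ha (hDY ⟨c, hc, rfl⟩)) (by
        rw [map_sub, ← hsum, ← iterHom_succ', add_sub_cancel_left]; exact hb)
      rw [← add_sub_cancel (D c) a]
      exact AddSubgroup.add_mem_sup ⟨c, hc, rfl⟩ hac
    · intro h
      obtain ⟨_, ⟨c, hc, rfl⟩, b, hb, rfl⟩ := AddSubgroup.mem_sup.mp h
      refine ⟨Y.add_mem (hDY ⟨c, hc, rfl⟩) (hBY hb), ?_⟩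
      show iterHom D k (D c + b) ∈ K
      rw [map_add, ← iterHom_succ']
      refine AddSubgroup.add_mem_sup ⟨c, hc, rfl⟩ ?_
      cases k with
      | zero => exact hb
      | succ k => rw [iterHom_succ', hB b hb, map_zero]; exact zero_mem B
  induction k with
  | zero =>
    rw [pow_zero, AddSubgroup.relIndex_eq_one]
    exact fun a ha => AddSubgroup.mem_sup_left ⟨a, ha, rfl⟩
  | succ k ih =>
    rw [pow_succ, ← ih, mul_comm, ← hstep k, AddSubgroup.relIndex_mul_relIndex]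
    · exact sup_le ((hanti k).trans le_sup_left) le_sup_right
    · exact sup_le (fun x ⟨a, ha, h⟩ => h ▸ iterHom_mem hDY k ha) hBY

omit hp in
private lemma map_diffEnd_le (hσY : ∀ a ∈ Y, σ a ∈ Y) : Y.map (diffEnd σ) ≤ Y := by
  rintro _ ⟨a, ha, rfl⟩; exact Y.sub_mem (hσY a ha) ha

omit hp in
private lemma map_traceEnd_le (hσY : ∀ a ∈ Y, σ a ∈ Y) (n : ℕ) : Y.map (traceEnd σ n) ≤ Y := by
  rintro _ ⟨a, ha, rfl⟩
  rw [traceEnd_apply]
  exact sum_mem fun i _ => iterate_mem hσY ha i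

omit hp in
/-- On fixed points the trace is multiplication. -/
private lemma traceEnd_fixed {b : A} (hb : diffEnd σ b = 0) (n : ℕ) :
    traceEnd σ n b = n • b := by
  simp only [traceEnd_apply,
    fun i => Function.iterate_fixed (sub_eq_zero.mp (show σ b - b = 0 from hb)) i,
    Finset.sum_const, Finset.card_range]

omit hp in
/-- A point whose difference is fixed is fixed. -/
private lemma mem_fixed_of_diffEnd_mem (hσY : ∀ a ∈ Y, σ a ∈ Y) (hσp : ∀ a ∈ Y, σ^[p] a = a)
    (htf : ∀ a ∈ Y, p • a = 0 → a = 0) {a : A} (ha : a ∈ Y)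
    (h : diffEnd σ a ∈ Y ⊓ (diffEnd σ).ker) : a ∈ Y ⊓ (diffEnd σ).ker := by
  refine ⟨ha, htf _ (map_diffEnd_le hσY ⟨a, ha, rfl⟩) ?_⟩
  rw [← traceEnd_fixed h.2 p, traceEnd_diffEnd, hσp a ha, sub_self]

omit hp in
/-- The fixed part splits off from the indices. -/
private lemma hIdx_mul_fixed (hσY : ∀ a ∈ Y, σ a ∈ Y) (hσp : ∀ a ∈ Y, σ^[p] a = a)
    (htf : ∀ a ∈ Y, p • a = 0 → a = 0) :
    ((Y ⊓ (diffEnd σ).ker).map (nsmulAddMonoidHom p)).relIndex (Y ⊓ (diffEnd σ).ker) *
        hIdx (traceEnd σ p) (diffEnd σ) Y =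
      (Y.map (diffEnd σ) ⊔ Y ⊓ (diffEnd σ).ker).relIndex Y *
        hIdx (diffEnd σ) (traceEnd σ p) Y := by
  set D := diffEnd σ
  set T := traceEnd σ p
  set B := Y ⊓ D.ker
  set P : A →+ A := nsmulAddMonoidHom p
  have hDT : ∀ a ∈ Y, D (T a) = 0 := fun a ha => by rw [diffEnd_traceEnd, hσp a ha, sub_self]
  have hTD : ∀ a ∈ Y, T (D a) = 0 := fun a ha => by rw [traceEnd_diffEnd, hσp a ha, sub_self]
  have hTB : ∀ b ∈ B, T b = p • b := fun b hb => traceEnd_fixed hb.2 p
  have hBT : B.map T = B.map P := by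
    ext x
    exact ⟨fun ⟨b, hb, h⟩ => ⟨b, hb, by rw [← h, hTB b hb]; rfl⟩,
      fun ⟨b, hb, h⟩ => ⟨b, hb, by rw [← h, hTB b hb]; rfl⟩⟩
  have hBD : B.map D = ⊥ := (AddSubgroup.eq_bot_iff_forall _).mpr fun x ⟨b, hb, h⟩ => h ▸ hb.2
  have hBT' : B.map T ≤ B := by
    rw [hBT]; rintro _ ⟨b, hb, rfl⟩; exact nsmul_mem hb p
  have hmul := hIdx_mul (X := Y) (B := B) hDT hTD (map_diffEnd_le hσY) (map_traceEnd_le hσY p)
    (by rw [hBD]; exact bot_le) hBT' inf_le_left
  have e1 : hIdx D T B = (B.map P).relIndex B := by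
    rw [hIdx, hBT, inf_eq_left.mpr inf_le_right]
  have e2 : hIdx T D B = 1 := by
    rw [hIdx, hBD, AddSubgroup.relIndex_eq_one]
    intro b ⟨hb, hb'⟩
    exact htf b hb.1 (by rw [← hTB b hb]; exact hb')
  have e3 : qIdx D T B Y = 1 := by
    rw [qIdx, AddSubgroup.relIndex_eq_one]
    exact fun a ha =>
      AddSubgroup.mem_sup_right (mem_fixed_of_diffEnd_mem hσY hσp htf ha.1 ha.2)
  have e4 : Y ⊓ B.comap T = Y :=
    inf_eq_left.mpr fun a ha => ⟨map_traceEnd_le hσY p ⟨a, ha, rfl⟩, hDT a ha⟩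
  have hm : qIdx T D B Y = (Y.map D ⊔ B).relIndex Y := by simp only [qIdx]; rw [e4]
  rwa [e1, e2, e3, hm, mul_one, one_mul] at hmul

/-- Modulo the fixed part, `(σ - 1) ^ (p - 1)` and multiplication by `p` have the same image. -/
private lemma map_iterHom_sup_fixed (hσY : ∀ a ∈ Y, σ a ∈ Y) (hσp : ∀ a ∈ Y, σ^[p] a = a) :
    Y.map (iterHom (diffEnd σ) (p - 1)) ⊔ Y ⊓ (diffEnd σ).ker =
      Y.map (nsmulAddMonoidHom p) ⊔ Y ⊓ (diffEnd σ).ker := by
  set D := diffEnd σ
  set T := traceEnd σ p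
  set B := Y ⊓ D.ker
  have hDY : Y.map D ≤ Y := map_diffEnd_le hσY
  have hT : ∀ a ∈ Y, T a ∈ B := fun a ha =>
    ⟨map_traceEnd_le hσY p ⟨a, ha, rfl⟩,
      show D (T a) = 0 by rw [diffEnd_traceEnd, hσp a ha, sub_self]⟩
  obtain ⟨R, R', hR, hR'⟩ := exists_geomSum_congr p
  let σE : AddMonoid.End A := σ
  have hevY : ∀ (Q : ℤ[X]), ∀ a ∈ Y, aeval σE Q a ∈ Y := fun Q a ha => by
    induction Q using Polynomial.induction_on' with
    | add Q Q' h h' => rw [map_add]; exact Y.add_mem h h'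
    | monomial n c =>
      rw [aeval_monomial, eq_intCast, ← zsmul_eq_mul]
      refine Y.zsmul_mem (x := (σE ^ n) a) ?_ c
      rw [AddMonoid.End.coe_pow]
      exact iterate_mem hσY ha n
  have hkey : ∀ a, iterHom D (p - 1) a = T a + p • (-a + D (aeval σE R' a)) := fun a => by
    have h := congrArg (fun Q => aeval σE Q) hR
    rw [hR'] at h
    simp only [map_pow, map_sub, map_add, map_mul, map_neg, map_one, aeval_X, map_sum,
      map_natCast] at h
    have h' := DFunLike.congr_fun h a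
    simp only [← nsmul_eq_mul] at h'
    refine h'.trans ?_
    show (∑ i ∈ Finset.range p, σE ^ i) a + _ = _
    refine congrArg (· + _) ((AddMonoidHom.finsetSum_apply (M := A) (N := A) _ _ a).trans
      (Finset.sum_congr rfl fun i _ => ?_))
    show (σE ^ i) a = σ^[i] a
    rw [AddMonoid.End.coe_pow]
    rfl
  have hpk : ∀ k, ∀ a ∈ Y, ∃ c ∈ Y,
      p • a - p • iterHom D k c ∈ Y.map (iterHom D (p - 1)) ⊔ B := fun k a ha => by
    induction k with
    | zero =>
      exact ⟨a, ha, by rw [show iterHom D 0 a = a from rfl, sub_self]; exact zero_mem _⟩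
    | succ k ih =>
      obtain ⟨c, hc, hmem⟩ := ih
      refine ⟨aeval σE R' c, hevY R' c hc, ?_⟩
      have h2 : p • iterHom D k c - p • iterHom D (k + 1) (aeval σE R' c) =
          iterHom D k (T c) - iterHom D (p - 1) (iterHom D k c) := by
        have e : iterHom D (p - 1) (iterHom D k c) = iterHom D k (iterHom D (p - 1) c) := by
          rw [iterHom_apply, iterHom_apply, iterHom_apply, iterHom_apply,
            ← Function.iterate_add_apply, ← Function.iterate_add_apply, add_comm]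
        rw [e, hkey, map_add, map_nsmul, map_add, map_neg, ← iterHom_succ', nsmul_add, smul_neg]
        abel
      have hTk : iterHom D k (T c) ∈ B := by
        cases k with
        | zero => exact hT c hc
        | succ k =>
          rw [iterHom_succ', show D (T c) = 0 from (hT c hc).2, map_zero]; exact zero_mem B
      rw [← sub_add_sub_cancel (p • a) (p • iterHom D k c), h2]
      exact add_mem hmem (AddSubgroup.sub_mem _ (AddSubgroup.mem_sup_right hTk)
        (AddSubgroup.mem_sup_left ⟨_, iterHom_mem hDY k hc, rfl⟩))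
  refine le_antisymm (sup_le ?_ le_sup_right) (sup_le ?_ le_sup_right)
  · rintro _ ⟨a, ha, rfl⟩
    rw [hkey a, add_comm]
    exact AddSubgroup.add_mem_sup
      ⟨_, Y.add_mem (Y.neg_mem ha) (hDY ⟨_, hevY R' a ha, rfl⟩), rfl⟩ (hT a ha)
  · rintro _ ⟨a, ha, rfl⟩
    obtain ⟨c, hc, h⟩ := hpk (p - 1) a ha
    show p • a ∈ _
    rw [← sub_add_cancel (p • a) (p • iterHom D (p - 1) c)]
    exact add_mem h (nsmul_mem (AddSubgroup.mem_sup_left (AddSubgroup.mem_map_of_mem _ hc)) p)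

/-- The lattice formula. -/
theorem hIdx_lattice (hσY : ∀ a ∈ Y, σ a ∈ Y) (hσp : ∀ a ∈ Y, σ^[p] a = a)
    (htf : ∀ a ∈ Y, p • a = 0 → a = 0) (hfin : (Y.map (nsmulAddMonoidHom p)).relIndex Y ≠ 0) :
    hIdx (diffEnd σ) (traceEnd σ p) Y ^ (p - 1) * (Y.map (nsmulAddMonoidHom p)).relIndex Y =
      hIdx (traceEnd σ p) (diffEnd σ) Y ^ (p - 1) *
        ((Y ⊓ (diffEnd σ).ker).map (nsmulAddMonoidHom p)).relIndex (Y ⊓ (diffEnd σ).ker) ^ p := by
  have hmul := hIdx_mul_fixed hσY hσp htf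
  set D := diffEnd σ
  set T := traceEnd σ p
  set B := Y ⊓ D.ker
  set P : A →+ A := nsmulAddMonoidHom p
  set m := (Y.map D ⊔ B).relIndex Y
  have hDY : Y.map D ≤ Y := map_diffEnd_le hσY
  have hmpow : (Y.map (iterHom D (p - 1)) ⊔ B).relIndex Y = m ^ (p - 1) :=
    relIndex_map_iterHom_sup (B := B) hDY inf_le_left (fun b hb => hb.2)
      (fun a ha h => mem_fixed_of_diffEnd_mem hσY hσp htf ha h) (p - 1)
  have hidx : (Y.map P).relIndex Y = (B.map P).relIndex B * m ^ (p - 1) := by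
    rw [← hmpow, map_iterHom_sup_fixed hσY hσp,
      ← AddSubgroup.relIndex_mul_relIndex (Y.map P) (Y.map P ⊔ B) Y le_sup_left
      (sup_le (by rintro _ ⟨a, ha, rfl⟩; exact nsmul_mem ha p) inf_le_left),
      AddSubgroup.relIndex_sup_left]
    congr 1
    rw [← AddSubgroup.inf_relIndex_right]
    congr 1
    refine le_antisymm ?_ (le_inf (AddSubgroup.map_mono inf_le_left)
      (by rintro _ ⟨b, hb, rfl⟩; exact nsmul_mem hb p))
    rintro _ ⟨⟨a, ha, rfl⟩, hb⟩
    refine ⟨a, ⟨ha, htf _ (hDY ⟨a, ha, rfl⟩) ?_⟩, rfl⟩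
    rw [← map_nsmul]
    exact hb.2
  rw [hidx] at hfin ⊢
  have hb0 : (B.map P).relIndex B ≠ 0 := left_ne_zero_of_mul hfin
  have hp1 : p = p - 1 + 1 := (Nat.sub_add_cancel hp.out.pos).symm
  conv_rhs => rw [hp1, pow_succ, Nat.add_sub_cancel, ← mul_assoc, ← mul_pow,
    mul_comm (hIdx T D Y), hmul, mul_pow]
  ring

end FermatAgent.CFT.Coh
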