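import Fermat.Agent.CFT.Coh.Induced

/-!
Surjectivity of corestriction in degree two (`CorSurj`), by dévissage to steps of index `p`.

It is transitive (`corSurj_trans`) and holds for index prime to `p` (`corSurj_of_coprime`). A Sylow
subgroup reduces the case of a normal `U` to a `p`-group quotient, where a fixed line in the
coefficients reduces it by induction on their order to trivial coefficients (`corSurj_pGroup`,
`corSurj_triv`). So the steps of index `p` (`StepSurj`) imply the general case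
(`corSurj_of_step`).
-/

set_option autoImplicit false

noncomputable section

open scoped Classical

universe u v

namespace FermatAgent.CFT.Coh

/-- An abelian group with trivial action. -/
def Triv (_Γ : Type u) (A : Type v) := A

namespace Triv

variable {Γ : Type u} [Group Γ] {A : Type v} [AddCommGroup A]

instance : AddCommGroup (Triv Γ A) := inferInstanceAs (AddCommGroup A)

instance {R : Type*} [Semiring R] [Module R A] : Module R (Triv Γ A) :=
  inferInstanceAs (Module R A)

instance : DistribMulAction Γ (Triv Γ A) where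
  smul _ a := a
  one_smul _ := rfl
  mul_smul _ _ _ := rfl
  smul_zero _ := rfl
  smul_add _ _ _ := rfl

@[simp] lemma smul_eq (g : Γ) (a : Triv Γ A) : g • a = a := rfl

end Triv

namespace Ind

variable {Γ : Type u} [Group Γ] {U P : Subgroup Γ} (h : U ≤ P) {M : Type v} [AddCommGroup M]
  [DistribMulAction Γ M]

/-- Projection of cosets. -/
def proj : Γ ⧸ U → Γ ⧸ P :=
  Quotient.map' id fun _ _ hab => by
    rw [QuotientGroup.leftRel_apply] at hab ⊢
    exact h hab

/-- The projection of a coset. -/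
@[simp] lemma proj_coe (g : Γ) : proj h (g : Γ ⧸ U) = (g : Γ ⧸ P) := rfl

/-- The projection is equivariant. -/
lemma proj_smul (g : Γ) (c : Γ ⧸ U) : proj h (g • c) = g • proj h c := by
  induction c using QuotientGroup.induction_on with
  | _ x => rfl

variable [U.FiniteIndex]

/-- Summation along the fibres. -/
def fibreSum : Ind U M →+ Ind P M where
  toFun φ := mk P fun d => ∑ c ∈ Finset.univ.filter (fun c => proj h c = d), φ c
  map_zero' := ext fun _ => Finset.sum_eq_zero fun _ _ => rfl
  map_add' _ _ := ext fun _ => Finset.sum_add_distrib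

omit [DistribMulAction Γ M] in
/-- The fibre sum at a coset. -/
lemma fibreSum_apply (φ : Ind U M) (d : Γ ⧸ P) :
    fibreSum h φ d = ∑ c ∈ Finset.univ.filter (fun c => proj h c = d), φ c := rfl

/-- The fibre sum is equivariant. -/
lemma fibreSum_smul (g : Γ) (φ : Ind U M) : fibreSum h (g • φ) = g • fibreSum h φ := by
  refine ext fun d => ?_
  rw [fibreSum_apply, smul_apply, fibreSum_apply, Finset.smul_sum]
  refine Finset.sum_equiv (MulAction.toPerm g⁻¹) (fun c => ?_) fun c _ => rfl
  simp only [Finset.mem_filter, Finset.mem_univ, true_and, MulAction.toPerm_apply, proj_smul]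
  exact (MulAction.injective g⁻¹).eq_iff.symm

omit [DistribMulAction Γ M] in
/-- The fibre sum preserves the total. -/
lemma total_fibreSum [P.FiniteIndex] (φ : Ind U M) : total (fibreSum h φ) = total φ := by
  simp only [total_apply, fibreSum_apply]
  exact Finset.sum_fiberwise Finset.univ (proj h) fun c => φ c

end Ind

section CorSurj

variable {Γ : Type u} [Group Γ] (L : Levels Γ) (U : Subgroup Γ) [U.FiniteIndex]

/-- Every degree two class is the corestriction of a class on `U`. -/
def CorSurj (M : Type v) [AddCommGroup M] [DistribMulAction Γ M] : Prop :=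
  ∀ f ∈ L.Z2 ⊤ M, ∃ F ∈ L.Z2 ⊤ (Ind U M), (f - fun g k => Ind.total (F g k)) ∈ L.B2 ⊤ M

variable {L U}

/-- Pullbacks of levels compose. -/
lemma Levels.comap_comap {Δ Δ' : Type*} [Group Δ] [Group Δ'] (e : Δ →* Γ) (i : Δ' →* Δ) :
    (L.comap e).comap i = L.comap (e.comp i) := by
  have : ((L.comap e).comap i).carrier = (L.comap (e.comp i)).carrier := by
    ext W
    constructor
    · rintro ⟨V', ⟨V, hV, hle, -⟩, hle', hf⟩
      exact ⟨V, hV, le_trans (by rw [← Subgroup.comap_comap]; exact Subgroup.comap_mono hle) hle',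
        hf⟩
    · rintro ⟨V, hV, hle, hf⟩
      exact ⟨V.comap e, L.comap_mem e hV, by rwa [Subgroup.comap_comap], hf⟩
  cases h : (L.comap e).comap i
  cases h' : L.comap (e.comp i)
  simp only [h, h'] at this
  subst this
  rfl

omit [U.FiniteIndex] in
/-- A module fixed by a level is smooth. -/
lemma smooth_of_trivial_on {M : Type v} [AddCommGroup M] [DistribMulAction Γ M] (hU : U ∈ L)
    (h : ∀ g ∈ U, ∀ m : M, g • m = m) : L.Smooth M :=
  fun m => ⟨U, hU, fun g hg => h g hg m⟩

/-- A coboundary on a subgroup seen from inside is a coboundary. -/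
lemma mem_B2_of_subtype {P : Subgroup Γ} {M : Type v} [AddCommGroup M] [DistribMulAction Γ M]
    {f : Γ → Γ → M}
    (h : (fun g k : P => f g k) ∈ (L.comap P.subtype).B2 ⊤ M) : f ∈ L.B2 P M := by
  obtain ⟨c, ⟨V', ⟨V, hV, hle, -⟩, hc⟩, hfc⟩ := h
  refine ⟨fun g => if hg : g ∈ P then c ⟨g, hg⟩ else 0, ⟨V, hV, fun g hg s hs => ?_⟩,
    fun g hg k hk => ?_⟩
  · dsimp only
    rw [dif_pos (show g * s ∈ P from mul_mem hg hs.1), dif_pos hg]
    exact hc ⟨g, hg⟩ trivial ⟨s, hs.1⟩ ⟨trivial, hle hs.2⟩
  · have := hfc ⟨g, hg⟩ trivial ⟨k, hk⟩ trivial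
    simp only [d1] at this ⊢
    rw [dif_pos hk, dif_pos (mul_mem hg hk), dif_pos hg]
    exact this

lemma extend_mem_Z2 {P : Subgroup Γ} {U' : Subgroup Γ} (hU' : U' ≤ P) {M : Type v}
    [AddCommGroup M] [DistribMulAction Γ M] {f : P → P → M}
    (h : f ∈ (L.comap P.subtype).Z2 (U'.subgroupOf P) M) :
    (fun g k : Γ => if hgk : g ∈ P ∧ k ∈ P then f ⟨g, hgk.1⟩ ⟨k, hgk.2⟩ else 0) ∈ L.Z2 U' M := by
  obtain ⟨⟨V', ⟨V, hV, hle, -⟩, hc⟩, hcoc⟩ := h
  refine ⟨⟨V, hV, fun g hg k hk s hs t ht => ?_⟩, fun g hg k hk j hj => ?_⟩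
  · have hgs : g * s ∈ P ∧ k * t ∈ P := ⟨hU' (mul_mem hg hs.1), hU' (mul_mem hk ht.1)⟩
    dsimp only
    rw [dif_pos hgs, dif_pos (⟨hU' hg, hU' hk⟩ : g ∈ P ∧ k ∈ P)]
    exact hc ⟨g, hU' hg⟩ hg ⟨k, hU' hk⟩ hk ⟨s, hU' hs.1⟩ ⟨hs.1, hle hs.2⟩ ⟨t, hU' ht.1⟩
      ⟨ht.1, hle ht.2⟩
  · have := hcoc ⟨g, hU' hg⟩ hg ⟨k, hU' hk⟩ hk ⟨j, hU' hj⟩ hj
    simp only [d2] at this ⊢
    rw [dif_pos ⟨hU' hk, hU' hj⟩, dif_pos ⟨hU' (mul_mem hg hk), hU' hj⟩,
      dif_pos ⟨hU' hg, hU' (mul_mem hk hj)⟩, dif_pos ⟨hU' hg, hU' hk⟩]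
    exact this

variable {P : Subgroup Γ} (hUP : U ≤ P) {M : Type v} [AddCommGroup M] [DistribMulAction Γ M]

/-- Transitivity: corestriction surjectivity inside `P` lifts classes on `P`. -/
lemma exists_fibreSum_eval (hU : U ∈ L) (hM : L.Smooth M)
    [(U.subgroupOf P).FiniteIndex] (hsurj : CorSurj (L.comap P.subtype) (U.subgroupOf P) M)
    {f : Γ → Γ → M} (hf : f ∈ L.Z2 P M) :
    ∃ F ∈ L.Z2 ⊤ (Ind U M),
      (f - fun g k => Ind.fibreSum hUP (F g k) ((1 : Γ) : Γ ⧸ P)) ∈ L.B2 P M := by
  set LP := L.comap P.subtype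
  have hU' : U.subgroupOf P ∈ LP := L.comap_mem _ hU
  have hMP : LP.Smooth M := fun m => by
    obtain ⟨V, hV, h⟩ := hM m
    exact ⟨V.comap P.subtype, L.comap_mem _ hV, fun s hs => h _ hs⟩
  have hf' : (fun g k : P => f g k) ∈ LP.Z2 ⊤ M :=
    Levels.pullback_mem_Z2 P.subtype (fun _ _ => rfl) (fun d _ => d.2) hf
  obtain ⟨G, hG, hGf⟩ := hsurj _ hf'
  set h0 : Γ → Γ → M := fun g k =>
    if hgk : g ∈ P ∧ k ∈ P then
      G ⟨g, hgk.1⟩ ⟨k, hgk.2⟩ ((1 : P) : P ⧸ U.subgroupOf P) else 0
  have hh0 : h0 ∈ L.Z2 U M := extend_mem_Z2 hUP (eval_mem_Z2 hG)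
  set F := indFun2 U h0
  have hF : F ∈ L.Z2 ⊤ (Ind U M) := indFun2_mem_Z2 hU hh0
  refine ⟨F, hF, mem_B2_of_subtype ?_⟩
  -- restriction of induced modules
  let emb : P ⧸ U.subgroupOf P → Γ ⧸ U := Quotient.map' (fun x : P => (x : Γ)) fun a b hab => by
    rw [QuotientGroup.leftRel_apply] at hab ⊢
    exact hab
  have hemb_smul : ∀ (d : P) (c : P ⧸ U.subgroupOf P),
      emb (d • c) = (d : Γ) • emb c := fun d c => by
    induction c using QuotientGroup.induction_on with
    | _ x => rfl
  let ρ : Ind U M →+ Ind (U.subgroupOf P) M :=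
    { toFun := fun φ => Ind.mk _ fun c => φ (emb c)
      map_zero' := rfl
      map_add' := fun _ _ => rfl }
  have hρ : ∀ (d : P) (φ : Ind U M), ρ ((d : Γ) • φ) = d • ρ φ := fun d φ => Ind.ext fun c => by
    show (d : Γ) • φ ((d : Γ)⁻¹ • emb c) = d • φ (emb (d⁻¹ • c))
    rw [hemb_smul]
    rfl
  have htot : ∀ φ : Ind U M, Ind.total (ρ φ) = Ind.fibreSum hUP φ ((1 : Γ) : Γ ⧸ P) := fun φ => by
    rw [Ind.total_apply, Ind.fibreSum_apply]
    refine Finset.sum_bij (fun c _ => emb c) (fun c _ => ?_) (fun a _ b _ hab => ?_)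
      (fun c hc => ?_) fun c _ => rfl
    · induction c using QuotientGroup.induction_on with
      | _ x =>
        simp only [Finset.mem_filter, Finset.mem_univ, true_and]
        show ((x : Γ) : Γ ⧸ P) = ((1 : Γ) : Γ ⧸ P)
        rw [QuotientGroup.eq, mul_one]
        exact inv_mem x.2
    · induction a using QuotientGroup.induction_on with
      | _ x =>
        induction b using QuotientGroup.induction_on with
        | _ y =>
          have : ((x : Γ) : Γ ⧸ U) = ((y : Γ) : Γ ⧸ U) := hab
          rw [QuotientGroup.eq] at this ⊢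
          exact this
    · induction c using QuotientGroup.induction_on with
      | _ x =>
        have hx : ((x : Γ) : Γ ⧸ P) = ((1 : Γ) : Γ ⧸ P) := (Finset.mem_filter.mp hc).2
        rw [QuotientGroup.eq, mul_one, inv_mem_iff] at hx
        exact ⟨((⟨x, hx⟩ : P) : P ⧸ U.subgroupOf P), Finset.mem_univ _, rfl⟩
  set ρF : P → P → Ind (U.subgroupOf P) M := fun g k => ρ (F g k)
  have hρF : ρF ∈ LP.Z2 ⊤ (Ind (U.subgroupOf P) M) := by
    refine ⟨((hF.1.mono le_top).comp ρ).pullback P.subtype (fun d _ => d.2),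
      fun g _ k _ j _ => ?_⟩
    have hd := hF.2 (g : Γ) trivial (k : Γ) trivial (j : Γ) trivial
    have := congrArg ρ hd
    simp only [d2, map_add, map_sub, hρ, map_zero] at this
    exact this
  have hsm : LP.Smooth (Ind (U.subgroupOf P) M) := smooth_ind hU' hMP
  have hdiff : ρF - G ∈ LP.B2 ⊤ (Ind (U.subgroupOf P) M) := by
    refine mem_B2_of_eval_eq_zero hU' (sub_mem hρF hG) fun u hu w hw => ?_
    show indFun2 U h0 (u : Γ) (w : Γ) ((1 : Γ) : Γ ⧸ U) - G u w ((1 : P) : P ⧸ U.subgroupOf P) = 0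
    rw [indFun2_one_coset U _ (show (u : Γ) ∈ U from hu) (show (w : Γ) ∈ U from hw), sub_eq_zero]
    simp [h0]
  have := Levels.map_mem_B2 Ind.total (fun d _ φ => Ind.total_smul d φ) hdiff
  refine Levels.B2_congr (sub_mem hGf this) fun g _ k _ => ?_
  show f g k - Ind.fibreSum hUP (F g k) _ = f g k - Ind.total (G g k) -
    Ind.total (ρ (F g k) - G g k)
  rw [map_sub, htot]
  abel

/-- Corestriction surjectivity is transitive. -/
lemma corSurj_trans (hU : U ∈ L) (hP : P ∈ L) [P.FiniteIndex] (hM : L.Smooth M) (hle : U ≤ P)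
    [(U.subgroupOf P).FiniteIndex] (h1 : CorSurj L P M)
    (h2 : CorSurj (L.comap P.subtype) (U.subgroupOf P) M) : CorSurj L U M := by
  intro f hf
  obtain ⟨F1, hF1, h1f⟩ := h1 f hf
  obtain ⟨F, hF, hF'⟩ := exists_fibreSum_eval hle hU hM h2 (eval_mem_Z2 hF1)
  refine ⟨F, hF, ?_⟩
  have hπ : (fun g k => Ind.fibreSum hle (F g k)) ∈ L.Z2 ⊤ (Ind P M) :=
    Levels.map_mem_Z2 _ (fun g _ => Ind.fibreSum_smul hle g) hF
  have h := mem_B2_of_eval_mem_B2 hP (smooth_ind hP hM) (sub_mem hF1 hπ) hF'
  refine Levels.B2_congr (add_mem h1f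
    (Levels.map_mem_B2 Ind.total (fun g _ φ => Ind.total_smul g φ) h)) fun g _ k _ => ?_
  show f g k - Ind.total (F g k) = f g k - Ind.total (F1 g k) +
    Ind.total (F1 g k - Ind.fibreSum hle (F g k))
  rw [map_sub, Ind.total_fibreSum]
  abel

end CorSurj

section Devissage

variable {Γ : Type u} [Group Γ] {L : Levels Γ} {p : ℕ} [hp : Fact p.Prime]

/-- Corestriction surjectivity from an index prime to `p`. -/
lemma corSurj_of_coprime {P : Subgroup Γ} [P.FiniteIndex] {M : Type v} [AddCommGroup M]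
    [Module (ZMod p) M] [DistribMulAction Γ M] (hidx : ¬ p ∣ P.index) : CorSurj L P M := by
  intro f hf
  set a : ℕ := (P.index : ZMod p)⁻¹.val
  let ι : M →+ Ind P M :=
    { toFun := fun m => Ind.mk P fun _ => a • m
      map_zero' := Ind.ext fun _ => smul_zero _
      map_add' := fun m n => Ind.ext fun _ => smul_add _ _ _ }
  have hι : ∀ (g : Γ) m, ι (g • m) = g • ι m := fun g m =>
    Ind.ext fun _ => ((DistribSMul.toAddMonoidHom M g).map_nsmul _ _).symm
  refine ⟨fun g k => ι (f g k), Levels.map_mem_Z2 ι (fun g _ => hι g) hf,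
    Levels.B2_congr (zero_mem _) fun g _ k _ => ?_⟩
  show f g k - ∑ _c : Γ ⧸ P, a • f g k = 0
  rw [Finset.sum_const, Finset.card_univ, ← Nat.card_eq_fintype_card,
    ← Subgroup.index_eq_card, ← mul_nsmul, ← Nat.cast_smul_eq_nsmul (ZMod p), Nat.cast_mul,
    ZMod.natCast_zmod_val, inv_mul_cancel₀, one_smul, sub_self]
  rwa [Ne, ZMod.natCast_eq_zero_iff]

/-- The hypothesis that all index `p` steps inside embedded groups are surjective. -/
def StepSurj (L : Levels Γ) (p : ℕ) (U : Subgroup Γ) : Prop :=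
  ∀ (Δ : Type u) [Group Δ] (e : Δ →* Γ), Function.Injective e → e.range ∈ L → U ≤ e.range →
    ∀ (V : Subgroup Δ) [V.FiniteIndex], V.Normal → V.index = p → V ∈ L.comap e → U ≤ V.map e →
      CorSurj (L.comap e) V (Triv Δ (ZMod p))

omit hp in
lemma StepSurj.comap {U : Subgroup Γ} (h : StepSurj L p U) {Δ : Type u} [Group Δ]
    (e : Δ →* Γ) (he : Function.Injective e) (hr : e.range ∈ L) (hUr : U ≤ e.range) :
    StepSurj (L.comap e) p (U.comap e) := by
  intro Δ' _ i hi hir hUi V _ hVn hVp hVL hUV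
  rw [Levels.comap_comap] at hVL ⊢
  have hle : U ≤ (e.comp i).range := fun x hx => by
    obtain ⟨y, rfl⟩ := hUr hx
    obtain ⟨z, rfl⟩ := hUi (show y ∈ U.comap e from hx)
    exact ⟨z, rfl⟩
  refine h Δ' (e.comp i) (he.comp hi) ?_ hle V hVn hVp hVL fun x hx => ?_
  · obtain ⟨W, hW, hWle, -⟩ := hir
    have := L.finiteIndex hW
    have hsub : W ⊓ e.range ≤ (e.comp i).range := fun x hx => by
      obtain ⟨y, rfl⟩ := hx.2
      obtain ⟨z, rfl⟩ := hWle (show y ∈ W.comap e from hx.1)
      exact ⟨z, rfl⟩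
    exact Levels.mem_of_le (L.inf_mem hW hr) hsub
  · obtain ⟨y, rfl⟩ := hUr hx
    obtain ⟨z, hz, rfl⟩ := hUV (show y ∈ U.comap e from hx)
    exact ⟨z, hz, rfl⟩

/-- The case of trivial coefficients and a quotient which is a `p`-group. -/
lemma corSurj_triv (n : ℕ) : ∀ {Γ : Type u} [Group Γ] {L : Levels Γ} (U : Subgroup Γ)
    [U.FiniteIndex], U.Normal → U ∈ L → U.index = p ^ n → StepSurj L p U →
      CorSurj L U (Triv Γ (ZMod p)) := by
  induction n using Nat.strong_induction_on with
  | _ n ih =>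
    intro Γ _ L U _ hUn hU hidx hstep
    rcases Nat.eq_zero_or_pos n with rfl | hn
    · refine corSurj_of_coprime (p := p) ?_
      rw [hidx, pow_zero, Nat.dvd_one]
      exact hp.out.ne_one
    · have := hUn
      have hcard : Nat.card (Γ ⧸ U) = p ^ n := hidx
      have hpg : IsPGroup p (Γ ⧸ U) := IsPGroup.of_card hcard
      have : Finite (Γ ⧸ U) := Subgroup.finite_quotient_of_finiteIndex
      have : Nontrivial (Γ ⧸ U) := Finite.one_lt_card_iff_nontrivial.mp
        (by rw [hcard]; exact Nat.one_lt_pow hn.ne' hp.out.one_lt)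
      have := hpg.center_nontrivial
      obtain ⟨m, hmc⟩ := IsPGroup.iff_card.mp (hpg.to_subgroup (Subgroup.center (Γ ⧸ U)))
      have hm : 0 < m := Nat.pos_of_ne_zero fun h => by
        rw [h, pow_zero] at hmc
        exact absurd hmc (ne_of_gt Finite.one_lt_card)
      obtain ⟨z, hz⟩ := exists_prime_orderOf_dvd_card' (G := Subgroup.center (Γ ⧸ U)) p
        (by rw [hmc]; exact dvd_pow_self p hm.ne')
      let C : Subgroup (Γ ⧸ U) := Subgroup.zpowers (z : Γ ⧸ U)
      have hCn : C.Normal := ⟨fun x hx g => by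
        have hx' : x ∈ Subgroup.center (Γ ⧸ U) := Subgroup.zpowers_le.mpr z.2 hx
        rwa [Subgroup.mem_center_iff.mp hx' g, mul_inv_cancel_right]⟩
      set P : Subgroup Γ := C.comap (QuotientGroup.mk' U)
      have hUP : U ≤ P := fun x hx => by
        show QuotientGroup.mk' U x ∈ C
        rw [QuotientGroup.mk'_apply, (QuotientGroup.eq_one_iff x).mpr hx]; exact one_mem C
      have : P.FiniteIndex := Subgroup.finiteIndex_of_le hUP
      have hPL : P ∈ L := Levels.mem_of_le hU hUP
      have hCcard : Nat.card C = p := by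
        rw [Nat.card_zpowers, Subgroup.orderOf_coe, hz]
      have hrel : U.relIndex P = p := by
        have h1 : U = (⊥ : Subgroup (Γ ⧸ U)).comap (QuotientGroup.mk' U) := by
          ext x; simp
        conv_lhs => rw [h1]
        rw [Subgroup.relIndex_comap, Subgroup.map_comap_eq_self_of_surjective
          (QuotientGroup.mk'_surjective U), Subgroup.relIndex_bot_left, hCcard]
      have : (U.subgroupOf P).FiniteIndex := ⟨by
        show U.relIndex P ≠ 0
        rw [hrel]; exact hp.out.ne_zero⟩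
      refine corSurj_trans hU hPL (smooth_of_trivial_on hU fun g _ m => rfl) hUP ?_ ?_
      · have hPidx : P.index = p ^ (n - 1) := by
          have h := Subgroup.relIndex_mul_index hUP
          rw [hrel, hidx] at h
          refine Nat.eq_of_mul_eq_mul_left hp.out.pos (h.trans ?_)
          rw [← pow_succ', Nat.sub_add_cancel hn]
        refine ih (n - 1) (Nat.sub_lt hn one_pos) P (hCn.comap _) hPL hPidx ?_
        intro Δ _ e he hr hUr V _ h1 h2 h3 h4
        exact hstep Δ e he hr (hUP.trans hUr) V h1 h2 h3 (hUP.trans h4)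
      · exact hstep P P.subtype Subtype.val_injective (by rwa [Subgroup.range_subtype])
          (by rwa [Subgroup.range_subtype]) (U.subgroupOf P) inferInstance hrel (L.comap_mem _ hU)
          (by rw [Subgroup.subgroupOf_map_subtype]; exact le_inf le_rfl hUP)

/-- Coefficients with a trivial action on a normal subgroup with `p`-group quotient. -/
lemma corSurj_pGroup {U : Subgroup Γ} [U.FiniteIndex] (hUn : U.Normal) (hU : U ∈ L) {n : ℕ}
    (hidx : U.index = p ^ n) (hstep : StepSurj L p U) (N : ℕ) :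
    ∀ (M : Type v) [AddCommGroup M] [Module (ZMod p) M] [Finite M] [DistribMulAction Γ M],
      Nat.card M = N → (∀ g ∈ U, ∀ m : M, g • m = m) → CorSurj L U M := by
  induction N using Nat.strong_induction_on with
  | _ N ih =>
    intro M _ _ _ _ hN htriv f hf
    rcases subsingleton_or_nontrivial M with hs | hnt
    · exact ⟨0, zero_mem _, Levels.B2_congr (zero_mem _) fun g _ k _ => Subsingleton.elim _ _⟩
    -- a fixed vector
    have := hUn
    let : MulAction (Γ ⧸ U) M :=
      { smul := fun q m => Quotient.liftOn' q (fun g => g • m) fun a b hab => by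
          rw [QuotientGroup.leftRel_apply] at hab
          show a • m = b • m
          rw [show b = a * (a⁻¹ * b) by group, mul_smul, htriv _ hab]
        one_smul := fun m => one_smul Γ m
        mul_smul := fun q q' m => by
          induction q using QuotientGroup.induction_on
          induction q' using QuotientGroup.induction_on
          exact mul_smul _ _ m }
    have hpg : IsPGroup p (Γ ⧸ U) := IsPGroup.of_card hidx
    have : Finite (Γ ⧸ U) := Subgroup.finite_quotient_of_finiteIndex
    have hdvd : p ∣ Nat.card M := by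
      obtain ⟨x, hx⟩ := exists_ne (0 : M)
      refine dvd_trans ?_ (addOrderOf_dvd_natCard x)
      rw [addOrderOf_eq_prime (p := p) (by rw [← Nat.cast_smul_eq_nsmul (ZMod p), ZMod.natCast_self,
        zero_smul]) hx]
    obtain ⟨m0, hm0, hm0ne⟩ := hpg.exists_fixed_point_of_prime_dvd_card_of_fixed_point M hdvd
      (a := (0 : M)) (fun q => by
        induction q using QuotientGroup.induction_on with
        | _ g => exact smul_zero g)
    have hfix : ∀ g : Γ, g • m0 = m0 := fun g => hm0 (g : Γ ⧸ U)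
    let i : Triv Γ (ZMod p) →+ M := (LinearMap.toSpanSingleton (ZMod p) M m0).toAddMonoidHom
    have hi : ∀ (g : Γ) k, i (g • k) = g • i k := fun g k => by
      have hn : ∀ j : ℕ, g • (j • m0) = j • m0 := fun j =>
        (map_nsmul (DistribSMul.toAddMonoidHom M g) j m0).trans
          (congrArg (j • ·) (hfix g))
      have hv : ∀ a : ZMod p, a • m0 = g • (a • m0) := fun a => by
        rw [← ZMod.natCast_zmod_val a, Nat.cast_smul_eq_nsmul, hn]
      exact hv k
    have hiinj : Function.Injective i := smul_left_injective (ZMod p) (Ne.symm hm0ne)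
    set ℓ : Submodule (ZMod p) M := Submodule.span (ZMod p) {m0}
    have hℓ : ∀ (g : Γ) (m : M), m ∈ ℓ → g • m ∈ ℓ := fun g m hm => by
      obtain ⟨k, rfl⟩ := Submodule.mem_span_singleton.mp hm
      refine Submodule.mem_span_singleton.mpr ⟨k, ?_⟩
      exact hi g (show Triv Γ (ZMod p) from k)
    let : DistribMulAction Γ (M ⧸ ℓ) :=
      { smul := fun g => Quotient.map' (fun m => g • m) fun a b hab => by
          rw [Submodule.quotientRel_def] at hab ⊢
          show g • a - g • b ∈ ℓ
          rw [← smul_sub]; exact hℓ g _ hab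
        one_smul := fun x => Quotient.inductionOn' x fun m => congrArg Quotient.mk'' (one_smul Γ m)
        mul_smul := fun g h x => Quotient.inductionOn' x fun m =>
          congrArg Quotient.mk'' (mul_smul g h m)
        smul_zero := fun g => congrArg Quotient.mk'' (smul_zero g)
        smul_add := fun g x y => Quotient.inductionOn₂' x y fun a b =>
          congrArg Quotient.mk'' (smul_add g a b) }
    have : Finite (M ⧸ ℓ) := Finite.of_surjective _ ℓ.mkQ_surjective
    let q : M →+ M ⧸ ℓ := ℓ.mkQ.toAddMonoidHom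
    have hq : ∀ (g : Γ) m, q (g • m) = g • q m := fun g m => rfl
    have hlt : Nat.card (M ⧸ ℓ) < N := by
      subst hN
      have h1 : (Submodule.span (ZMod p) {m0}).toAddSubgroup ≠ ⊥ := fun h => hm0ne (by
        have : m0 ∈ (Submodule.span (ZMod p) {m0}).toAddSubgroup :=
          Submodule.mem_span_singleton_self m0
        rw [h] at this; exact this.symm)
      have h2 := AddSubgroup.card_eq_card_quotient_mul_card_addSubgroup ℓ.toAddSubgroup
      have h3 : 1 < Nat.card ℓ.toAddSubgroup := (AddSubgroup.one_lt_card_iff_ne_bot _).mpr h1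
      have h4 : 0 < Nat.card (M ⧸ ℓ) := Nat.card_pos
      rw [h2]
      exact lt_mul_of_one_lt_right h4 h3
    obtain ⟨G, hG, hGf⟩ := ih _ hlt (M ⧸ ℓ) rfl
      (fun g hg x => Quotient.inductionOn' x fun m => congrArg Quotient.mk'' (htriv g hg m))
      (fun g k => q (f g k)) (Levels.map_mem_Z2 q (fun g _ => hq g) hf)
    obtain ⟨σ, hσ⟩ := ℓ.mkQ.exists_rightInverse_of_surjective ℓ.range_mkQ
    have hσ' : ∀ g ∈ U, ∀ x : M ⧸ ℓ, σ.toAddMonoidHom (g • x) = g • σ.toAddMonoidHom x :=
      fun g hg x => by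
        have : g • x = x := Quotient.inductionOn' x fun m => congrArg Quotient.mk'' (htriv g hg m)
        rw [this, htriv g hg]
    set h' : Γ → Γ → M := fun g k => σ (G g k ((1 : Γ) : Γ ⧸ U))
    set F := indFun2 U h'
    have hF : F ∈ L.Z2 ⊤ (Ind U M) :=
      indFun2_mem_Z2 hU (Levels.map_mem_Z2 σ.toAddMonoidHom hσ' (eval_mem_Z2 hG))
    have hsmM : L.Smooth M := smooth_of_trivial_on hU htriv
    have hsmQ : L.Smooth (M ⧸ ℓ) := fun x => Quotient.inductionOn' x fun m => by
      exact ⟨U, hU, fun g hg => congrArg Quotient.mk'' (htriv g hg m)⟩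
    have hqF : (fun g k => Ind.map q (F g k)) = indFun2 U fun g k => G g k ((1 : Γ) : Γ ⧸ U) := by
      funext g k
      refine Ind.ext fun c => ?_
      simp only [F, indFun2, Ind.map_apply, Ind.mk_apply, hq, h']
      congr 1
      exact LinearMap.congr_fun hσ _
    have hker : (fun g k => q ((f - fun a b => Ind.total (F a b)) g k)) ∈ L.B2 ⊤ (M ⧸ ℓ) := by
      have h1 := Levels.map_mem_B2 Ind.total (fun g _ φ => Ind.total_smul g φ)
        (sub_indFun2_mem_B2 hU (smooth_ind hU hsmQ) hG)
      refine Levels.B2_congr (add_mem hGf h1) fun g _ k _ => ?_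
      show q (f g k - Ind.total (F g k)) = q (f g k) - Ind.total (G g k) +
        Ind.total (G g k - indFun2 U (fun a b => G a b ((1 : Γ) : Γ ⧸ U)) g k)
      rw [map_sub, map_sub, ← congrFun (congrFun hqF g) k, Ind.total_apply (Ind.map q (F g k)),
        Ind.total_apply (F g k), map_sum]
      simp only [Ind.map_apply]
      abel
    obtain ⟨e, he, hef⟩ :=
      Levels.exists_kernel_lift (U := ⊤) i q (fun g _ => hi g) (fun g _ => hq g)
      hiinj ℓ.mkQ_surjective (fun b hb => by
        obtain ⟨k, hk⟩ := Submodule.mem_span_singleton.mp ((Submodule.Quotient.mk_eq_zero ℓ).mp hb)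
        exact ⟨k, hk⟩) hsmM
      (sub_mem hf (Levels.map_mem_Z2 Ind.total (fun g _ φ => Ind.total_smul g φ) hF)) hker
    obtain ⟨E, hE, hEe⟩ := corSurj_triv n U hUn hU hidx hstep e he
    refine ⟨F + fun g k => Ind.map i (E g k),
      add_mem hF (Levels.map_mem_Z2 (Ind.map i) (fun g _ => Ind.map_smul i hi g) hE),
      Levels.B2_congr (add_mem hef (Levels.map_mem_B2 i (fun g _ => hi g) hEe)) fun g _ k _ => ?_⟩
    show f g k - Ind.total (F g k + Ind.map i (E g k)) =
      f g k - Ind.total (F g k) - i (e g k) + i (e g k - Ind.total (E g k))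
    rw [map_add, map_sub, Ind.total_apply (Ind.map i (E g k)), Ind.total_apply (E g k), map_sum]
    simp only [Ind.map_apply]
    abel

/-- Corestriction is surjective in degree two, given all steps of index `p`. -/
theorem corSurj_of_step {U : Subgroup Γ} [U.FiniteIndex] (hUn : U.Normal) (hU : U ∈ L)
    (hstep : StepSurj L p U) (M : Type v) [AddCommGroup M] [Module (ZMod p) M] [Finite M]
    [DistribMulAction Γ M] (htriv : ∀ g ∈ U, ∀ m : M, g • m = m) : CorSurj L U M := by
  have := hUn
  have : Finite (Γ ⧸ U) := Subgroup.finite_quotient_of_finiteIndex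
  let Q : Sylow p (Γ ⧸ U) := default
  set P : Subgroup Γ := (Q : Subgroup (Γ ⧸ U)).comap (QuotientGroup.mk' U)
  have hUP : U ≤ P := fun x hx => by
    show QuotientGroup.mk' U x ∈ (Q : Subgroup (Γ ⧸ U))
    rw [QuotientGroup.mk'_apply, (QuotientGroup.eq_one_iff x).mpr hx]; exact one_mem _
  have : P.FiniteIndex := Subgroup.finiteIndex_of_le hUP
  have hPidx : P.index = (Q : Subgroup (Γ ⧸ U)).index :=
    Subgroup.index_comap_of_surjective _ (QuotientGroup.mk'_surjective U)
  have hPL : P ∈ L := Levels.mem_of_le hU hUP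
  obtain ⟨n, hn⟩ := IsPGroup.iff_card.mp Q.isPGroup'
  have hrel : U.relIndex P = p ^ n := by
    have h1 : U = (⊥ : Subgroup (Γ ⧸ U)).comap (QuotientGroup.mk' U) := by
      ext x; simp
    conv_lhs => rw [h1]
    rw [Subgroup.relIndex_comap, Subgroup.map_comap_eq_self_of_surjective
      (QuotientGroup.mk'_surjective U), Subgroup.relIndex_bot_left, hn]
  have : (U.subgroupOf P).FiniteIndex := ⟨by
    show U.relIndex P ≠ 0
    rw [hrel]; exact pow_ne_zero _ hp.out.ne_zero⟩
  refine corSurj_trans hU hPL (smooth_of_trivial_on hU htriv) hUP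
    (corSurj_of_coprime (p := p) (by rw [hPidx]; exact Q.not_dvd_index)) ?_
  have : (U.comap P.subtype).FiniteIndex := inferInstanceAs (U.subgroupOf P).FiniteIndex
  exact corSurj_pGroup (L := L.comap P.subtype) (U := U.subgroupOf P) inferInstance
    (L.comap_mem _ hU) hrel
    (hstep.comap P.subtype Subtype.val_injective (by rwa [Subgroup.range_subtype])
      (by rwa [Subgroup.range_subtype])) (Nat.card M) M rfl
    fun g hg m => htriv _ hg m

end Devissage

end FermatAgent.CFT.Coh
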