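import Fermat.Agent.CFT.Coh.Herbrand

/-!
The index of multiples of `p` in an abelian group, along exact sequences.
-/

set_option autoImplicit false

namespace FermatAgent.CFT.Coh

open AddSubgroup

variable {A C : Type*} [AddCommGroup A] [AddCommGroup C] (p : ℕ)

/-- The index of the multiples of `p`. -/
noncomputable def pIndex (Y : AddSubgroup A) : ℕ := (Y.map (nsmulAddMonoidHom p)).relIndex Y

/-- The number of elements killed by `p`. -/
noncomputable def pTors (Y : AddSubgroup A) : ℕ :=
  Nat.card ↥(Y ⊓ (nsmulAddMonoidHom p : A →+ A).ker)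

lemma hIdx_zero_nsmul (Y : AddSubgroup A) : hIdx 0 (nsmulAddMonoidHom p) Y = pIndex p Y := by
  rw [hIdx, AddMonoidHom.ker_zero, inf_top_eq]; rfl

lemma hIdx_nsmul_zero (Y : AddSubgroup A) : hIdx (nsmulAddMonoidHom p) 0 Y = pTors p Y := by
  rw [hIdx, map_zero_eq_bot, relIndex_bot_left]; rfl

lemma map_nsmul_le_self (Y : AddSubgroup A) : Y.map (nsmulAddMonoidHom p) ≤ Y := by
  rintro _ ⟨a, ha, rfl⟩; exact nsmul_mem ha p

/-- Multiplicativity along an exact sequence. -/
theorem pIndex_mul (π : A →+ C) (X : AddSubgroup A) :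
    pTors p (X ⊓ π.ker) * pTors p (X.map π) * pIndex p X =
      pIndex p (X ⊓ π.ker) * pIndex p (X.map π) * pTors p X := by
  have h := hIdx_mul (f := (nsmulAddMonoidHom p : A →+ A)) (g := 0) (B := X ⊓ π.ker) (X := X)
    (fun _ _ => map_zero _) (fun _ _ => rfl) (map_nsmul_le_self p _)
    (by rw [map_zero_eq_bot]; exact bot_le) (map_nsmul_le_self p _)
    (by rw [map_zero_eq_bot]; exact bot_le) inf_le_left
  rw [qIdx_eq_of_map π (nsmulAddMonoidHom p) 0 (fun a _ => map_nsmul π p a) (fun a _ => map_zero π)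
      (by rw [map_zero_eq_bot]; exact bot_le) rfl (map_nsmul_le_self p _),
    qIdx_eq_of_map π 0 (nsmulAddMonoidHom p) (fun a _ => map_zero π) (fun a _ => map_nsmul π p a)
      (map_nsmul_le_self p _) rfl (by rw [map_zero_eq_bot]; exact bot_le)] at h
  simpa only [hIdx_zero_nsmul, hIdx_nsmul_zero] using h

/-- Passage to a subgroup of finite index. -/
theorem pIndex_of_finiteIndex {B X : AddSubgroup A} (hB : B ≤ X) (hfin : B.relIndex X ≠ 0) :
    pTors p B * pIndex p X = pIndex p B * pTors p X := by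
  have h := hIdx_mul (f := (nsmulAddMonoidHom p : A →+ A)) (g := 0) (B := B) (X := X)
    (fun _ _ => map_zero _) (fun _ _ => rfl) (map_nsmul_le_self p _)
    (by rw [map_zero_eq_bot]; exact bot_le) (map_nsmul_le_self p _)
    (by rw [map_zero_eq_bot]; exact bot_le) hB
  rw [qIdx_eq_qIdx_swap (f := (nsmulAddMonoidHom p : A →+ A)) (g := 0)
    (fun _ _ => map_zero _) (fun _ _ => rfl) (map_nsmul_le_self p _)
    (by rw [map_zero_eq_bot]; exact bot_le) (map_nsmul_le_self p _)
    (by rw [map_zero_eq_bot]; exact bot_le) hB hfin] at h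
  simp only [hIdx_zero_nsmul, hIdx_nsmul_zero] at h
  have hq : qIdx (0 : A →+ A) (nsmulAddMonoidHom p) B X ≠ 0 := by
    intro h0
    have h1 : B.relIndex (X ⊓ B.comap (0 : A →+ A)) ≠ 0 :=
      fun h' => hfin (relIndex_eq_zero_of_le_right inf_le_left h')
    exact h1 (relIndex_eq_zero_of_le_left le_sup_right h0)
  refine Nat.eq_of_mul_eq_mul_left (Nat.pos_of_ne_zero hq) ?_
  rw [mul_comm (qIdx _ _ _ _), mul_comm (qIdx _ _ _ _), mul_right_comm _ (pIndex p X),
    mul_right_comm _ (pTors p X)]
  exact h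

/-- A group without `p`-torsion has trivial torsion count. -/
lemma pTors_of_torsionFree {Y : AddSubgroup A} (h : ∀ a ∈ Y, p • a = 0 → a = 0) :
    pTors p Y = 1 := by
  rw [pTors, card_eq_one, eq_bot_iff_forall]
  exact fun a ha => h a ha.1 ha.2

/-- For finite groups the index of multiples of `p` is the torsion count. -/
lemma pTors_of_finite (Y : AddSubgroup A) [Finite Y] : pIndex p Y = pTors p Y := by
  have h := qIdx_eq_qIdx_swap (f := (nsmulAddMonoidHom p : A →+ A)) (g := 0) (B := ⊥) (X := Y)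
    (fun _ _ => map_zero _) (fun _ _ => rfl) (map_nsmul_le_self p _)
    (by rw [map_zero_eq_bot]; exact bot_le) (by rw [AddSubgroup.map_bot])
    (by rw [AddSubgroup.map_bot]) bot_le (by rw [relIndex_bot_left]; exact Nat.card_pos.ne')
  rw [← hIdx_eq_qIdx_bot, ← hIdx_eq_qIdx_bot, hIdx_zero_nsmul, hIdx_nsmul_zero] at h
  exact h.symm

/-- The free group on a finite type. -/
lemma pIndex_pi_top (ι : Type*) [Fintype ι] :
    pIndex p (⊤ : AddSubgroup (ι → ℤ)) = p ^ Fintype.card ι := by
  have e : (⊤ : AddSubgroup (ι → ℤ)).map (nsmulAddMonoidHom p) =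
      AddSubgroup.pi Set.univ fun _ : ι => zmultiples (p : ℤ) := by
    ext f
    simp only [AddSubgroup.mem_map, mem_top, true_and, AddSubgroup.mem_pi, Set.mem_univ,
      forall_true_left, mem_zmultiples_iff, nsmulAddMonoidHom_apply, smul_eq_mul]
    constructor
    · rintro ⟨g, rfl⟩ i
      exact ⟨g i, by simp [mul_comm]⟩
    · intro h
      choose g hg using h
      exact ⟨g, funext fun i => by simp [← hg i, mul_comm]⟩
  rw [pIndex, relIndex_top_right, e, index_pi]
  simp

section

variable [hp : Fact p.Prime]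

/-- Lattices have trivial torsion count. -/
lemma pTors_pi (ι : Type*) (Y : AddSubgroup (ι → ℤ)) : pTors p Y = 1 :=
  pTors_of_torsionFree p fun a _ h => funext fun i => by
    have := congrFun h i
    simpa [hp.out.ne_zero] using this

/-- A subgroup of finite index of a finitely generated free group. -/
lemma pIndex_of_finiteIndex_pi {ι : Type*} [Fintype ι] {Z : AddSubgroup (ι → ℤ)} (h : Z.index ≠ 0) :
    pIndex p Z = p ^ Fintype.card ι := by
  have h1 := pIndex_of_finiteIndex p (le_top : Z ≤ ⊤) (by rwa [relIndex_top_right])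
  rw [pTors_pi, pTors_pi, one_mul, mul_one, pIndex_pi_top] at h1
  exact h1.symm

end

/-- The index of multiples is invariant under injective maps. -/
lemma pIndex_map {f : A →+ C} (hf : Function.Injective f) (Y : AddSubgroup A) :
    pIndex p (Y.map f) = pIndex p Y := by
  rw [pIndex, pIndex, ← relIndex_map_map_of_injective _ _ hf, AddSubgroup.map_map,
    AddSubgroup.map_map]
  congr 2
  ext a
  simp

/-- The torsion count is invariant under injective maps. -/
lemma pTors_map {f : A →+ C} (hf : Function.Injective f) (Y : AddSubgroup A) :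
    pTors p (Y.map f) = pTors p Y := by
  rw [pTors, pTors, ← card_map_of_injective (K := Y ⊓ (nsmulAddMonoidHom p : A →+ A).ker) hf]
  congr 2
  rw [AddSubgroup.map_inf _ _ f hf]
  ext c
  constructor
  · rintro ⟨⟨a, ha, rfl⟩, hc⟩
    refine ⟨⟨a, ha, rfl⟩, a, ?_, rfl⟩
    show p • a = 0
    refine hf ?_
    rw [map_nsmul, map_zero]
    exact hc
  · rintro ⟨h, a, ha, rfl⟩
    refine ⟨h, ?_⟩
    show p • f a = 0
    rw [← map_nsmul, show p • a = 0 from ha, map_zero]

/-- Multiples by a positive integer have finite index if those by every prime do. -/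
lemma relIndex_nsmul_ne_zero {X : AddSubgroup A} (h : ∀ ℓ : ℕ, ℓ.Prime → pIndex ℓ X ≠ 0) :
    ∀ n : ℕ, 0 < n → (X.map (nsmulAddMonoidHom n)).relIndex X ≠ 0 := fun n => by
  induction n using Nat.strong_induction_on with
  | _ n ih =>
    intro hn
    rcases eq_or_lt_of_le (Nat.one_le_iff_ne_zero.mpr hn.ne') with rfl | h1
    · rw [Ne, show (nsmulAddMonoidHom 1 : A →+ A) = AddMonoidHom.id A from
        AddMonoidHom.ext fun a => one_nsmul a, AddSubgroup.map_id, relIndex_self]
      exact one_ne_zero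
    · obtain ⟨ℓ, hℓ, hdvd⟩ := Nat.exists_prime_and_dvd h1.ne'
      obtain ⟨m, rfl⟩ := hdvd
      have hm : 0 < m := Nat.pos_of_ne_zero fun h => by simp [h] at hn
      have hlt : m < ℓ * m := lt_mul_left hm hℓ.one_lt
      have e : X.map (nsmulAddMonoidHom (ℓ * m)) =
          (X.map (nsmulAddMonoidHom m)).map (nsmulAddMonoidHom ℓ) := by
        rw [AddSubgroup.map_map]
        congr 1
        exact AddMonoidHom.ext fun a => mul_nsmul' a ℓ m
      have e' : X.map (nsmulAddMonoidHom (ℓ * m)) =
          (X.map (nsmulAddMonoidHom ℓ)).map (nsmulAddMonoidHom m) := by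
        rw [AddSubgroup.map_map]
        congr 1
        exact AddMonoidHom.ext fun a => mul_nsmul a ℓ m
      rw [← relIndex_mul_relIndex _ (X.map (nsmulAddMonoidHom m)) _ (by
        rw [e]; exact map_nsmul_le_self ℓ _) (map_nsmul_le_self m _)]
      refine mul_ne_zero (fun h0 => h ℓ hℓ ?_) (ih m hlt hm)
      rw [e'] at h0
      have h2 := relIndex_map_map (nsmulAddMonoidHom m : A →+ A) (X.map (nsmulAddMonoidHom ℓ)) X
      rw [h0] at h2
      set B := X.map (nsmulAddMonoidHom ℓ) ⊔ (nsmulAddMonoidHom m : A →+ A).ker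
      have h3 : X ⊔ (nsmulAddMonoidHom m : A →+ A).ker = X ⊔ B := by
        rw [← sup_assoc, sup_eq_left.mpr (map_nsmul_le_self ℓ X)]
      rw [h3, relIndex_sup_right] at h2
      exact relIndex_eq_zero_of_le_left le_sup_left h2.symm

end FermatAgent.CFT.Coh
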