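import Fermat.Agent.CFT.Coh.Herbrand
import Fermat.Agent.CFT.Coh.Lattice

/-!
Indices in products, and the shift of functions on a cyclic group.
-/

set_option autoImplicit false

noncomputable section

open scoped Classical

namespace FermatAgent.CFT.Coh

open AddSubgroup

section Pi

variable {ι : Type*} [Fintype ι] {A : ι → Type*} [∀ i, AddCommGroup (A i)]

/-- Relative indices of products are products. -/
lemma relIndex_pi (H K : ∀ i, AddSubgroup (A i)) :
    (AddSubgroup.pi Set.univ H).relIndex (AddSubgroup.pi Set.univ K) =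
      ∏ i, (H i).relIndex (K i) := by
  let e : (∀ i, K i) →+ ∀ i, A i :=
    { toFun := fun x i => (x i : A i)
      map_zero' := rfl
      map_add' := fun _ _ => rfl }
  have h1 : (AddSubgroup.pi Set.univ H).comap e =
      AddSubgroup.pi Set.univ fun i => (H i).addSubgroupOf (K i) := by
    ext x; simp [e, AddSubgroup.mem_pi, AddSubgroup.mem_addSubgroupOf]
  have h2 : (⊤ : AddSubgroup (∀ i, K i)).map e = AddSubgroup.pi Set.univ K := by
    ext x
    simp only [AddSubgroup.mem_map, mem_top, true_and, AddSubgroup.mem_pi, Set.mem_univ,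
      forall_true_left]
    exact ⟨fun ⟨y, hy⟩ i => hy ▸ (y i).2, fun h => ⟨fun i => ⟨x i, h i⟩, rfl⟩⟩
  rw [← h2, ← relIndex_comap, h1, relIndex_top_right]
  refine Eq.trans ?_ (Finset.prod_congr rfl fun i _ => rfl)
  rw [AddSubgroup.index, ← Nat.card_congr (Equiv.refl _)]
  simp only [AddSubgroup.relIndex, AddSubgroup.index, ← Nat.card_pi]
  exact Nat.card_congr ((Quotient.congrRight (fun x y => by
    rw [QuotientAddGroup.leftRel_pi])).trans (Setoid.piQuotientEquiv _).symm)

/-- A componentwise map. -/
def piEnd (f : ∀ i, A i →+ A i) : (∀ i, A i) →+ ∀ i, A i where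
  toFun x i := f i (x i)
  map_zero' := funext fun i => map_zero (f i)
  map_add' _ _ := funext fun i => map_add (f i) _ _

omit [Fintype ι] in
/-- The product of endomorphisms acts coordinatewise. -/
@[simp] lemma piEnd_apply (f : ∀ i, A i →+ A i) (x : ∀ i, A i) (i : ι) :
    piEnd f x i = f i (x i) := rfl

/-- The Herbrand index of a product is the product. -/
lemma hIdx_pi (f g : ∀ i, A i →+ A i) (X : ∀ i, AddSubgroup (A i)) :
    hIdx (piEnd f) (piEnd g) (AddSubgroup.pi Set.univ X) = ∏ i, hIdx (f i) (g i) (X i) := by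
  have h1 : (AddSubgroup.pi Set.univ X).map (piEnd g) =
      AddSubgroup.pi Set.univ fun i => (X i).map (g i) := by
    ext x
    simp only [AddSubgroup.mem_map, AddSubgroup.mem_pi, Set.mem_univ, forall_true_left]
    constructor
    · rintro ⟨y, hy, rfl⟩ i; exact ⟨y i, hy i, rfl⟩
    · intro h
      choose y hy hyx using h
      exact ⟨y, hy, funext hyx⟩
  have h2 : AddSubgroup.pi Set.univ X ⊓ (piEnd f).ker =
      AddSubgroup.pi Set.univ fun i => X i ⊓ (f i).ker := by
    ext x
    simp only [AddSubgroup.mem_inf, AddSubgroup.mem_pi, Set.mem_univ, forall_true_left,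
      AddMonoidHom.mem_ker, funext_iff, piEnd_apply, Pi.zero_apply, forall_and]
  rw [hIdx, h1, h2, relIndex_pi]
  rfl

end Pi

section Shift

variable {p : ℕ} [NeZero p] {M : Type*} [AddCommGroup M]

/-- Translation of the argument by one. -/
def shift : (ZMod p → M) →+ (ZMod p → M) where
  toFun φ i := φ (i + 1)
  map_zero' := rfl
  map_add' _ _ := rfl

section
omit [NeZero p]

/-- The shift moves coordinates by one. -/
@[simp] lemma shift_apply (φ : ZMod p → M) (i : ZMod p) : shift φ i = φ (i + 1) := rfl

lemma shift_iterate (φ : ZMod p → M) (k : ℕ) (i : ZMod p) :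
    (shift (p := p) (M := M))^[k] φ i = φ (i + k) := by
  induction k generalizing φ with
  | zero => simp
  | succ k ih =>
    rw [Function.iterate_succ_apply, ih, shift_apply, Nat.cast_succ, add_assoc]

/-- The shift has period `p`. -/
lemma shift_period (φ : ZMod p → M) : (shift (p := p) (M := M))^[p] φ = φ :=
  funext fun i => by rw [shift_iterate, ZMod.natCast_self, add_zero]

end

/-- Sums over residues as sums over a range. -/
lemma sum_eq_range (φ : ZMod p → M) : ∑ k ∈ Finset.range p, φ (k : ZMod p) = ∑ j, φ j := by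
  refine Finset.sum_bij (fun k _ => (k : ZMod p)) (fun _ _ => Finset.mem_univ _)
    (fun a ha b hb h => ?_) (fun j _ => ⟨j.val, Finset.mem_range.mpr (ZMod.val_lt j),
      ZMod.natCast_zmod_val j⟩) fun _ _ => rfl
  have h' := congrArg ZMod.val h
  rwa [ZMod.val_natCast_of_lt (Finset.mem_range.mp ha),
    ZMod.val_natCast_of_lt (Finset.mem_range.mp hb)] at h'

/-- The norm of the shift sums all coordinates. -/
lemma traceEnd_shift (φ : ZMod p → M) (i : ZMod p) :
    traceEnd (shift (p := p) (M := M)) p φ i = ∑ j, φ j := by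
  rw [traceEnd_apply, Finset.sum_apply]
  simp only [shift_iterate]
  rw [sum_eq_range (fun k => φ (i + k))]
  exact Equiv.sum_comp (Equiv.addLeft i) φ

/-- Shift-invariant vectors are constant. -/
lemma eq_const_of_diffEnd {φ : ZMod p → M} (h : diffEnd (shift (p := p) (M := M)) φ = 0)
    (i : ZMod p) : φ i = φ 0 := by
  rw [diffEnd_apply, sub_eq_zero] at h
  conv_rhs => rw [← shift_period φ, shift_iterate]
  have : ∀ k : ℕ, (shift (p := p) (M := M))^[k] φ = φ := fun k => Function.iterate_fixed h k
  conv_lhs => rw [← congrFun (this (p - i.val)) i]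
  rw [shift_iterate, zero_add]
  congr 1
  rw [Nat.cast_sub (ZMod.val_lt i).le, ZMod.natCast_zmod_val, add_sub_cancel]

end Shift

end FermatAgent.CFT.Coh
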