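import Fermat.Agent.CFT.Coh.Lift
import Fermat.Agent.CFT.Coh.CyclicClass

/-!
Classes killed by a subgroup are killed by its index; characters of prime order from normal
subgroups of prime index; steps between a normal subgroup and a group containing it.
-/

set_option autoImplicit false

noncomputable section

open scoped Classical

universe u v

namespace FermatAgent.CFT.Coh

variable {Γ : Type u} [Group Γ] {L : Levels Γ} {A : Type v} [AddCommGroup A] [DistribMulAction Γ A]

lemma index_nsmul_mem_B2_top {P : Subgroup Γ} [P.FiniteIndex] (hP : P ∈ L) (hA : L.Smooth A)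
    {f : Γ → Γ → A} (hf : f ∈ L.Z2 ⊤ A) (h : f ∈ L.B2 P A) : P.index • f ∈ L.B2 ⊤ A := by
  let ι : A →+ Ind P A :=
    { toFun := fun m => Ind.mk P fun _ => m
      map_zero' := rfl
      map_add' := fun _ _ => rfl }
  have hι : ∀ g ∈ (⊤ : Subgroup Γ), ∀ m, ι (g • m) = g • ι m := fun g _ m => Ind.ext fun _ => rfl
  have h1 := mem_B2_of_eval_mem_B2 hP (smooth_ind hP hA) (Levels.map_mem_Z2 ι hι hf) h
  refine Levels.B2_congr (Levels.map_mem_B2 Ind.total (fun g _ φ => Ind.total_smul g φ) h1)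
    fun g _ k _ => ?_
  show P.index • f g k = ∑ _c : Γ ⧸ P, f g k
  rw [Finset.sum_const, Finset.card_univ, ← Nat.card_eq_fintype_card, ← Subgroup.index_eq_card]

/-- Smoothness pulls back along a homomorphism. -/
lemma smooth_comap {Δ : Type*} [Group Δ] [DistribMulAction Δ A] (r : Δ →* Γ)
    (hr : ∀ (d : Δ) (a : A), d • a = r d • a) (hA : L.Smooth A) :
    (L.comap r).Smooth A := fun a => by
  obtain ⟨V, hV, h⟩ := hA a
  exact ⟨V.comap r, L.comap_mem r hV, fun s hs => (hr s a).trans (h _ hs)⟩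

/-- A class killed on a subgroup is killed by the relative index. -/
theorem relIndex_nsmul_mem_B2 {W P : Subgroup Γ} (hP : P ∈ L) (hA : L.Smooth A)
    {f : Γ → Γ → A} (hf : f ∈ L.Z2 W A) (h : f ∈ L.B2 P A) : P.relIndex W • f ∈ L.B2 W A := by
  set LW := L.comap W.subtype
  have hP' : P.subgroupOf W ∈ LW := L.comap_mem _ hP
  have := LW.finiteIndex hP'
  have hr : ∀ (d : W) (a : A), d • a = W.subtype d • a := fun _ _ => rfl
  have hf' : (fun g k : W => f g k) ∈ LW.Z2 ⊤ A :=
    Levels.pullback_mem_Z2 W.subtype hr (fun d _ => d.2) hf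
  have h' : (fun g k : W => f g k) ∈ LW.B2 (P.subgroupOf W) A :=
    Levels.pullback_mem_B2 W.subtype hr le_rfl h
  exact mem_B2_of_subtype (index_nsmul_mem_B2_top hP' (smooth_comap _ hr hA) hf' h')

/-- A class is split by a small normal subgroup. -/
theorem exists_normal_mem_B2 {W : Subgroup Γ} (hW : W ∈ L) (hA : L.Smooth A) {f : Γ → Γ → A}
    (hf : f ∈ L.Z2 W A) : ∃ N ∈ L, N.Normal ∧ N ≤ W ∧ f ∈ L.B2 N A := by
  obtain ⟨V, hV, hc⟩ := hf.1
  obtain ⟨V', hV', hfix⟩ := hA (f 1 1)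
  obtain ⟨N, hN, hNn, hle⟩ := L.exists_normal (L.inf_mem (L.inf_mem hV hV') hW)
  refine ⟨N, hN, hNn, hle.trans inf_le_right, fun _ => f 1 1, Levels.const1_const _,
    fun g hg h hh => ?_⟩
  have e := hc 1 (one_mem W) 1 (one_mem W) g ⟨(hle hg).2, (hle hg).1.1⟩ h
    ⟨(hle hh).2, (hle hh).1.1⟩
  rw [one_mul, one_mul] at e
  rw [e, d1, hfix g (hle hg).1.2]
  abel

/-- A normal subgroup of prime power index sits in one of index a prime. -/
theorem exists_relIndex_eq_prime {W N : Subgroup Γ} (hN : N ≤ W) [hn : (N.subgroupOf W).Normal]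
    {p a : ℕ} [hp : Fact p.Prime] (h : N.relIndex W = p ^ (a + 1)) :
    ∃ P, N ≤ P ∧ P ≤ W ∧ (P.subgroupOf W).Normal ∧ P.relIndex W = p ∧ N.relIndex P = p ^ a ∧
      (N.subgroupOf P).Normal := by
  set N' := N.subgroupOf W
  have hcard : Nat.card (W ⧸ N') = p ^ (a + 1) := h
  have : Finite (W ⧸ N') := Nat.finite_of_card_ne_zero (by
    rw [hcard]; exact pow_ne_zero _ hp.out.ne_zero)
  obtain ⟨H, hH⟩ := Sylow.exists_subgroup_card_pow_prime p (G := W ⧸ N') (n := a)
    (by rw [hcard]; exact pow_dvd_pow p (Nat.le_succ a))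
  have hHidx : H.index = p := by
    refine Nat.eq_of_mul_eq_mul_left (pow_pos hp.out.pos a) ?_
    rw [← hH, Subgroup.card_mul_index, hH, hcard, pow_succ]
  have hHn : H.Normal := Subgroup.normal_of_index_eq_minFac_card (by
    rw [hHidx, hcard, Nat.Prime.pow_minFac hp.out (Nat.succ_ne_zero a)])
  set P : Subgroup Γ := (H.comap (QuotientGroup.mk' N')).map W.subtype
  have hPH : P.subgroupOf W = H.comap (QuotientGroup.mk' N') :=
    Subgroup.comap_map_eq_self_of_injective Subtype.val_injective _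
  have hPW : P ≤ W := Subgroup.map_subtype_le _
  have hNP : N ≤ P := fun g hg => ⟨⟨g, hN hg⟩, by
    show ((⟨g, hN hg⟩ : W) : W ⧸ N') ∈ H
    rw [(QuotientGroup.eq_one_iff _).mpr (show (⟨g, hN hg⟩ : W) ∈ N' from hg)]
    exact one_mem H, rfl⟩
  have hPidx : P.relIndex W = p := by
    rw [Subgroup.relIndex, hPH,
      Subgroup.index_comap_of_surjective _ (QuotientGroup.mk'_surjective _), hHidx]
  refine ⟨P, hNP, hPW, hPH ▸ hHn.comap _, hPidx, Nat.eq_of_mul_eq_mul_right hp.out.pos ?_,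
    ⟨fun g hg s => hn.conj_mem ⟨g.1, hPW g.2⟩ hg ⟨s.1, hPW s.2⟩⟩⟩
  rw [← pow_succ, ← h, ← hPidx]
  exact Subgroup.relIndex_mul_relIndex _ _ _ hNP hPW

/-- Above a normal subgroup of finite index there is one of index prime to `p` in which it has
index a power of `p`. -/
theorem exists_relIndex_primePow {W N : Subgroup Γ} (hN : N ≤ W) [(N.subgroupOf W).Normal]
    [(N.subgroupOf W).FiniteIndex] (p : ℕ) [Fact p.Prime] :
    ∃ (P : Subgroup Γ) (a : ℕ), N ≤ P ∧ P ≤ W ∧ ¬ p ∣ P.relIndex W ∧ N.relIndex P = p ^ a := by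
  set N' := N.subgroupOf W
  have : Finite (W ⧸ N') := Subgroup.finite_quotient_of_finiteIndex
  let Q : Sylow p (W ⧸ N') := default
  obtain ⟨a, ha⟩ := IsPGroup.iff_card.mp Q.isPGroup'
  set P : Subgroup Γ := ((Q : Subgroup (W ⧸ N')).comap (QuotientGroup.mk' N')).map W.subtype
  have hPW : P ≤ W := Subgroup.map_subtype_le _
  have hNP : N ≤ P := fun g hg => ⟨⟨g, hN hg⟩, by
    show ((⟨g, hN hg⟩ : W) : W ⧸ N') ∈ (Q : Subgroup (W ⧸ N'))
    rw [(QuotientGroup.eq_one_iff _).mpr (show (⟨g, hN hg⟩ : W) ∈ N' from hg)]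
    exact one_mem _, rfl⟩
  have hPidx : P.relIndex W = (Q : Subgroup (W ⧸ N')).index := by
    rw [Subgroup.relIndex, show P.subgroupOf W = (Q : Subgroup (W ⧸ N')).comap
        (QuotientGroup.mk' N') from
      Subgroup.comap_map_eq_self_of_injective Subtype.val_injective _,
      Subgroup.index_comap_of_surjective _ (QuotientGroup.mk'_surjective _)]
  refine ⟨P, a, hNP, hPW, hPidx ▸ Q.not_dvd_index, Nat.eq_of_mul_eq_mul_right
    (Nat.pos_of_ne_zero (Subgroup.index_ne_zero_of_finite (H := (Q : Subgroup (W ⧸ N'))))) ?_⟩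
  rw [← ha, Subgroup.card_mul_index, ← hPidx]
  exact Subgroup.relIndex_mul_relIndex _ _ _ hNP hPW

/-- The character attached to a normal subgroup of prime index. -/
theorem exists_cycChar_of_index_prime {W N : Subgroup Γ} (hNW : N ≤ W)
    (hN : N ∈ L) [(N.subgroupOf W).Normal] {p : ℕ} [hp : Fact p.Prime]
    (hidx : N.relIndex W = p) :
    ∃ (χ : CycChar L W p) (σ : Γ), σ ∈ W ∧ χ σ = 1 ∧ χ.ker = N := by
  set Q := W ⧸ N.subgroupOf W
  have hcard : Nat.card Q = p := hidx
  have : IsCyclic Q := isCyclic_of_prime_card hcard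
  let e : Multiplicative (ZMod p) ≃* Q :=
    (AddEquiv.toMultiplicative (ZMod.ringEquivCongr hcard.symm).toAddEquiv).trans
      (zmodCyclicMulEquiv inferInstance)
  let π : W →* Q := QuotientGroup.mk' _
  let χ : CycChar L W p :=
    { toFun := fun g => if hg : g ∈ W then Multiplicative.toAdd (e.symm (π ⟨g, hg⟩)) else 0
      map_mul' := fun g hg h hh => by
        rw [dif_pos hg, dif_pos hh, dif_pos (mul_mem hg hh), ← toAdd_mul, ← map_mul, ← map_mul]
        rfl
      const' := ⟨N, hN, fun g hg s hs => by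
        dsimp only
        rw [dif_pos (show g * s ∈ W from mul_mem hg hs.1), dif_pos hg]
        refine congrArg _ (congrArg _ ?_)
        show ((⟨g * s, _⟩ : W) : Q) = ((⟨g, hg⟩ : W) : Q)
        rw [QuotientGroup.eq, Subgroup.mem_subgroupOf]
        show (g * s)⁻¹ * g ∈ N
        rw [mul_inv_rev, mul_assoc, inv_mul_cancel, mul_one]
        exact inv_mem hs.2⟩ }
  obtain ⟨σ, hσ⟩ := QuotientGroup.mk'_surjective (N.subgroupOf W) (e (Multiplicative.ofAdd 1))
  refine ⟨χ, σ, σ.2, ?_, ?_⟩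
  · show (if hg : (σ : Γ) ∈ W then Multiplicative.toAdd (e.symm (π ⟨σ, hg⟩)) else 0) = 1
    rw [dif_pos σ.2, show π ⟨σ, σ.2⟩ = e (Multiplicative.ofAdd 1) from hσ, e.symm_apply_apply,
      toAdd_ofAdd]
  · ext g
    rw [CycChar.mem_ker]
    constructor
    · rintro ⟨hg, h⟩
      change (if hg : g ∈ W then Multiplicative.toAdd (e.symm (π ⟨g, hg⟩)) else 0) = 0 at h
      rw [dif_pos hg, toAdd_eq_zero, MulEquiv.map_eq_one_iff] at h
      exact (QuotientGroup.eq_one_iff (⟨g, hg⟩ : W)).mp h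
    · intro h
      refine ⟨hNW h, ?_⟩
      show (if hg : g ∈ W then Multiplicative.toAdd (e.symm (π ⟨g, hg⟩)) else 0) = 0
      rw [dif_pos (hNW h), show π ⟨g, hNW h⟩ = 1 from (QuotientGroup.eq_one_iff _).mpr h, map_one,
        toAdd_one]

end FermatAgent.CFT.Coh
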