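import Fermat.Agent.CFT.Coh.Functional

/-!
Reduction of the index `p` steps to groups on which a character is trivial.
-/

set_option autoImplicit false

noncomputable section

open scoped Classical

universe u v

namespace FermatAgent.CFT.Coh

variable {Γ : Type u} [Group Γ] {L : Levels Γ}

/-- Corestriction surjectivity passes to larger subgroups. -/
lemma corSurj_mono {U P : Subgroup Γ} [U.FiniteIndex] [P.FiniteIndex] (h : U ≤ P) {M : Type v}
    [AddCommGroup M] [DistribMulAction Γ M] (hs : CorSurj L U M) : CorSurj L P M := fun f hf => by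
  obtain ⟨F, hF, hFf⟩ := hs f hf
  refine ⟨fun g k => Ind.fibreSum h (F g k),
    Levels.map_mem_Z2 _ (fun g _ => Ind.fibreSum_smul h g) hF, ?_⟩
  simpa only [Ind.total_fibreSum] using hFf

/-- It suffices to treat the steps inside the kernel of a character prime to `p`. -/
theorem stepSurj_of_ker {p : ℕ} [hp : Fact p.Prime] (χ : Γ →* (ZMod p)ˣ) (hker : χ.ker ∈ L)
    {U : Subgroup Γ} (hU : U ≤ χ.ker)
    (H : ∀ (Δ : Type u) [Group Δ] (e : Δ →* Γ), Function.Injective e → e.range ∈ L →
      e.range ≤ χ.ker → ∀ (V : Subgroup Δ) [V.FiniteIndex], V.Normal → V.index = p →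
        V ∈ L.comap e → U ≤ V.map e → CorSurj (L.comap e) V (Triv Δ (ZMod p))) :
    StepSurj L p U := by
  intro Δ _ e he hr hUr V _ hVn hVp hVL hUV
  have := hVn
  set ψ := χ.comp e
  set P := ψ.ker
  have hP : P ∈ L.comap e := by
    rw [show P = χ.ker.comap e from (MonoidHom.comap_ker χ e).symm]
    exact L.comap_mem e hker
  have := (L.comap e).finiteIndex hP
  have hPidx : ¬ p ∣ P.index := fun h => by
    have h1 : P.index ∣ p - 1 := by
      rw [Subgroup.index_ker, ← ZMod.card_units p, ← Nat.card_eq_fintype_card]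
      exact Subgroup.card_subgroup_dvd_card _
    have h2 := Nat.le_of_dvd (Nat.sub_pos_of_lt hp.out.one_lt) (h.trans h1)
    have := hp.out.pos
    omega
  set W := V ⊓ P
  have hW : W ∈ L.comap e := (L.comap e).inf_mem hVL hP
  have := (L.comap e).finiteIndex hW
  have hrel : W.relIndex P = p := by
    rw [Subgroup.inf_relIndex_right]
    rcases (Nat.dvd_prime hp.out).mp (hVp ▸ Subgroup.relIndex_dvd_index_of_normal V P) with h | h
    · exact absurd (hVp ▸ Subgroup.index_dvd_of_le (Subgroup.relIndex_eq_one.mp h)) hPidx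
    · exact h
  have : (W.subgroupOf P).FiniteIndex := ⟨by
    show W.relIndex P ≠ 0
    rw [hrel]; exact hp.out.ne_zero⟩
  refine corSurj_mono (inf_le_left : W ≤ V) (corSurj_trans hW hP
    (smooth_of_trivial_on (L.comap e).top_mem fun _ _ _ => rfl) inf_le_right
    (corSurj_of_coprime (p := p) hPidx) ?_)
  have hn : (W.subgroupOf P).Normal := by
    rw [Subgroup.inf_subgroupOf_right]
    exact inferInstanceAs (V.comap P.subtype).Normal
  have h := H P (e.comp P.subtype) (he.comp Subtype.val_injective) ?_ ?_ (W.subgroupOf P) hn hrel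
    (by rw [← Levels.comap_comap]; exact (L.comap e).comap_mem _ hW) ?_
  · rw [Levels.comap_comap]; exact h
  · refine Levels.mem_of_le (L.inf_mem hr hker) ?_
    rintro x ⟨⟨d, rfl⟩, hd⟩
    exact ⟨⟨d, hd⟩, rfl⟩
  · rintro x ⟨d, rfl⟩
    exact d.2
  · intro x hx
    obtain ⟨d, hd, rfl⟩ := hUV hx
    exact ⟨⟨d, hU hx⟩, ⟨hd, hU hx⟩, rfl⟩

end FermatAgent.CFT.Coh
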